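import Mathlib

/-!
# Program MW (S17), heights half (A), §8.4/§8.5: the abstract assembly of positivity and Northcott

Owner: helper7.  Namespace `Fermat.Agent.MW17`, prefix `mw17ps`.  Mathlib only.

Setting: `Pt` = the finite points of the curve, `X` = the Jacobian, `cls Q` = the class
`[Q_1 + … + Q_g − g·P0]` of a tuple `Q : Fin g → Pt`, `Gd Q` = "`Q` is a good tuple" (injective,
off the excluded set, `l(ΣQ_b) = 1`).  Global real-valued quantities on points: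
`hP0` (height w.r.t. `P0`), `hω` (height of the canonical tuple), `βtan` (tangent term),
`β` (the pairing of two distinct points).  The four inputs are

* `(b)` Mumford's formula (only `≥`): `2 Σ_{k<i} β(Q_k,Q_i) + Σ_b (βtan + 2g·hP0)(Q_b) − C₁ ≤ h (cls Q)`;
* `(a)` Hadamard + product formula: `−Σ_b hω(Q_b) − C₂ ≤ Σ_{k<i} β(Q_k,Q_i)`;
* `(c)` tangent comparison: `hω(Q_b) − C₃ ≤ βtan(Q_b)`;
* `(d)` `hω(Q_b) ≤ a·hP0(Q_b) + C₄` (with `a = 2g − 2 + ε`).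

Output: `(2g − a)·Σ_b hP0(Q_b) − C ≤ h (cls Q)` (`mw17ps_lower_of_parts`), the lower bound on the
good classes (`mw17ps_good_lower`), and Northcott on the good classes from Northcott for points
of bounded degree (`mw17ps_good_northcott`); packaged in the literal shape of the hypotheses
`hlow`, `hN` of `Fermat.Agent.MW.mwgs_fg_of_good` (`mw17ps_good_main`).
-/

set_option autoImplicit false

namespace Fermat.Agent.MW17

open Finset

/-- the sum of `β (Q k) (Q i)` over the pairs `k < i` (same indexing as `hthd_det_le`). -/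
noncomputable def mw17psPairs {Pt : Type*} (β : Pt → Pt → ℝ) {g : ℕ} (Q : Fin g → Pt) : ℝ :=
  ∑ i, ∑ k ∈ Finset.univ.filter (· < i), β (Q k) (Q i)

/-- the same sum over the set of ordered pairs `(k, i)` with `k < i`. -/
theorem mw17psPairs_eq_sum_product {Pt : Type*} (β : Pt → Pt → ℝ) {g : ℕ} (Q : Fin g → Pt) :
    mw17psPairs β Q =
      ∑ p ∈ (Finset.univ : Finset (Fin g × Fin g)).filter (fun p => p.1 < p.2),
        β (Q p.1) (Q p.2) := by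
  unfold mw17psPairs
  rw [Finset.sum_filter, ← Finset.univ_product_univ, Finset.sum_product_right]
  refine Finset.sum_congr rfl fun i _ => ?_
  rw [Finset.sum_filter]

/-- the same sum with the smaller index outside (indexing `∑ b, ∑ c ∈ Finset.Ioi b`). -/
theorem mw17psPairs_eq_sum_Ioi {Pt : Type*} (β : Pt → Pt → ℝ) {g : ℕ} (Q : Fin g → Pt) :
    mw17psPairs β Q = ∑ b, ∑ c ∈ Finset.Ioi b, β (Q b) (Q c) := by
  unfold mw17psPairs
  have h1 : ∀ i : Fin g, ∑ k ∈ Finset.univ.filter (· < i), β (Q k) (Q i) =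
      ∑ k, if k < i then β (Q k) (Q i) else 0 := fun i => Finset.sum_filter _ _
  have h2 : ∀ b : Fin g, ∑ c ∈ Finset.Ioi b, β (Q b) (Q c) =
      ∑ c, if b < c then β (Q b) (Q c) else 0 := by
    intro b
    rw [← Finset.sum_filter]
    refine Finset.sum_congr ?_ fun _ _ => rfl
    ext c
    simp
  rw [Finset.sum_congr rfl fun i _ => h1 i, Finset.sum_congr rfl fun b _ => h2 b,
    Finset.sum_comm]

/-- for a symmetric `β`: twice the sum over `k < i` is the sum over `k ≠ i`. -/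
theorem mw17psPairs_two_mul {Pt : Type*} (β : Pt → Pt → ℝ) (hsymm : ∀ P R, β P R = β R P)
    {g : ℕ} (Q : Fin g → Pt) :
    2 * mw17psPairs β Q = ∑ i, ∑ k ∈ Finset.univ.filter (· ≠ i), β (Q k) (Q i) := by
  have h1 : ∀ i : Fin g, ∑ k ∈ Finset.univ.filter (· ≠ i), β (Q k) (Q i) =
      (∑ k ∈ Finset.univ.filter (· < i), β (Q k) (Q i)) +
        ∑ k ∈ Finset.univ.filter (i < ·), β (Q k) (Q i) := by
    intro i
    rw [← Finset.sum_union]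
    · refine Finset.sum_congr ?_ fun _ _ => rfl
      ext k
      simp only [Finset.mem_filter, Finset.mem_univ, true_and, Finset.mem_union]
      exact lt_or_lt_iff_ne.symm
    · rw [Finset.disjoint_filter]
      intro k _ h1 h2
      exact lt_asymm h1 h2
  rw [Finset.sum_congr rfl fun i _ => h1 i, Finset.sum_add_distrib]
  have h2 : ∑ i : Fin g, ∑ k ∈ Finset.univ.filter (i < ·), β (Q k) (Q i) = mw17psPairs β Q := by
    unfold mw17psPairs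
    simp only [Finset.sum_filter]
    rw [Finset.sum_comm]
    refine Finset.sum_congr rfl fun k _ => Finset.sum_congr rfl fun i _ => ?_
    rw [hsymm]
  rw [h2]
  unfold mw17psPairs
  ring

section Lower

variable {Pt X : Type*} {g : ℕ} (hP0 hω βtan : Pt → ℝ) (β : Pt → Pt → ℝ) (h : X → ℝ)
  (cls : (Fin g → Pt) → X) (Gd : (Fin g → Pt) → Prop)

/-- **(8.4), the combination (a)–(d).** -/
theorem mw17ps_lower_of_parts {C₁ C₂ C₃ C₄ a : ℝ}
    (hmum : ∀ Q, Gd Q →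
      2 * mw17psPairs β Q + ∑ b, (βtan (Q b) + 2 * (g : ℝ) * hP0 (Q b)) - C₁ ≤ h (cls Q))
    (hhad : ∀ Q, Gd Q → -(∑ b, hω (Q b)) - C₂ ≤ mw17psPairs β Q)
    (htan : ∀ Q, Gd Q → ∀ b, hω (Q b) - C₃ ≤ βtan (Q b))
    (heps : ∀ Q, Gd Q → ∀ b, hω (Q b) ≤ a * hP0 (Q b) + C₄) :
    ∀ Q, Gd Q →
      (2 * (g : ℝ) - a) * ∑ b, hP0 (Q b) - (C₁ + 2 * C₂ + (g : ℝ) * (C₃ + C₄)) ≤ h (cls Q) := by
  intro Q hQ
  have h1 := hmum Q hQ
  have h2 := hhad Q hQ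
  have h3 : ∑ b, (hω (Q b) - C₃) ≤ ∑ b, βtan (Q b) :=
    Finset.sum_le_sum fun b _ => htan Q hQ b
  have h4 : ∑ b, hω (Q b) ≤ ∑ b, (a * hP0 (Q b) + C₄) :=
    Finset.sum_le_sum fun b _ => heps Q hQ b
  rw [Finset.sum_sub_distrib, Finset.sum_const, Finset.card_univ, Fintype.card_fin,
    nsmul_eq_mul] at h3
  rw [Finset.sum_add_distrib, Finset.sum_const, Finset.card_univ, Fintype.card_fin,
    nsmul_eq_mul, ← Finset.mul_sum] at h4
  rw [Finset.sum_add_distrib, ← Finset.mul_sum] at h1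
  nlinarith [h1, h2, h3, h4]

/-- **(8.4), the combination (a)–(d), ε-form of (c)**: the tangent term is only compared with
`a' · hP0` (`a' = κ − ε`, `κ = deg div(dx)`), no comparison with the canonical tuple. -/
theorem mw17ps_lower_of_parts' {C₁ C₂ C₃ C₄ a a' : ℝ}
    (hmum : ∀ Q, Gd Q →
      2 * mw17psPairs β Q + ∑ b, (βtan (Q b) + 2 * (g : ℝ) * hP0 (Q b)) - C₁ ≤ h (cls Q))
    (hhad : ∀ Q, Gd Q → -(∑ b, hω (Q b)) - C₂ ≤ mw17psPairs β Q)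
    (htan : ∀ Q, Gd Q → ∀ b, a' * hP0 (Q b) - C₃ ≤ βtan (Q b))
    (heps : ∀ Q, Gd Q → ∀ b, hω (Q b) ≤ a * hP0 (Q b) + C₄) :
    ∀ Q, Gd Q →
      (2 * (g : ℝ) + a' - 2 * a) * ∑ b, hP0 (Q b) -
        (C₁ + 2 * C₂ + (g : ℝ) * (C₃ + 2 * C₄)) ≤ h (cls Q) := by
  intro Q hQ
  have h1 := hmum Q hQ
  have h2 := hhad Q hQ
  have h3 : ∑ b, (a' * hP0 (Q b) - C₃) ≤ ∑ b, βtan (Q b) :=
    Finset.sum_le_sum fun b _ => htan Q hQ b
  have h4 : ∑ b, hω (Q b) ≤ ∑ b, (a * hP0 (Q b) + C₄) :=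
    Finset.sum_le_sum fun b _ => heps Q hQ b
  rw [Finset.sum_sub_distrib, Finset.sum_const, Finset.card_univ, Fintype.card_fin,
    nsmul_eq_mul, ← Finset.mul_sum] at h3
  rw [Finset.sum_add_distrib, Finset.sum_const, Finset.card_univ, Fintype.card_fin,
    nsmul_eq_mul, ← Finset.mul_sum] at h4
  rw [Finset.sum_add_distrib, ← Finset.mul_sum] at h1
  nlinarith [h1, h2, h3, h4]

/-- the lower bound on the good classes, from `hP0 ≥ -c₀`. -/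
theorem mw17ps_good_lower {c C c₀ : ℝ} (hc : 0 ≤ c) (hpos : ∀ P, -c₀ ≤ hP0 P)
    (hlow : ∀ Q, Gd Q → c * ∑ b, hP0 (Q b) - C ≤ h (cls Q)) :
    ∀ Q, Gd Q → -(c * ((g : ℝ) * c₀) + C) ≤ h (cls Q) := by
  intro Q hQ
  have h1 := hlow Q hQ
  have h2 : ∑ _b : Fin g, (-c₀) ≤ ∑ b, hP0 (Q b) := Finset.sum_le_sum fun b _ => hpos (Q b)
  rw [Finset.sum_const, Finset.card_univ, Fintype.card_fin, nsmul_eq_mul] at h2
  have h3 : c * ((g : ℝ) * -c₀) ≤ c * ∑ b, hP0 (Q b) := mul_le_mul_of_nonneg_left h2 hc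
  linarith

/-- a bound for the height of each point of a good tuple of bounded height. -/
theorem mw17ps_point_le {c C c₀ : ℝ} (hc : 0 < c) (hpos : ∀ P, -c₀ ≤ hP0 P)
    (hlow : ∀ Q, Gd Q → c * ∑ b, hP0 (Q b) - C ≤ h (cls Q)) (B : ℝ) :
    ∀ Q, Gd Q → h (cls Q) ≤ B → ∀ b, hP0 (Q b) ≤ (B + C) / c + (g : ℝ) * |c₀| := by
  intro Q hQ hB b
  have h1 := hlow Q hQ
  have h2 : ∑ b' ∈ Finset.univ.erase b, (-|c₀|) ≤ ∑ b' ∈ Finset.univ.erase b, hP0 (Q b') :=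
    Finset.sum_le_sum fun b' _ => (neg_le_neg (le_abs_self c₀)).trans (hpos (Q b'))
  rw [Finset.sum_const, nsmul_eq_mul] at h2
  have h3 : hP0 (Q b) + ∑ b' ∈ Finset.univ.erase b, hP0 (Q b') = ∑ b', hP0 (Q b') :=
    Finset.add_sum_erase _ (fun b' => hP0 (Q b')) (Finset.mem_univ b)
  have h4 : ((Finset.univ.erase b).card : ℝ) ≤ (g : ℝ) := by
    have : (Finset.univ.erase b).card ≤ (Finset.univ : Finset (Fin g)).card :=
      Finset.card_le_card (Finset.erase_subset _ _)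
    rw [Finset.card_univ, Fintype.card_fin] at this
    exact_mod_cast this
  have h5 : ∑ b', hP0 (Q b') ≤ (B + C) / c := by
    rw [le_div_iff₀ hc]
    linarith
  have h6 : ((Finset.univ.erase b).card : ℝ) * |c₀| ≤ (g : ℝ) * |c₀| :=
    mul_le_mul_of_nonneg_right h4 (abs_nonneg c₀)
  linarith

/-- **(8.5), Northcott on the good classes**: finitely many good classes of bounded height whose
points have bounded degree. -/
theorem mw17ps_good_northcott {c C c₀ : ℝ} (hc : 0 < c) (hpos : ∀ P, -c₀ ≤ hP0 P)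
    (hlow : ∀ Q, Gd Q → c * ∑ b, hP0 (Q b) - C ≤ h (cls Q))
    (dg : Pt → ℕ) (hN : ∀ (d : ℕ) (B : ℝ), {P | dg P ≤ d ∧ hP0 P ≤ B}.Finite)
    (S : Set X) (d : ℕ) (hdeg : ∀ Q, Gd Q → cls Q ∈ S → ∀ b, dg (Q b) ≤ d) (B : ℝ) :
    {x | x ∈ S ∧ (∃ Q, Gd Q ∧ cls Q = x) ∧ h x ≤ B}.Finite := by
  set B' : ℝ := (B + C) / c + (g : ℝ) * |c₀| with hB'
  have hfin : {Q : Fin g → Pt | ∀ b, Q b ∈ {P | dg P ≤ d ∧ hP0 P ≤ B'}}.Finite := by
    have := Set.Finite.pi' (ι := Fin g) (t := fun _ => {P | dg P ≤ d ∧ hP0 P ≤ B'})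
      (fun _ => hN d B')
    exact this
  refine (hfin.image cls).subset ?_
  rintro x ⟨hxS, ⟨Q, hQ, rfl⟩, hxB⟩
  refine ⟨Q, fun b => ⟨hdeg Q hQ hxS b, ?_⟩, rfl⟩
  exact mw17ps_point_le hP0 h cls Gd hc hpos hlow B Q hQ hxB b

end Lower

section Main

variable {Pt X : Type*} {g : ℕ} (hP0 hω βtan : Pt → ℝ) (β : Pt → Pt → ℝ) (h : X → ℝ)
  (cls : (Fin g → Pt) → X) (Gd : (Fin g → Pt) → Prop)

/-- **§8.4 + §8.5 assembled**: from the four inputs (a)–(d) with `a < 2g`, `hP0` bounded below,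
Northcott for points of bounded degree, a set `GdX` of good classes all of the form `cls Q` with
`Q` good, and for every `S` in a family `𝒮` a degree bound for the points of good tuples with
class in `S`:  a constant `c₁` with `-c₁ ≤ h y` on `GdX`, and Northcott on `S ∩ GdX`. -/
theorem mw17ps_good_main {C₁ C₂ C₃ C₄ a c₀ : ℝ} (ha : a < 2 * (g : ℝ))
    (hmum : ∀ Q, Gd Q →
      2 * mw17psPairs β Q + ∑ b, (βtan (Q b) + 2 * (g : ℝ) * hP0 (Q b)) - C₁ ≤ h (cls Q))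
    (hhad : ∀ Q, Gd Q → -(∑ b, hω (Q b)) - C₂ ≤ mw17psPairs β Q)
    (htan : ∀ Q, Gd Q → ∀ b, hω (Q b) - C₃ ≤ βtan (Q b))
    (heps : ∀ Q, Gd Q → ∀ b, hω (Q b) ≤ a * hP0 (Q b) + C₄)
    (hpos : ∀ P, -c₀ ≤ hP0 P)
    (dg : Pt → ℕ) (hN : ∀ (d : ℕ) (B : ℝ), {P | dg P ≤ d ∧ hP0 P ≤ B}.Finite)
    (GdX : Set X) (hGdX : ∀ y ∈ GdX, ∃ Q, Gd Q ∧ cls Q = y) :
    ∃ c₁ : ℝ, (∀ y ∈ GdX, -c₁ ≤ h y) ∧
      ∀ (S : Set X) (d : ℕ), (∀ Q, Gd Q → cls Q ∈ S → ∀ b, dg (Q b) ≤ d) →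
        ∀ B : ℝ, {y | y ∈ S ∧ y ∈ GdX ∧ h y ≤ B}.Finite := by
  have hc : 0 < 2 * (g : ℝ) - a := by linarith
  have hlow := mw17ps_lower_of_parts hP0 hω βtan β h cls Gd hmum hhad htan heps
  refine ⟨(2 * (g : ℝ) - a) * ((g : ℝ) * c₀) + (C₁ + 2 * C₂ + (g : ℝ) * (C₃ + C₄)),
    fun y hy => ?_, fun S d hdeg B => ?_⟩
  · obtain ⟨Q, hQ, rfl⟩ := hGdX y hy
    exact mw17ps_good_lower hP0 h cls Gd hc.le hpos hlow Q hQ
  · refine (mw17ps_good_northcott hP0 h cls Gd hc hpos hlow dg hN S d hdeg B).subset ?_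
    rintro y ⟨hyS, hyG, hyB⟩
    exact ⟨hyS, hGdX y hyG, hyB⟩

/-- **§8.4 + §8.5 assembled, ε-form of (c)**: as `mw17ps_good_main`, with the tangent input
`a' · hP0(Q_b) − C₃ ≤ βtan(Q_b)` and the numerical condition `2a < 2g + a'`
(`a = 2g − 2 + ε`, `a' = 2g − 2 − ε`, `3ε < 2`). -/
theorem mw17ps_good_main' {C₁ C₂ C₃ C₄ a a' c₀ : ℝ} (ha : 2 * a < 2 * (g : ℝ) + a')
    (hmum : ∀ Q, Gd Q →
      2 * mw17psPairs β Q + ∑ b, (βtan (Q b) + 2 * (g : ℝ) * hP0 (Q b)) - C₁ ≤ h (cls Q))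
    (hhad : ∀ Q, Gd Q → -(∑ b, hω (Q b)) - C₂ ≤ mw17psPairs β Q)
    (htan : ∀ Q, Gd Q → ∀ b, a' * hP0 (Q b) - C₃ ≤ βtan (Q b))
    (heps : ∀ Q, Gd Q → ∀ b, hω (Q b) ≤ a * hP0 (Q b) + C₄)
    (hpos : ∀ P, -c₀ ≤ hP0 P)
    (dg : Pt → ℕ) (hN : ∀ (d : ℕ) (B : ℝ), {P | dg P ≤ d ∧ hP0 P ≤ B}.Finite)
    (GdX : Set X) (hGdX : ∀ y ∈ GdX, ∃ Q, Gd Q ∧ cls Q = y) :
    ∃ c₁ : ℝ, (∀ y ∈ GdX, -c₁ ≤ h y) ∧
      ∀ (S : Set X) (d : ℕ), (∀ Q, Gd Q → cls Q ∈ S → ∀ b, dg (Q b) ≤ d) →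
        ∀ B : ℝ, {y | y ∈ S ∧ y ∈ GdX ∧ h y ≤ B}.Finite := by
  have hc : 0 < 2 * (g : ℝ) + a' - 2 * a := by linarith
  have hlow := mw17ps_lower_of_parts' hP0 hω βtan β h cls Gd hmum hhad htan heps
  refine ⟨(2 * (g : ℝ) + a' - 2 * a) * ((g : ℝ) * c₀) +
    (C₁ + 2 * C₂ + (g : ℝ) * (C₃ + 2 * C₄)), fun y hy => ?_, fun S d hdeg B => ?_⟩
  · obtain ⟨Q, hQ, rfl⟩ := hGdX y hy
    exact mw17ps_good_lower hP0 h cls Gd hc.le hpos hlow Q hQ
  · refine (mw17ps_good_northcott hP0 h cls Gd hc hpos hlow dg hN S d hdeg B).subset ?_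
    rintro y ⟨hyS, hyG, hyB⟩
    exact ⟨hyS, hGdX y hyG, hyB⟩

end Main

end Fermat.Agent.MW17
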