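import Mathlib
import Fermat.Agent.MW17.PairAbs
import Fermat.Agent.MW17.Pos.Asm

/-!
# Program MW (S17), heights half (A), §8.4(b): Mumford's formula, the bookkeeping

Owner: helper29.  Namespace `Fermat.Agent.MW17`, prefix `mw17mu`.  Mathlib + `MW17/PairAbs.lean`
(helper1) + `MW17/Pos/Asm.lean` (helper7, for `mw17psPairs`).

Abstract setting: `Pt` = finite points, `none : Option Pt` = `P0`, `β : Option Pt → Pt → ℝ` the
global pairing of points, `hP0`, `βtan : Pt → ℝ`, `h : X → ℝ` a height on classes which is computed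
by the bilinear extension `mw17paB β` on disjoint representatives (evaluation lemma (E) of
`PairAbs`).  For a good tuple `Q = (Q_1..Q_g)` with `D = ΣQ_b`, a section `u₂` of exact order `m`
with zero multiset `Z = D + D̄` (the `Q_b` simple zeros), and two fixed sections with zero
multisets `V₁, V₂` of cardinalities `k₁ = k₂ + (m - g)`:

  `h [D - g P0] = 2 Σ_{b<c} β(Q_b,Q_c) + Σ_b (βtan(Q_b) + 2g·hP0(Q_b)) + O(1)`.
-/

set_option autoImplicit false

noncomputable section

namespace Fermat.Agent.MW17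

open Finset

variable {Pt : Type*}

/-! ### divisors of multisets -/

/-- the divisor `Σ_{R ∈ V} R` of a multiset of points. -/
def mw17muDiv (V : Multiset Pt) : Pt →₀ ℤ := (V.map fun R => Finsupp.single R (1 : ℤ)).sum

@[simp] theorem mw17muDiv_zero : mw17muDiv (0 : Multiset Pt) = 0 := by simp [mw17muDiv]

@[simp] theorem mw17muDiv_cons (R : Pt) (V : Multiset Pt) :
    mw17muDiv (R ::ₘ V) = Finsupp.single R 1 + mw17muDiv V := by simp [mw17muDiv]

theorem mw17muDiv_add (V V' : Multiset Pt) :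
    mw17muDiv (V + V') = mw17muDiv V + mw17muDiv V' := by simp [mw17muDiv]

theorem mw17muDiv_apply [DecidableEq Pt] (V : Multiset Pt) (R : Pt) :
    mw17muDiv V R = (V.count R : ℤ) := by
  induction V using Multiset.induction_on with
  | empty => simp
  | cons a V ih =>
    rw [mw17muDiv_cons, Finsupp.add_apply, ih, Multiset.count_cons, Finsupp.single_apply]
    by_cases h : a = R
    · subst h; simp; ring
    · rw [if_neg h, if_neg (fun h' => h h'.symm)]; simp

theorem mw17muDiv_mem_of_mem_support (V : Multiset Pt) {R : Pt}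
    (h : R ∈ (mw17muDiv V).support) : R ∈ V := by
  classical
  rw [Finsupp.mem_support_iff, mw17muDiv_apply] at h
  by_contra hR
  exact h (by rw [Multiset.count_eq_zero_of_notMem hR]; rfl)

theorem mw17muDiv_deg (V : Multiset Pt) : mw17paDeg (mw17muDiv V) = (V.card : ℤ) := by
  induction V using Multiset.induction_on with
  | empty => simp
  | cons a V ih =>
    rw [mw17muDiv_cons, map_add, ih, Multiset.card_cons]
    simp [mw17paDeg]
    ring

theorem mw17muDiv_size (V : Multiset Pt) : mw17paSize (mw17muDiv V) ≤ V.card := by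
  induction V using Multiset.induction_on with
  | empty => simp
  | cons a V ih =>
    rw [mw17muDiv_cons, Multiset.card_cons]
    refine (mw17paSize_add_le _ _).trans ?_
    have : mw17paSize (Finsupp.single a (1 : ℤ)) = 1 := by
      simp [mw17paSize]
    omega

theorem mw17mu_row (b : Option Pt → Pt → ℝ) (V : Multiset Pt) (P : Option Pt) :
    mw17paRow b (mw17muDiv V) P = (V.map fun R => b P R).sum := by
  induction V using Multiset.induction_on with
  | empty => simp [mw17paRow]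
  | cons a V ih =>
    rw [mw17muDiv_cons, mw17paRow_add, ih, Multiset.map_cons, Multiset.sum_cons]
    congr 1
    simp [mw17paRow]

theorem mw17muDiv_map_univ {g : ℕ} (Q : Fin g → Pt) :
    mw17muDiv ((Finset.univ : Finset (Fin g)).val.map Q) = ∑ b, Finsupp.single (Q b) (1 : ℤ) := by
  unfold mw17muDiv
  rw [Multiset.map_map]
  rfl

/-! ### the bilinear extension, first slot -/

theorem mw17mu_B_zero_left (b : Option Pt → Pt → ℝ) (W : Pt →₀ ℤ) : mw17paB b 0 W = 0 := by
  simp [mw17paB]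

theorem mw17mu_B_sum_left {ι : Type*} (b : Option Pt → Pt → ℝ) (s : Finset ι)
    (f : ι → (Option Pt →₀ ℤ)) (W : Pt →₀ ℤ) :
    mw17paB b (∑ i ∈ s, f i) W = ∑ i ∈ s, mw17paB b (f i) W := by
  classical
  induction s using Finset.induction_on with
  | empty => simp [mw17mu_B_zero_left]
  | insert a s ha ih => rw [Finset.sum_insert ha, Finset.sum_insert ha, mw17paB_add_left, ih]

theorem mw17mu_B_single_left (b : Option Pt → Pt → ℝ) (P : Option Pt) (a : ℤ) (W : Pt →₀ ℤ) :
    mw17paB b (Finsupp.single P a) W = (a : ℝ) * mw17paRow b W P := by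
  unfold mw17paB
  rw [Finsupp.sum_single_index (by simp)]

theorem mw17mu_row_sub (b : Option Pt → Pt → ℝ) (W W' : Pt →₀ ℤ) (P : Option Pt) :
    mw17paRow b (W - W') P = mw17paRow b W P - mw17paRow b W' P := by
  rw [sub_eq_add_neg, mw17paRow_add, mw17paRow_neg, ← sub_eq_add_neg]

/-! ### the divisor of a tuple -/

/-- the divisor `Σ_b Q_b - g·P0` of a tuple of points. -/
def mw17muTup {g : ℕ} (Q : Fin g → Pt) : Option Pt →₀ ℤ :=
  (∑ b, Finsupp.single (some (Q b)) (1 : ℤ)) - Finsupp.single none (g : ℤ)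

theorem mw17muTup_eq {g : ℕ} (Q : Fin g → Pt) :
    mw17muTup Q =
      mw17paIota (mw17muDiv ((Finset.univ : Finset (Fin g)).val.map Q)) -
        Finsupp.single none (g : ℤ) := by
  unfold mw17muTup
  rw [mw17muDiv_map_univ, map_sum]
  congr 1
  refine Finset.sum_congr rfl fun b _ => ?_
  rw [mw17paIota_apply, Finsupp.mapDomain_single]

theorem mw17mu_deg_single {α : Type*} (a : α) (n : ℤ) :
    mw17paDeg (Finsupp.single a n) = n := by
  simp [mw17paDeg]

theorem mw17mu_size_single {α : Type*} (a : α) (n : ℤ) :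
    mw17paSize (Finsupp.single a n) = n.natAbs := by
  simp [mw17paSize]

theorem mw17muTup_deg {g : ℕ} (Q : Fin g → Pt) : mw17paDeg (mw17muTup Q) = 0 := by
  unfold mw17muTup
  rw [map_sub, map_sum, mw17mu_deg_single]
  simp [mw17mu_deg_single]

theorem mw17muTup_size {g : ℕ} (Q : Fin g → Pt) : mw17paSize (mw17muTup Q) ≤ 2 * g := by
  rw [mw17muTup_eq]
  refine (mw17paSize_sub_le _ _).trans ?_
  rw [mw17paSize_iota, mw17mu_size_single]
  have := mw17muDiv_size ((Finset.univ : Finset (Fin g)).val.map Q)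
  rw [Multiset.card_map] at this
  simp at this
  simp
  omega

theorem mw17muTup_B {g : ℕ} (b : Option Pt → Pt → ℝ) (Q : Fin g → Pt) (W : Pt →₀ ℤ) :
    mw17paB b (mw17muTup Q) W =
      ∑ i, mw17paRow b W (some (Q i)) - (g : ℝ) * mw17paRow b W none := by
  unfold mw17muTup
  rw [mw17paB_sub_left, mw17mu_B_sum_left, mw17mu_B_single_left]
  congr 1
  refine Finset.sum_congr rfl fun i _ => ?_
  rw [mw17mu_B_single_left]
  simp

theorem mw17muTup_support {g : ℕ} (Q : Fin g → Pt) {o : Option Pt}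
    (ho : o ∈ (mw17muTup Q).support) : o = none ∨ ∃ i, o = some (Q i) := by
  classical
  by_contra hcon
  push Not at hcon
  rw [Finsupp.mem_support_iff] at ho
  apply ho
  unfold mw17muTup
  rw [Finsupp.sub_apply, Finsupp.finsetSum_apply, Finsupp.single_apply, if_neg (Ne.symm hcon.1),
    sub_zero]
  refine Finset.sum_eq_zero fun i _ => ?_
  rw [Finsupp.single_apply, if_neg (Ne.symm (hcon.2 i))]

/-! ### multiset sums -/

theorem mw17mu_abs_sum_le {α : Type*} (s : Multiset α) (f : α → ℝ) (C : ℝ)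
    (h : ∀ a ∈ s, |f a| ≤ C) : |(s.map f).sum| ≤ s.card * C := by
  induction s using Multiset.induction_on with
  | empty => simp
  | cons a s ih =>
    rw [Multiset.map_cons, Multiset.sum_cons, Multiset.card_cons]
    have h1 := h a (Multiset.mem_cons_self a s)
    have h2 := ih fun x hx => h x (Multiset.mem_cons_of_mem hx)
    have h3 := abs_add_le (f a) (s.map f).sum
    push_cast
    linarith

/-! ### Mumford's formula -/

/-- **(8.4)(b), Mumford's formula (bookkeeping).**  Inputs: the evaluation lemma (E) of the abstract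
pairing (`hE`, literally the second output of `mw17pa_main`), the global (★-off) for two FIXED
sections with zero multisets `V₁, V₂` (`hV`), `β(P0,R) = -hP0(R) + O(1)` (`hP`), the global
(★-tan) (`htan`) and the global (M) (`hM`) for the sections of exact order `m` (encoded by the
relation `Zr Z t`: "`Z` is the zero multiset and `t` the height of such a section"), and the
existence, for a good tuple `Q`, of a section of exact order `m` vanishing simply at the `Q_b`
(`hex`). -/
theorem mw17mu_main {X : Type*} [AddCommGroup X] {g m k₁ k₂ : ℕ} (hgm : g ≤ m)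
    (hk : k₁ = k₂ + (m - g))
    (β : Option Pt → Pt → ℝ) (hsymm : ∀ P R, β (some P) R = β (some R) P)
    (hP0 βtan : Pt → ℝ) (h : X → ℝ) (cl : (Option Pt →₀ ℤ) →+ X)
    (hE : ∀ s : ℕ, ∃ C : ℝ, ∀ (A : Option Pt →₀ ℤ) (W : Pt →₀ ℤ), mw17paDeg A = 0 →
      mw17paDeg W = 0 → mw17paSize A ≤ s → mw17paSize W ≤ s → Mw17paOff A W →
      cl (mw17paIota W) = cl A → |mw17paB β A W - h (cl A)| ≤ C)
    (hcl0 : cl (Finsupp.single none 1) = 0)
    (V₁ V₂ : Multiset Pt) (hV₁ : V₁.card = k₁) (hV₂ : V₂.card = k₂)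
    (hclV₁ : cl (mw17paIota (mw17muDiv V₁)) = 0) (hclV₂ : cl (mw17paIota (mw17muDiv V₂)) = 0)
    (Good : Pt → Prop) (hoff : ∀ R, Good R → R ∉ V₁ ∧ R ∉ V₂)
    (hV : ∃ C : ℝ, ∀ R, Good R →
      |(V₁.map fun P => β (some R) P).sum - (V₂.map fun P => β (some R) P).sum +
        ((k₁ : ℝ) - k₂) * hP0 R| ≤ C)
    (hP : ∃ C : ℝ, ∀ R, |β none R + hP0 R| ≤ C)
    (Zr : Multiset Pt → ℝ → Prop)
    (hZcard : ∀ Z t, Zr Z t → Z.card = m)
    (hZcl : ∀ Z t, Zr Z t → cl (mw17paIota (mw17muDiv Z)) = 0)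
    (htan : ∃ C : ℝ, ∀ (R : Pt) (Z' : Multiset Pt) (t : ℝ), Zr (R ::ₘ Z') t → R ∉ Z' → Good R →
      |(Z'.map fun P => β (some P) R).sum + βtan R + t + (m : ℝ) * hP0 R| ≤ C)
    (hM : ∃ C : ℝ, ∀ Z t, Zr Z t → |(Z.map hP0).sum - t| ≤ C)
    (Gd : (Fin g → Pt) → Prop) (hinj : ∀ Q, Gd Q → Function.Injective Q)
    (hgood : ∀ Q, Gd Q → ∀ b, Good (Q b))
    (hex : ∀ Q, Gd Q → ∃ Z t, Zr Z t ∧ ∀ b, ∃ Z', Z = Q b ::ₘ Z' ∧ Q b ∉ Z') :
    ∃ C₁ : ℝ, ∀ Q, Gd Q →
      |h (cl (mw17muTup Q)) - (2 * mw17psPairs (fun P R => β (some P) R) Q +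
        ∑ b, (βtan (Q b) + 2 * (g : ℝ) * hP0 (Q b)))| ≤ C₁ := by
  classical
  obtain ⟨CE, hCE⟩ := hE (2 * g + k₁ + k₂ + m)
  obtain ⟨CV, hCV⟩ := hV
  obtain ⟨CP, hCP⟩ := hP
  obtain ⟨CT, hCT⟩ := htan
  obtain ⟨CM, hCM⟩ := hM
  set cV : ℝ := (V₁.map fun P => β none P).sum - (V₂.map fun P => β none P).sum with hcV
  refine ⟨CE + (g : ℝ) * (CV + CT) + (g : ℝ) * |cV| + (g : ℝ) * (((m - g : ℕ) : ℝ) * CP + CM),
    fun Q hQ => ?_⟩
  obtain ⟨Z, t, hZr, hZQ⟩ := hex Q hQ
  have hQinj := hinj Q hQ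
  set D : Multiset Pt := (Finset.univ : Finset (Fin g)).val.map Q with hD
  have hDnodup : D.Nodup := (Multiset.nodup_map_iff_of_injective hQinj).mpr Finset.univ.nodup
  have hmemD : ∀ P, P ∈ D ↔ ∃ b, Q b = P := fun P => by
    rw [hD, Multiset.mem_map]
    exact ⟨fun ⟨b, _, hb⟩ => ⟨b, hb⟩, fun ⟨b, hb⟩ => ⟨b, Finset.mem_univ_val b, hb⟩⟩
  have hcountZ : ∀ b, Z.count (Q b) = 1 := fun b => by
    obtain ⟨Z', rfl, hZ'⟩ := hZQ b
    rw [Multiset.count_cons_self, Multiset.count_eq_zero_of_notMem hZ']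
  have hDle : D ≤ Z := by
    rw [Multiset.le_iff_count]
    intro P
    by_cases hP : P ∈ D
    · obtain ⟨b, rfl⟩ := (hmemD P).mp hP
      rw [hcountZ b, Multiset.count_eq_one_of_mem hDnodup hP]
    · rw [Multiset.count_eq_zero_of_notMem hP]
      exact Nat.zero_le _
  set Db : Multiset Pt := Z - D with hDb
  have hZeq : Z = D + Db := (add_tsub_cancel_of_le hDle).symm
  have hQnot : ∀ b, Q b ∉ Db := fun b hmem => by
    have h1 : Z.count (Q b) = D.count (Q b) + Db.count (Q b) := by
      rw [hZeq, Multiset.count_add]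
    rw [hcountZ b, Multiset.count_eq_one_of_mem hDnodup ((hmemD _).mpr ⟨b, rfl⟩)] at h1
    have : 0 < Db.count (Q b) := Multiset.count_pos.mpr hmem
    omega
  have hcardD : D.card = g := by rw [hD, Multiset.card_map]; simp
  have hcardDb : Db.card = m - g := by
    have := congrArg Multiset.card hZeq
    rw [Multiset.card_add, hZcard Z t hZr, hcardD] at this
    omega
  -- the two representatives
  set A : Option Pt →₀ ℤ := mw17muTup Q with hA
  set W : Pt →₀ ℤ := mw17muDiv V₁ - mw17muDiv V₂ - mw17muDiv Db with hW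
  have hAdeg : mw17paDeg A = 0 := mw17muTup_deg Q
  have hWdeg : mw17paDeg W = 0 := by
    rw [hW, map_sub, map_sub, mw17muDiv_deg, mw17muDiv_deg, mw17muDiv_deg, hV₁, hV₂, hcardDb, hk]
    push_cast
    ring
  have hAsize : mw17paSize A ≤ 2 * g + k₁ + k₂ + m := (mw17muTup_size Q).trans (by omega)
  have hWsize : mw17paSize W ≤ 2 * g + k₁ + k₂ + m := by
    rw [hW]
    refine (mw17paSize_sub_le _ _).trans ?_
    have h1 := mw17paSize_sub_le (mw17muDiv V₁) (mw17muDiv V₂)
    have h2 := mw17muDiv_size V₁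
    have h3 := mw17muDiv_size V₂
    have h4 := mw17muDiv_size Db
    omega
  have hOff : Mw17paOff A W := by
    intro R hR hRA
    rcases mw17muTup_support Q hRA with h0 | ⟨b, hb⟩
    · exact Option.some_ne_none R h0
    · have hRb : R = Q b := Option.some_injective _ hb
      subst hRb
      have hg := hoff (Q b) (hgood Q hQ b)
      rw [hW] at hR
      have h1 := Finsupp.support_sub hR
      rcases Finset.mem_union.mp h1 with h2 | h2
      · rcases Finset.mem_union.mp (Finsupp.support_sub h2) with h3 | h3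
        · exact hg.1 (mw17muDiv_mem_of_mem_support _ h3)
        · exact hg.2 (mw17muDiv_mem_of_mem_support _ h3)
      · exact hQnot b (mw17muDiv_mem_of_mem_support _ h2)
  have hclDb : cl (mw17paIota (mw17muDiv Db)) = - cl (mw17paIota (mw17muDiv D)) := by
    have := hZcl Z t hZr
    rw [hZeq, mw17muDiv_add, map_add, map_add] at this
    exact (neg_eq_of_add_eq_zero_right this).symm
  have hcl : cl (mw17paIota W) = cl A := by
    rw [hW, hA, mw17muTup_eq, map_sub, map_sub, map_sub, map_sub, hclV₁, hclV₂, hclDb, map_sub]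
    have : cl (Finsupp.single none (g : ℤ)) = 0 := by
      have h1 : (Finsupp.single none (g : ℤ) : Option Pt →₀ ℤ) =
          (g : ℤ) • Finsupp.single none 1 := by
        rw [Finsupp.smul_single]; simp
      rw [h1, map_zsmul, hcl0, smul_zero]
    rw [this]
    abel
  have hEval := hCE A W hAdeg hWdeg hAsize hWsize hOff hcl
  -- rows
  have hrow : ∀ P : Option Pt, mw17paRow β W P =
      (V₁.map fun R => β P R).sum - (V₂.map fun R => β P R).sum - (Db.map fun R => β P R).sum := by
    intro P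
    rw [hW, mw17mu_row_sub, mw17mu_row_sub, mw17mu_row, mw17mu_row, mw17mu_row]
  have hB : mw17paB β A W = ∑ i, mw17paRow β W (some (Q i)) - (g : ℝ) * mw17paRow β W none :=
    mw17muTup_B β Q W
  -- the tangent estimate at each `Q b`
  have htanb : ∀ b, |(∑ c ∈ Finset.univ.filter (· ≠ b), β (some (Q c)) (Q b)) +
      (Db.map fun R => β (some (Q b)) R).sum + βtan (Q b) + t + (m : ℝ) * hP0 (Q b)| ≤ CT := by
    intro b
    have hmemZ : Q b ∈ Z := Multiset.count_pos.mp (by rw [hcountZ b]; exact Nat.one_pos)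
    have hcons : Q b ::ₘ Z.erase (Q b) = Z := Multiset.cons_erase hmemZ
    have hnot : Q b ∉ Z.erase (Q b) := by
      intro hmem
      have := Multiset.count_pos.mpr hmem
      rw [Multiset.count_erase_self, hcountZ b] at this
      omega
    have h1 := hCT (Q b) (Z.erase (Q b)) t (by rw [hcons]; exact hZr) hnot (hgood Q hQ b)
    have h2 : Z.erase (Q b) = D.erase (Q b) + Db := by
      rw [hZeq, Multiset.erase_add_left_pos _ ((hmemD _).mpr ⟨b, rfl⟩)]
    have h3 : D.erase (Q b) = (Finset.univ.erase b).val.map Q := by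
      rw [hD, Finset.erase_val, Multiset.map_erase Q hQinj]
    have h4 : ((Z.erase (Q b)).map fun P => β (some P) (Q b)).sum =
        (∑ c ∈ Finset.univ.filter (· ≠ b), β (some (Q c)) (Q b)) +
          (Db.map fun R => β (some (Q b)) R).sum := by
      rw [h2, Multiset.map_add, Multiset.sum_add, h3, Multiset.map_map]
      congr 1
      · rw [Finset.filter_ne' Finset.univ b]
        rfl
      · refine congrArg Multiset.sum (Multiset.map_congr rfl fun R _ => ?_)
        exact hsymm R (Q b)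
    rw [h4] at h1
    exact h1
  -- the terms at `P0`
  have hDbP : |(Db.map fun R => β none R).sum + (Db.map hP0).sum| ≤ ((m - g : ℕ) : ℝ) * CP := by
    rw [← Multiset.sum_map_add, ← hcardDb]
    exact mw17mu_abs_sum_le Db (fun R => β none R + hP0 R) CP fun R _ => hCP R
  have hMZ := hCM Z t hZr
  have hsumZ : (Z.map hP0).sum = ∑ b, hP0 (Q b) + (Db.map hP0).sum := by
    rw [hZeq, Multiset.map_add, Multiset.sum_add, hD, Multiset.map_map]
    rfl
  have hVb : ∀ b, |(V₁.map fun P => β (some (Q b)) P).sum - (V₂.map fun P => β (some (Q b)) P).sum +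
      ((k₁ : ℝ) - k₂) * hP0 (Q b)| ≤ CV := fun b => hCV (Q b) (hgood Q hQ b)
  have hpairs : 2 * mw17psPairs (fun P R => β (some P) R) Q =
      ∑ i, ∑ c ∈ Finset.univ.filter (· ≠ i), β (some (Q c)) (Q i) :=
    mw17psPairs_two_mul (fun P R => β (some P) R) hsymm Q
  have hkk : (k₁ : ℝ) - k₂ = (m : ℝ) - g := by
    rw [hk]
    push_cast [Nat.cast_sub hgm]
    ring
  -- assemble
  set e : Fin g → ℝ := fun b => (∑ c ∈ Finset.univ.filter (· ≠ b), β (some (Q c)) (Q b)) +
      (Db.map fun R => β (some (Q b)) R).sum + βtan (Q b) + t + (m : ℝ) * hP0 (Q b) with he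
  set f : Fin g → ℝ := fun b => (V₁.map fun P => β (some (Q b)) P).sum -
      (V₂.map fun P => β (some (Q b)) P).sum + ((k₁ : ℝ) - k₂) * hP0 (Q b) with hf
  have hsum_e : |∑ b, e b| ≤ (g : ℝ) * CT := by
    refine (Finset.abs_sum_le_sum_abs _ _).trans ?_
    refine (Finset.sum_le_sum fun b _ => htanb b).trans ?_
    simp
  have hsum_f : |∑ b, f b| ≤ (g : ℝ) * CV := by
    refine (Finset.abs_sum_le_sum_abs _ _).trans ?_
    refine (Finset.sum_le_sum fun b _ => hVb b).trans ?_
    simp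
  have hkey : mw17paB β A W - (2 * mw17psPairs (fun P R => β (some P) R) Q +
      ∑ b, (βtan (Q b) + 2 * (g : ℝ) * hP0 (Q b))) =
      (∑ b, f b) - (∑ b, e b) - (g : ℝ) * cV +
        (g : ℝ) * (((Db.map fun R => β none R).sum + (Db.map hP0).sum) -
          ((Z.map hP0).sum - t)) := by
    rw [hB, hpairs, hrow none, hsumZ]
    simp only [hrow, he, hf, hcV, Finset.sum_add_distrib, Finset.sum_sub_distrib,
      Finset.sum_const, Finset.card_univ, Fintype.card_fin, nsmul_eq_mul, ← Finset.mul_sum]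
    rw [hkk]
    ring
  have h5 := abs_le.mp hsum_e
  have h6 := abs_le.mp hsum_f
  have h7 := abs_le.mp hDbP
  have h8 := abs_le.mp hMZ
  have h9 := abs_le.mp hEval
  have h10 := neg_abs_le cV
  have h11 := le_abs_self cV
  have hg0 : (0 : ℝ) ≤ g := Nat.cast_nonneg g
  rw [abs_le]
  constructor
  · nlinarith [mul_le_mul_of_nonneg_left h10 hg0, mul_le_mul_of_nonneg_left h11 hg0,
      mul_le_mul_of_nonneg_left h7.1 hg0, mul_le_mul_of_nonneg_left h7.2 hg0,
      mul_le_mul_of_nonneg_left h8.1 hg0, mul_le_mul_of_nonneg_left h8.2 hg0]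
  · nlinarith [mul_le_mul_of_nonneg_left h10 hg0, mul_le_mul_of_nonneg_left h11 hg0,
      mul_le_mul_of_nonneg_left h7.1 hg0, mul_le_mul_of_nonneg_left h7.2 hg0,
      mul_le_mul_of_nonneg_left h8.1 hg0, mul_le_mul_of_nonneg_left h8.2 hg0]

/-- from the two-sided form to the literal `hmum` of `MW17/Pos/Asm.lean` (helper7). -/
theorem mw17mu_hmum_of_abs {X : Type*} {g : ℕ} (β' : Pt → Pt → ℝ) (hP0 βtan : Pt → ℝ) (h : X → ℝ)
    (cls : (Fin g → Pt) → X) (Gd : (Fin g → Pt) → Prop) {C₁ : ℝ}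
    (H : ∀ Q, Gd Q → |h (cls Q) - (2 * mw17psPairs β' Q +
      ∑ b, (βtan (Q b) + 2 * (g : ℝ) * hP0 (Q b)))| ≤ C₁) :
    ∀ Q, Gd Q →
      2 * mw17psPairs β' Q + ∑ b, (βtan (Q b) + 2 * (g : ℝ) * hP0 (Q b)) - C₁ ≤ h (cls Q) := by
  intro Q hQ
  have := (abs_le.mp (H Q hQ)).1
  linarith

end Fermat.Agent.MW17
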