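import Fermat.Agent.MW17.Pos.HadamardCurve

/-!
# Program MW (S17), heights half (A), §8.4(d), local part: (TUPLE_w, ≤ half) from (★-off, ≤ half)

Owner: helper7.  Namespace `Fermat.Agent.MW17`, prefix `mw17ps`.

For a fixed tuple `ω ⊂ L_{n m₁}` with base divisor data `Mw17PsBase T (n m₁) ω F k₁`
(`F ≤ Z(u)`, `|Z(u)| ≤ k₁` for the nonzero combinations `u`), the `≤` half of (★-off) applied to
each `ω_a`, dropping the zeros outside `F`, gives
`‖ω(R)‖_w ≤ C.val w · ‖φR‖^{m₁} δ_w(P0,R)^{n m₁ - k₁} ∏_{P ∈ F} δ_w(P,R)` = `Mw17PsTupleLe`.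
-/

set_option autoImplicit false

noncomputable section

namespace Fermat.Agent.MW17

open Finset Fermat.Agent.V Fermat.Agent.HT

/-- dropping zeros: for `F ≤ Z`, `|Z| ≤ k₁ ≤ m`, distances in `[0, c]`, `1 ≤ c`:
`e^(m - |Z|) ∏_Z d ≤ c^m · e^(m - k₁) ∏_F d`. -/
theorem mw17ps_drop_zeros {α : Type*} (F Z : Multiset α) (hFZ : F ≤ Z) (d : α → ℝ) (e c : ℝ)
    (hc : 1 ≤ c) (hd0 : ∀ P, 0 ≤ d P) (hdc : ∀ P, d P ≤ c) (he0 : 0 ≤ e) (hec : e ≤ c)
    (m k₁ : ℕ) (hk₁ : k₁ ≤ m) (hcard : Multiset.card Z ≤ k₁) :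
    e ^ (m - Multiset.card Z) * (Z.map d).prod ≤ c ^ m * (e ^ (m - k₁) * (F.map d).prod) := by
  have hc0 : 0 ≤ c := zero_le_one.trans hc
  obtain ⟨Z', hZ'⟩ := Multiset.le_iff_exists_add.mp hFZ
  have hDF0 : 0 ≤ (F.map d).prod := mw17ps_prod_nonneg F d hd0
  have hprodZ : (Z.map d).prod ≤ (F.map d).prod * c ^ Multiset.card Z' := by
    rw [hZ', Multiset.map_add, Multiset.prod_add]
    exact mul_le_mul_of_nonneg_left (mw17ps_prod_le_pow Z' d hd0 hdc) hDF0
  have hcardZ' : Multiset.card Z' ≤ Multiset.card Z := by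
    rw [hZ', Multiset.card_add]
    exact Nat.le_add_left _ _
  have hepow : e ^ (m - Multiset.card Z) ≤ e ^ (m - k₁) * c ^ (k₁ - Multiset.card Z) := by
    have : m - Multiset.card Z = (m - k₁) + (k₁ - Multiset.card Z) := by omega
    rw [this, pow_add]
    exact mul_le_mul_of_nonneg_left (pow_le_pow_left₀ he0 hec _) (pow_nonneg he0 _)
  have hcpow : c ^ (k₁ - Multiset.card Z) * c ^ Multiset.card Z' ≤ c ^ m := by
    rw [← pow_add]
    exact pow_le_pow_right₀ hc (by omega)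
  have he1 : 0 ≤ e ^ (m - k₁) := pow_nonneg he0 _
  have he2 : 0 ≤ e ^ (m - Multiset.card Z) := pow_nonneg he0 _
  have hZ0 : 0 ≤ (Z.map d).prod := mw17ps_prod_nonneg Z d hd0
  calc e ^ (m - Multiset.card Z) * (Z.map d).prod
      ≤ (e ^ (m - k₁) * c ^ (k₁ - Multiset.card Z)) * ((F.map d).prod * c ^ Multiset.card Z') :=
        mul_le_mul hepow hprodZ hZ0 (he2.trans hepow)
    _ = (c ^ (k₁ - Multiset.card Z) * c ^ Multiset.card Z') * (e ^ (m - k₁) * (F.map d).prod) := by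
        ring
    _ ≤ c ^ m * (e ^ (m - k₁) * (F.map d).prod) :=
        mul_le_mul_of_nonneg_right hcpow (mul_nonneg he1 hDF0)

variable {K : Type*} [Field K] {δ : V27pShape} (T : V27pTable K δ) {g : ℕ}

/-- the constant of `mw17ps_tupleLe_of_star`. -/
def mw17psTupleLeConst (C₁ : HtConst K) (m : ℕ) (ω : Fin g → Mw17Idx δ m → K) : HtConst K := by
  classical
  exact (C₁.mul (HtConst.ofFinset (Finset.univ.image fun p : Fin g × Mw17Idx δ m => ω p.1 p.2))).mul
    ((HtConst.ofNat 1).pow m)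

/-- **(TUPLE_w, ≤ half) for `ω`** from (★-off, ≤ half) and the base divisor data. -/
theorem mw17ps_tupleLe_of_star (n : ℕ) (t : Mw17Idx δ n) (m₁ : ℕ)
    (hex : ∀ u : Mw17Idx δ (n * m₁) → K, u ≠ 0 →
      ∃ Z : Multiset (Mw17Pt T), Mw17IsZeros T (mw17Sec T (n * m₁) u) Z)
    (hoff : Mw17StarOff T n t m₁)
    (ω : Fin g → Mw17Idx δ (n * m₁) → K) (F : Multiset (Mw17Pt T)) (k₁ : ℕ)
    (hk₁ : k₁ ≤ n * m₁) (hF : Mw17PsBase T (n * m₁) ω F k₁) :
    Mw17PsTupleLe T n t m₁ ω F k₁ := by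
  classical
  obtain ⟨C₁, hC₁⟩ := hoff
  refine ⟨mw17psTupleLeConst C₁ (n * m₁) ω, fun w R => ?_⟩
  set c : ℝ := htlArch w.1 2 with hc
  have hc1 : (1 : ℝ) ≤ c := one_le_htlArch _ (by norm_num)
  have hc0 : 0 ≤ c := zero_le_one.trans hc1
  set E : Finset K := Finset.univ.image fun p : Fin g × Mw17Idx δ (n * m₁) => ω p.1 p.2 with hE
  set W : ℝ := (HtConst.ofFinset E).val w.1 with hW
  have hW1 : 1 ≤ W := htl_one_le_val _ _
  set Rhs : ℝ := mw17psTupleRhs T n t m₁ F k₁ w.1 R with hRhs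
  have hΦ0 : 0 ≤ htlSup w.1 (mw17Psi T n R) ^ m₁ := pow_nonneg (htlSup_nonneg _ _) _
  have hd0 : ∀ P : Mw17Pt T, 0 ≤ mw17Dl T n t w.1 (some P) (some R) := fun P =>
    mw17Dl_nonneg T n t w.1 _ _
  have hdc : ∀ P : Mw17Pt T, mw17Dl T n t w.1 (some P) (some R) ≤ c := fun P =>
    mw17Dl_le T n t w.1 _ _
  have he0 : 0 ≤ mw17Dl T n t w.1 none (some R) := mw17Dl_nonneg T n t w.1 _ _
  have hec : mw17Dl T n t w.1 none (some R) ≤ c := mw17Dl_le T n t w.1 _ _
  have hRhs0 : 0 ≤ Rhs := by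
    rw [hRhs]
    unfold mw17psTupleRhs
    exact mul_nonneg (mul_nonneg hΦ0 (pow_nonneg he0 _)) (mw17ps_prod_nonneg F _ hd0)
  -- the value of the constant
  have hconst : C₁.val w.1 * W * c ^ (n * m₁) ≤
      (mw17psTupleLeConst C₁ (n * m₁) ω).val w.1 := by
    unfold mw17psTupleLeConst
    have h4 : c ^ (n * m₁) = ((HtConst.ofNat 1 : HtConst K).pow (n * m₁)).val w.1 := by
      rw [htl_val_pow_eq, htl_val_ofNat, hc]
      norm_num
    rw [h4]
    refine le_trans ?_ (htl_val_mul_le _ _ _)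
    exact mul_le_mul_of_nonneg_right (htl_val_mul_le _ _ _) (htl_val_nonneg _ _)
  have hconst0 : 0 ≤ (mw17psTupleLeConst C₁ (n * m₁) ω).val w.1 := htl_val_nonneg _ _
  refine htlSup_le (mul_nonneg hconst0 hRhs0) fun a => ?_
  by_cases hωa : ω a = 0
  · have : mw17Sec T (n * m₁) (ω a) = 0 := by
      rw [hωa]
      simp [mw17Sec]
    rw [this, map_zero, map_zero]
    exact mul_nonneg hconst0 hRhs0
  · obtain ⟨Z, hZ⟩ := hex (ω a) hωa
    have hcomb : (∑ b, (Pi.single a (1 : K) : Fin g → K) b • ω b) = ω a := by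
      rw [Finset.sum_eq_single a]
      · rw [Pi.single_eq_same, one_smul]
      · intro b _ hb
        rw [Pi.single_eq_of_ne hb, zero_smul]
      · intro h
        exact absurd (Finset.mem_univ a) h
    obtain ⟨hFZ, hcard⟩ := hF (Pi.single a 1) Z (by rw [hcomb]; exact hωa) (by rw [hcomb]; exact hZ)
    have h1 := (hC₁ w (ω a) hωa Z hZ R).1
    unfold mw17StarRhs at h1
    have hnorm : htlSup w.1 (ω a) ≤ W := by
      refine htlSup_le (zero_le_one.trans hW1) fun j => ?_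
      rw [hW, htl_val_ofFinset]
      have hmem : ω a j ∈ E := by
        rw [hE, Finset.mem_image]
        exact ⟨(a, j), Finset.mem_univ _, rfl⟩
      exact htl_le_prod_max w.1 E hmem
    have hdrop := mw17ps_drop_zeros F Z hFZ (fun P => mw17Dl T n t w.1 (some P) (some R))
      (mw17Dl T n t w.1 none (some R)) c hc1 hd0 hdc he0 hec (n * m₁) k₁ hk₁ hcard
    have hC₁0 : 0 ≤ C₁.val w.1 := htl_val_nonneg _ _
    have hn0 : 0 ≤ htlSup w.1 (ω a) := htlSup_nonneg _ _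
    calc w.1 (R (mw17Sec T (n * m₁) (ω a)))
        ≤ C₁.val w.1 * (htlSup w.1 (ω a) * htlSup w.1 (mw17Psi T n R) ^ m₁ *
            mw17Dl T n t w.1 none (some R) ^ (n * m₁ - Multiset.card Z) *
            (Z.map fun P : Mw17Pt T => mw17Dl T n t w.1 (some P) (some R)).prod) := h1
      _ = (C₁.val w.1 * htlSup w.1 (ω a) * htlSup w.1 (mw17Psi T n R) ^ m₁) *
            (mw17Dl T n t w.1 none (some R) ^ (n * m₁ - Multiset.card Z) *
            (Z.map fun P : Mw17Pt T => mw17Dl T n t w.1 (some P) (some R)).prod) := by ring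
      _ ≤ (C₁.val w.1 * W * htlSup w.1 (mw17Psi T n R) ^ m₁) *
            (c ^ (n * m₁) * (mw17Dl T n t w.1 none (some R) ^ (n * m₁ - k₁) *
              (F.map fun P : Mw17Pt T => mw17Dl T n t w.1 (some P) (some R)).prod)) := by
          refine mul_le_mul ?_ hdrop ?_ ?_
          · exact mul_le_mul_of_nonneg_right (mul_le_mul_of_nonneg_left hnorm hC₁0) hΦ0
          · exact mul_nonneg (pow_nonneg he0 _) (mw17ps_prod_nonneg Z _ hd0)
          · exact mul_nonneg (mul_nonneg hC₁0 (zero_le_one.trans hW1)) hΦ0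
      _ = (C₁.val w.1 * W * c ^ (n * m₁)) * Rhs := by
          rw [hRhs]
          unfold mw17psTupleRhs
          ring
      _ ≤ (mw17psTupleLeConst C₁ (n * m₁) ω).val w.1 * Rhs :=
          mul_le_mul_of_nonneg_right hconst hRhs0

end Fermat.Agent.MW17
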