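import Fermat.Agent.HT.Glob.LocGlob
import Fermat.Agent.HT.Glob.Lin
import Fermat.Agent.HT.Glob.HadamardGlob
import Fermat.Agent.MW17.Glob.Defs
import Fermat.Agent.MW17.Pos.TupleLe
import Fermat.Agent.MW17.Pos.Asm

/-!
# Program MW (S17), heights half (A), §8.4 (a), (d) and the lower bound (H8): the global part

Owner: helper7.  Namespace `Fermat.Agent.MW17`, prefix `mw17ps`.  Base field `HtgQb`.

* `mw17psHom T m ω R`   : `h_ω(R) = htgHt (ω_a(R))_a`;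
* `mw17ps_hom_le`       : (TUPLE_w, ≤ half) globally:
  `h_ω(R) ≤ m₁ h(φR) + (n m₁ - k₁) β(P0,R) + Σ_{P ∈ F} β(P,R) + C`;
* `mw17ps_eps`          : (8.4)(d): `h_ω(R) ≤ (2g - 2 + ε) hP0(R) + C` from (GS-P0), (EPS) and
  `k₁ ≤ |F| + 2g - 2`;
* `mw17ps_had_glob`     : (8.4)(a): `-Σ_b h_ω(Q_b) - C ≤ Σ_{k<i} β(Q_k,Q_i)` from the local Hadamard
  inequality `Mw17PsHad` and `det[ω_a(Q_b)] ≠ 0` (helper18's `htgh_main`);
* `mw17ps_H8`           : the lower bound `c₂ Σ_b hP0(Q_b) - c₁ ≤ h (cls Q)` on good tuples, from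
  Mumford's formula (b), the tangent bound (c'), and (a), (d).
-/

set_option autoImplicit false

noncomputable section

namespace Fermat.Agent.MW17

open Finset Fermat.Agent.V Fermat.Agent.HT

variable {δ : V27pShape} (T : V27pTable HtgQb δ) {g : ℕ}

/-- `h_ω(R)`, the height of the vector `(ω_a(R))_a`. -/
def mw17psHom (m : ℕ) (ω : Fin g → Mw17Idx δ m → HtgQb) (R : Mw17Pt T) : ℝ :=
  htgHt (fun a => R (mw17Sec T m (ω a)))

theorem mw17gB_eq_beta (n : ℕ) (t : Mw17Idx δ n) (P R : Mw17Pt T) :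
    mw17gB T n t (some P) (some R) = htgcBeta (mw17Psi T n P) (mw17Psi T n R) := rfl

/-- positivity of the local distance of non-proportional vectors. -/
theorem mw17Dl_pos (n : ℕ) (t : Mw17Idx δ n) (w : AbsoluteValue HtgQb ℝ)
    (P R : Option (Mw17Pt T)) (h : htlWedge (mw17Phi T n t P) (mw17Phi T n t R) ≠ 0) :
    0 < mw17Dl T n t w P R := by
  have h1 := (htlSup_pos_iff (w := w)).2 h
  have h2 := (htlSup_pos_iff (w := w)).2 (mw17Phi_ne_zero T n t P)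
  have h3 := (htlSup_pos_iff (w := w)).2 (mw17Phi_ne_zero T n t R)
  unfold mw17Dl htlDist
  exact div_pos h1 (mul_pos h2 h3)

/-- **(TUPLE_w, ≤ half), global form.** -/
theorem mw17ps_hom_le (n : ℕ) (t : Mw17Idx δ n) (m₁ : ℕ) (hN : δ.N ≤ n) (hd : ∀ j, δ.d j ≤ n)
    (ht : t ≠ mw17IdxZero δ n)
    (ω : Fin g → Mw17Idx δ (n * m₁) → HtgQb) (F : Multiset (Mw17Pt T)) (k₁ : ℕ)
    (hle : Mw17PsTupleLe T n t m₁ ω F k₁) :
    ∃ C : ℝ, ∀ R : Mw17Pt T, R ∉ F → (fun a => R (mw17Sec T (n * m₁) (ω a))) ≠ 0 →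
      mw17psHom T (n * m₁) ω R ≤ (m₁ : ℝ) * htgHt (mw17Psi T n R) +
        ((n * m₁ - k₁ : ℕ) : ℝ) * mw17gB T n t none (some R) +
        (F.map fun P : Mw17Pt T => mw17gB T n t (some P) (some R)).sum + C := by
  obtain ⟨C, hC⟩ := hle
  refine ⟨htgC C, fun R hRF hne => ?_⟩
  have hφR : mw17Psi T n R ≠ 0 := mw17Psi_ne_zero T n R
  have hw0 : htlWedge (mw17Phi T n t none) (mw17Phi T n t (some R)) ≠ 0 :=
    mw17g_wedge_none_ne_zero T n t ht R
  have hwP : ∀ P ∈ F, htlWedge (mw17Phi T n t (some P)) (mw17Phi T n t (some R)) ≠ 0 := by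
    intro P hP
    refine mw17g_wedge_ne_zero T n hN hd t ?_
    rintro rfl
    exact hRF hP
  -- the global values of the local terms
  have h1 : HtgrLG (fun w => Real.log (htlSup w.1 (fun a => R (mw17Sec T (n * m₁) (ω a)))))
      (mw17psHom T (n * m₁) ω R) := htgr_logSup _ hne
  have hA : HtgrLG (fun w => Real.log (htlSup w.1 (mw17Psi T n R) ^ m₁))
      ((m₁ : ℝ) * htgHt (mw17Psi T n R)) := htgr_logSup_pow _ hφR m₁
  have hB : HtgrLG (fun w => ((n * m₁ - k₁ : ℕ) : ℝ) *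
      Real.log (htlDist w.1 (mw17Phi T n t none) (mw17Phi T n t (some R))))
      (((n * m₁ - k₁ : ℕ) : ℝ) * mw17gB T n t none (some R)) :=
    (htgr_logDist _ _ (mw17Phi_ne_zero T n t none) (mw17Phi_ne_zero T n t (some R)) hw0).nat_mul _
  have hCc : HtgrLG (fun w => (F.map fun P : Mw17Pt T =>
      Real.log (htlDist w.1 (mw17Phi T n t (some P)) (mw17Phi T n t (some R)))).sum)
      (F.map fun P : Mw17Pt T => mw17gB T n t (some P) (some R)).sum :=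
    HtgrLG.multiset_sum F fun P hP =>
      htgr_logDist _ _ (mw17Phi_ne_zero T n t (some P)) (mw17Phi_ne_zero T n t (some R)) (hwP P hP)
  have h2 := (hA.add hB).add hCc
  have key := h1.le_add h2 C fun w => ?_
  · linarith
  -- the local inequality, in logarithmic form
  have hloc := hC w R
  unfold mw17psTupleRhs at hloc
  have hpos1 : 0 < htlSup w.1 (fun a => R (mw17Sec T (n * m₁) (ω a))) := htlSup_pos_iff.mpr hne
  have hposA : 0 < htlSup w.1 (mw17Psi T n R) ^ m₁ := pow_pos (htlSup_pos_iff.mpr hφR) _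
  have hposB : 0 < mw17Dl T n t w.1 none (some R) := mw17Dl_pos T n t w.1 _ _ hw0
  have hposB' : 0 < mw17Dl T n t w.1 none (some R) ^ (n * m₁ - k₁) := pow_pos hposB _
  have hposP : ∀ P ∈ F, 0 < mw17Dl T n t w.1 (some P) (some R) := fun P hP =>
    mw17Dl_pos T n t w.1 _ _ (hwP P hP)
  have hposC : 0 < (F.map fun P : Mw17Pt T => mw17Dl T n t w.1 (some P) (some R)).prod := by
    apply Multiset.prod_pos
    intro x hx
    obtain ⟨P, hP, rfl⟩ := Multiset.mem_map.mp hx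
    exact hposP P hP
  have hCpos : 0 < C.val w.1 := htl_val_pos _ _
  have hlog := Real.log_le_log hpos1 hloc
  have e1 : Real.log (mw17Dl T n t w.1 none (some R) ^ (n * m₁ - k₁)) =
      ((n * m₁ - k₁ : ℕ) : ℝ) * Real.log (mw17Dl T n t w.1 none (some R)) := Real.log_pow _ _
  rw [Real.log_mul hCpos.ne' (mul_pos (mul_pos hposA hposB') hposC).ne',
    Real.log_mul (mul_pos hposA hposB').ne' hposC.ne', Real.log_mul hposA.ne' hposB'.ne',
    e1, htgr_log_multiset_prod F _ hposP] at hlog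
  simp only [mw17Dl] at hlog
  linarith

/-- **(8.4)(d)**: `h_ω(R) ≤ (2g - 2 + ε) hP0(R) + C` for the points off `F`. -/
theorem mw17ps_eps (n : ℕ) (t : Mw17Idx δ n) (m₁ : ℕ) (hn : n ≠ 0) (hN : δ.N ≤ n)
    (hd : ∀ j, δ.d j ≤ n) (ht : t ≠ mw17IdxZero δ n) (hg : 1 ≤ g)
    (ω : Fin g → Mw17Idx δ (n * m₁) → HtgQb) (F : Multiset (Mw17Pt T)) (k₁ : ℕ)
    (hk₁ : k₁ ≤ n * m₁) (hk : (k₁ : ℝ) ≤ (Multiset.card F : ℝ) + (2 * (g : ℝ) - 2))
    (hle : Mw17PsTupleLe T n t m₁ ω F k₁) (hP0 : Mw17P0Glob T n t) (heps : Mw17Eps T n t)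
    (ε : ℝ) (hε : 0 < ε) :
    ∃ C : ℝ, ∀ R : Mw17Pt T, R ∉ F →
      mw17psHom T (n * m₁) ω R ≤ (2 * (g : ℝ) - 2 + ε) * mw17gH0 T n t (some R) + C := by
  obtain ⟨C₀, hC₀⟩ := mw17ps_hom_le T n t m₁ hN hd ht ω F k₁ hle
  obtain ⟨C₁, hC₁⟩ := hP0
  set N : ℝ := (Multiset.card F : ℝ) with hNdef
  have hN0 : 0 ≤ N := Nat.cast_nonneg _
  set ε' : ℝ := ε / (N + 1) with hε'
  have hε'pos : 0 < ε' := div_pos hε (by linarith)
  have hε'N : ε' * N ≤ ε := by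
    rw [hε', div_mul_eq_mul_div, div_le_iff₀ (by linarith)]
    nlinarith
  choose Cf hCf using fun E : Mw17Pt T => heps E ε' hε'pos
  set E₀ : ℝ := ((n * m₁ - k₁ : ℕ) : ℝ) with hE₀
  have hE₀0 : 0 ≤ E₀ := Nat.cast_nonneg _
  have hE₀eq : E₀ = (n : ℝ) * m₁ - k₁ := by
    rw [hE₀, Nat.cast_sub hk₁]
    push_cast
    ring
  set Cs : ℝ := C₀ + E₀ * C₁ + (F.map Cf).sum with hCs
  refine ⟨max 0 Cs, fun R hRF => ?_⟩
  set H : ℝ := mw17gH0 T n t (some R) with hH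
  have hH0 : 0 ≤ H := mw17gH0_nonneg T n t _
  have hcoef : 0 ≤ 2 * (g : ℝ) - 2 + ε := by
    have : (1 : ℝ) ≤ g := by exact_mod_cast hg
    linarith
  by_cases hne : (fun a => R (mw17Sec T (n * m₁) (ω a))) = 0
  · have : mw17psHom T (n * m₁) ω R = 0 := by
      unfold mw17psHom
      rw [hne]
      exact htgHt_zero
    rw [this]
    exact add_nonneg (mul_nonneg hcoef hH0) (le_max_left _ _)
  · have h1 := hC₀ R hRF hne
    have hφ : htgHt (mw17Psi T n R) = n * H := mw17g_ht_eq_mul_H0 T n hn t (some R)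
    have h2 : mw17gB T n t none (some R) ≤ -H + C₁ := by
      have := (abs_le.mp (hC₁ R)).2
      linarith
    have h3 : (F.map fun P : Mw17Pt T => mw17gB T n t (some P) (some R)).sum ≤
        (F.map fun P : Mw17Pt T => (-(1 - ε') * H + Cf P)).sum := by
      refine Multiset.sum_map_le_sum_map _ _ fun P hP => ?_
      have hRP : R ≠ P := by
        rintro rfl
        exact hRF hP
      have := (abs_le.mp (hCf P R hRP)).2
      linarith
    have h4 : (F.map fun P : Mw17Pt T => (-(1 - ε') * H + Cf P)).sum =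
        N * (-(1 - ε') * H) + (F.map Cf).sum := by
      rw [Multiset.sum_map_add, Multiset.map_const', Multiset.sum_replicate, nsmul_eq_mul]
    have h5 : E₀ * mw17gB T n t none (some R) ≤ E₀ * (-H + C₁) :=
      mul_le_mul_of_nonneg_left h2 hE₀0
    have h6 : ε' * N * H ≤ ε * H := mul_le_mul_of_nonneg_right hε'N hH0
    have h7 : ((k₁ : ℝ) - N) * H ≤ (2 * (g : ℝ) - 2) * H :=
      mul_le_mul_of_nonneg_right (by linarith) hH0
    have h8 : Cs ≤ max 0 Cs := le_max_right _ _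
    rw [hφ] at h1
    nlinarith [h1, h3, h4, h5, h6, h7, h8]

/-- **(8.4)(a)**: the global Hadamard inequality on the curve. -/
theorem mw17ps_had_glob (n : ℕ) (t : Mw17Idx δ n) (m : ℕ)
    (ω : Fin g → Mw17Idx δ m → HtgQb) (F : Multiset (Mw17Pt T))
    (hhad : Mw17PsHad T n t m ω F g) :
    ∃ C : ℝ, ∀ Q : Fin g → Mw17Pt T, Function.Injective Q → (∀ i, Q i ∉ F) →
      Matrix.det (Matrix.of fun i b => Q i (mw17Sec T m (ω b))) ≠ 0 →
      -(∑ b, mw17psHom T m ω (Q b)) - C ≤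
        mw17psPairs (fun P R => mw17gB T n t (some P) (some R)) Q := by
  obtain ⟨C, hC⟩ := hhad
  refine ⟨htgC C, fun Q hQ hQF hdet => ?_⟩
  have h := htgh_main (r := g) (J := Fin g) (ι := Mw17Idx δ n)
    (fun b a => Q b (mw17Sec T m (ω a))) (fun b => mw17Psi T n (Q b)) hdet C
    (fun w => by
      have := hC w Q hQ hQF id
      simpa [mw17Dl, mw17Phi_some] using this)
  unfold mw17psPairs mw17psHom
  simp only [mw17gB_eq_beta]
  linarith

section H8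

variable {X : Type*} (h : X → ℝ) (cls : (Fin g → Mw17Pt T) → X)
  (Gd : (Fin g → Mw17Pt T) → Prop)

/-- **(H8), the lower bound on good tuples**: from Mumford's formula (b), the tangent bound (c'),
the local Hadamard inequality + nonvanishing of the determinant (a), and (TUPLE_w ≤) + (GS-P0) +
(EPS) (d).  `ε = 1/4`, `c₂ = 2 - 3ε = 5/4`. -/
theorem mw17ps_H8 (n : ℕ) (t : Mw17Idx δ n) (m₁ : ℕ) (hn : n ≠ 0) (hN : δ.N ≤ n)
    (hd : ∀ j, δ.d j ≤ n) (ht : t ≠ mw17IdxZero δ n) (hg : 1 ≤ g)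
    (ω : Fin g → Mw17Idx δ (n * m₁) → HtgQb) (F : Multiset (Mw17Pt T)) (k₁ : ℕ)
    (hk₁ : k₁ ≤ n * m₁) (hk : (k₁ : ℝ) ≤ (Multiset.card F : ℝ) + (2 * (g : ℝ) - 2))
    (hhad : Mw17PsHad T n t (n * m₁) ω F g)
    (hle : Mw17PsTupleLe T n t m₁ ω F k₁) (hP0 : Mw17P0Glob T n t) (heps : Mw17Eps T n t)
    (hGd : ∀ Q, Gd Q → Function.Injective Q ∧ (∀ i, Q i ∉ F) ∧
      Matrix.det (Matrix.of fun i b => Q i (mw17Sec T (n * m₁) (ω b))) ≠ 0)
    {C₁ C₃ : ℝ}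
    (hmum : ∀ Q, Gd Q →
      2 * mw17psPairs (fun P R => mw17gB T n t (some P) (some R)) Q +
        ∑ b, (mw17gBt T n (Q b) + 2 * (g : ℝ) * mw17gH0 T n t (some (Q b))) - C₁ ≤ h (cls Q))
    (htan : ∀ Q, Gd Q → ∀ b,
      (2 * (g : ℝ) - 2 - 1 / 4) * mw17gH0 T n t (some (Q b)) - C₃ ≤ mw17gBt T n (Q b)) :
    ∃ c₁ : ℝ, ∀ Q, Gd Q →
      (5 / 4 : ℝ) * ∑ b, mw17gH0 T n t (some (Q b)) - c₁ ≤ h (cls Q) := by
  obtain ⟨C₂, hC₂⟩ := mw17ps_had_glob T n t (n * m₁) ω F hhad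
  obtain ⟨C₄, hC₄⟩ := mw17ps_eps T n t m₁ hn hN hd ht hg ω F k₁ hk₁ hk hle hP0 heps (1 / 4)
    (by norm_num)
  have key := mw17ps_lower_of_parts' (fun R => mw17gH0 T n t (some R))
    (mw17psHom T (n * m₁) ω) (mw17gBt T n) (fun P R => mw17gB T n t (some P) (some R)) h cls Gd
    (C₁ := C₁) (C₂ := C₂) (C₃ := C₃) (C₄ := C₄) (a := 2 * (g : ℝ) - 2 + 1 / 4)
    (a' := 2 * (g : ℝ) - 2 - 1 / 4) hmum
    (fun Q hQ => hC₂ Q (hGd Q hQ).1 (hGd Q hQ).2.1 (hGd Q hQ).2.2)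
    htan (fun Q hQ b => hC₄ (Q b) ((hGd Q hQ).2.1 b))
  refine ⟨C₁ + 2 * C₂ + (g : ℝ) * (C₃ + 2 * C₄), fun Q hQ => ?_⟩
  have := key Q hQ
  have hcoef : 2 * (g : ℝ) + (2 * (g : ℝ) - 2 - 1 / 4) - 2 * (2 * (g : ℝ) - 2 + 1 / 4) = 5 / 4 := by
    ring
  rw [hcoef] at this
  exact this

end H8

end Fermat.Agent.MW17
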