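import Fermat.Agent.HT.Hadamard

/-!
# Program MW (S17), heights half (A), §8.3: the local Hadamard inequality on the curve (abstract)

Owner: helper7.  Namespace `Fermat.Agent.MW17`, prefix `mw17ps`.

One absolute value `v` on a field `K`.  `Pt` = the finite points, `ψ P : J → K` the values at `P` of
the monomial basis of `L_m`; a section of `L_m` is a coefficient vector `u : J → K`, with value
`∑ j, u j * ψ P j` at `P` and with a zero multiset `Z` (`IsZ u Z`, in practice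
`Mw17IsZeros (mw17Sec T m u) Z`).  `d P R` is the local distance of two finite points, `e R` the
local distance of `R` to `P0`, both in `[0, c]`.

Inputs:
* `(★-off, ≤ half)`: `v (u(R)) ≤ C₁ ‖u‖ nrm(R) e(R)^(m - #Z) ∏_{P ∈ Z} d(P,R)` for `R ∉ Z`
  (`nrm R` = any norm factor, e.g. `‖ψ_m R‖` or `‖φ R‖^{m₁}`);
* the fixed tuple `ω : Fin g → J → K` (the transported differentials) with base divisor `F`:
  every nonzero combination `∑ s_a ω_a` has `F ≤ Z` and `#Z ≤ k₁`;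
* `(TUPLE_w, ≥ half)`: `nrm(R) e(R)^(m - k₁) ∏_{P ∈ F} d(P,R) ≤ C₂ ‖ω(R)‖` for `R ∉ F`;
* the triangle constant `‖∑ s_a ω_a‖ ≤ C₃ ‖s‖`.

Output: `mw17ps_hstar` = the hypothesis `hstar` of helper18's `hthd_det_le` for the points off `F`
with `J := Fin g`, `ψ P a := ω_a(P)`; `mw17ps_hadamard` / `mw17ps_hadamard_nonarch` = the refined
Hadamard inequality `v (det[ω_{c a}(Q_i)]) ≤ const · ∏_i ‖ω(Q_i)‖ · ∏_{k<i} d(Q_k,Q_i)`.
-/

set_option autoImplicit false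

namespace Fermat.Agent.MW17

open Finset Fermat.Agent.HT

/-- `F + l ≤ Z` for a multiset `F ≤ Z` and a finite set `l` of elements of `Z` outside `F`. -/
theorem mw17ps_add_le {α : Type*} (F Z : Multiset α) (l : Finset α) (hF : F ≤ Z)
    (hl : ∀ P ∈ l, P ∈ Z) (hdisj : ∀ P ∈ l, P ∉ F) : F + l.val ≤ Z := by
  classical
  rw [Multiset.le_iff_count]
  intro a
  rw [Multiset.count_add]
  by_cases ha : a ∈ l
  · have h1 : Multiset.count a F = 0 := Multiset.count_eq_zero_of_notMem (hdisj a ha)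
    have h2 : Multiset.count a l.val = 1 := Multiset.count_eq_one_of_mem l.nodup ha
    have h3 : 1 ≤ Multiset.count a Z := Multiset.one_le_count_iff_mem.mpr (hl a ha)
    omega
  · have h2 : Multiset.count a l.val = 0 := Multiset.count_eq_zero_of_notMem ha
    have := Multiset.le_iff_count.mp hF a
    omega

/-- a product of numbers in `[0, c]` is at most `c ^ card`. -/
theorem mw17ps_prod_le_pow {α : Type*} (Z : Multiset α) (f : α → ℝ) {c : ℝ}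
    (h0 : ∀ P, 0 ≤ f P) (hc : ∀ P, f P ≤ c) : (Z.map f).prod ≤ c ^ Multiset.card Z := by
  induction Z using Multiset.induction_on with
  | empty => simp
  | cons a Z ih =>
    rw [Multiset.map_cons, Multiset.prod_cons, Multiset.card_cons, pow_succ, mul_comm]
    have h1 : 0 ≤ (Z.map f).prod := Multiset.prod_nonneg fun x hx => by
      obtain ⟨P, -, rfl⟩ := Multiset.mem_map.mp hx
      exact h0 P
    exact mul_le_mul ih (hc a) (h0 a) (h1.trans ih)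

theorem mw17ps_prod_nonneg {α : Type*} (Z : Multiset α) (f : α → ℝ) (h0 : ∀ P, 0 ≤ f P) :
    0 ≤ (Z.map f).prod :=
  Multiset.prod_nonneg fun x hx => by
    obtain ⟨P, -, rfl⟩ := Multiset.mem_map.mp hx
    exact h0 P

section Local

variable {K : Type*} [Field K] (v : AbsoluteValue K ℝ) {J Pt : Type*} [Fintype J] {g : ℕ}

/-- the value at the point with coordinate vector `y` of the combination `∑ s_a ω_a`. -/
theorem mw17ps_ev_comb (ω : Fin g → J → K) (s : Fin g → K) (y : J → K) :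
    ∑ j, (∑ a, s a • ω a) j * y j = ∑ a, s a * ∑ j, ω a j * y j := by
  simp only [Finset.sum_apply, Pi.smul_apply, smul_eq_mul, Finset.sum_mul, Finset.mul_sum]
  rw [Finset.sum_comm]
  refine Finset.sum_congr rfl fun a _ => Finset.sum_congr rfl fun j _ => ?_
  ring

/-- **The hypothesis `hstar` of the abstract Hadamard inequality, on the curve.** -/
theorem mw17ps_hstar (ψ : Pt → J → K) (IsZ : (J → K) → Multiset Pt → Prop)
    (d : Pt → Pt → ℝ) (e : Pt → ℝ) {c : ℝ} (hc : 1 ≤ c)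
    (hd0 : ∀ P R, 0 ≤ d P R) (hdc : ∀ P R, d P R ≤ c) (he0 : ∀ R, 0 ≤ e R) (hec : ∀ R, e R ≤ c)
    (nrm : Pt → ℝ) (hnrm0 : ∀ R, 0 ≤ nrm R)
    (m : ℕ) {C₁ : ℝ} (hC₁ : 0 ≤ C₁)
    (hoff : ∀ u Z, u ≠ 0 → IsZ u Z → ∀ R, R ∉ Z →
      v (∑ j, u j * ψ R j) ≤ C₁ * (⨆ j, v (u j)) * nrm R * e R ^ (m - Multiset.card Z) *
        (Z.map fun P => d P R).prod)
    (hex : ∀ u, u ≠ 0 → ∃ Z, IsZ u Z)
    (hmem : ∀ u Z, u ≠ 0 → IsZ u Z → ∀ P, P ∈ Z ↔ ∑ j, u j * ψ P j = 0)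
    (ω : Fin g → J → K) (F : Multiset Pt) (k₁ : ℕ) (hk₁ : k₁ ≤ m)
    (hF : ∀ (s : Fin g → K) (Z : Multiset Pt), (∑ a, s a • ω a) ≠ 0 → IsZ (∑ a, s a • ω a) Z →
      F ≤ Z ∧ Multiset.card Z ≤ k₁)
    {C₂ : ℝ} (hC₂ : 0 ≤ C₂)
    (htup : ∀ R, R ∉ F → nrm R * e R ^ (m - k₁) * (F.map fun P => d P R).prod ≤
      C₂ * ⨆ a, v (∑ j, ω a j * ψ R j))
    {C₃ : ℝ} (hC₃ : 0 ≤ C₃)
    (hsum : ∀ (s : Fin g → K) (j : J), v (∑ a, s a * ω a j) ≤ C₃ * ⨆ a, v (s a))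
    (s : Fin g → K) (l : Finset {P : Pt // P ∉ F}) (R : {P : Pt // P ∉ F}) (_hR : R ∉ l)
    (hvan : ∀ P ∈ l, ∑ a, s a * (∑ j, ω a j * ψ P.1 j) = 0) :
    v (∑ a, s a * (∑ j, ω a j * ψ R.1 j)) ≤
      (C₁ * C₂ * C₃ * c ^ m) * (⨆ a, v (s a)) * (⨆ a, v (∑ j, ω a j * ψ R.1 j)) *
        ∏ P ∈ l, d P.1 R.1 := by
  classical
  have hc0 : 0 ≤ c := zero_le_one.trans hc
  set S : ℝ := ⨆ a, v (s a) with hS
  set Ω : ℝ := ⨆ a, v (∑ j, ω a j * ψ R.1 j) with hΩ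
  set Dl : ℝ := ∏ P ∈ l, d P.1 R.1 with hDl
  have hS0 : 0 ≤ S := Real.iSup_nonneg fun a => v.nonneg _
  have hΩ0 : 0 ≤ Ω := Real.iSup_nonneg fun a => v.nonneg _
  have hDl0 : 0 ≤ Dl := Finset.prod_nonneg fun P _ => hd0 _ _
  have hrhs : 0 ≤ (C₁ * C₂ * C₃ * c ^ m) * S * Ω * Dl :=
    mul_nonneg (mul_nonneg (mul_nonneg (mul_nonneg (mul_nonneg (mul_nonneg hC₁ hC₂) hC₃)
      (pow_nonneg hc0 m)) hS0) hΩ0) hDl0
  set u : J → K := ∑ a, s a • ω a with hu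
  have hev : ∀ P : Pt, ∑ j, u j * ψ P j = ∑ a, s a * ∑ j, ω a j * ψ P j := fun P =>
    mw17ps_ev_comb ω s (ψ P)
  rw [← hev]
  by_cases hu0 : u = 0
  · rw [hu0]
    simpa using hrhs
  by_cases huR : ∑ j, u j * ψ R.1 j = 0
  · rw [huR, map_zero]
    exact hrhs
  obtain ⟨Z, hZ⟩ := hex u hu0
  have hRZ : R.1 ∉ Z := fun h => huR ((hmem u Z hu0 hZ R.1).mp h)
  obtain ⟨hFZ, hcard⟩ := hF s Z hu0 hZ
  -- the points of `l` as a finset of `Pt`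
  set l' : Finset Pt := l.map ⟨Subtype.val, Subtype.val_injective⟩ with hl'
  have hl'Z : ∀ P ∈ l', P ∈ Z := by
    intro P hP
    rw [hl', Finset.mem_map] at hP
    obtain ⟨P', hP', rfl⟩ := hP
    refine (hmem u Z hu0 hZ P'.1).mpr ?_
    rw [hev]
    exact hvan P' hP'
  have hl'F : ∀ P ∈ l', P ∉ F := by
    intro P hP
    rw [hl', Finset.mem_map] at hP
    obtain ⟨P', -, rfl⟩ := hP
    exact P'.2
  obtain ⟨Z', hZ'⟩ := Multiset.le_iff_exists_add.mp (mw17ps_add_le F Z l' hFZ hl'Z hl'F)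
  -- the product over `Z`
  have hprodl : (l'.val.map fun P => d P R.1).prod = Dl := by
    rw [hDl, hl', Finset.map_val, Multiset.map_map]
    rfl
  set DF : ℝ := (F.map fun P => d P R.1).prod with hDF
  have hDF0 : 0 ≤ DF := mw17ps_prod_nonneg F _ fun P => hd0 P R.1
  have hprodZ : (Z.map fun P => d P R.1).prod ≤ DF * Dl * c ^ Multiset.card Z' := by
    rw [hZ', Multiset.map_add, Multiset.map_add, Multiset.prod_add, Multiset.prod_add, hprodl]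
    exact mul_le_mul_of_nonneg_left
      (mw17ps_prod_le_pow Z' _ (fun P => hd0 P R.1) fun P => hdc P R.1) (mul_nonneg hDF0 hDl0)
  have hcardZ' : Multiset.card Z' ≤ Multiset.card Z := by
    rw [hZ', Multiset.card_add]
    exact Nat.le_add_left _ _
  -- the power of `e R`
  have hepow : e R.1 ^ (m - Multiset.card Z) ≤ e R.1 ^ (m - k₁) * c ^ (k₁ - Multiset.card Z) := by
    have : m - Multiset.card Z = (m - k₁) + (k₁ - Multiset.card Z) := by omega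
    rw [this, pow_add]
    exact mul_le_mul_of_nonneg_left (pow_le_pow_left₀ (he0 _) (hec _) _) (pow_nonneg (he0 _) _)
  -- the norm of `u`
  have hunorm : (⨆ j, v (u j)) ≤ C₃ * S := by
    refine Real.iSup_le (fun j => ?_) (mul_nonneg hC₃ hS0)
    have : u j = ∑ a, s a * ω a j := by
      rw [hu]
      simp [Finset.sum_apply]
    rw [this]
    exact hsum s j
  have hunorm0 : 0 ≤ ⨆ j, v (u j) := Real.iSup_nonneg fun j => v.nonneg _
  set Ψ : ℝ := nrm R.1 with hΨ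
  have hΨ0 : 0 ≤ Ψ := hnrm0 R.1
  have hcpow : c ^ (k₁ - Multiset.card Z) * c ^ Multiset.card Z' ≤ c ^ m := by
    rw [← pow_add]
    exact pow_le_pow_right₀ hc (by omega)
  have htupR := htup R.1 R.2
  have hepow0 : 0 ≤ e R.1 ^ (m - k₁) := pow_nonneg (he0 _) _
  calc v (∑ j, u j * ψ R.1 j)
      ≤ C₁ * (⨆ j, v (u j)) * Ψ * e R.1 ^ (m - Multiset.card Z) *
          (Z.map fun P => d P R.1).prod := hoff u Z hu0 hZ R.1 hRZ
    _ ≤ C₁ * (C₃ * S) * Ψ * (e R.1 ^ (m - k₁) * c ^ (k₁ - Multiset.card Z)) *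
          (DF * Dl * c ^ Multiset.card Z') := by
        have h1 : C₁ * (⨆ j, v (u j)) * Ψ ≤ C₁ * (C₃ * S) * Ψ :=
          mul_le_mul_of_nonneg_right (mul_le_mul_of_nonneg_left hunorm hC₁) hΨ0
        have h2 : 0 ≤ C₁ * (⨆ j, v (u j)) * Ψ := mul_nonneg (mul_nonneg hC₁ hunorm0) hΨ0
        have h3 : 0 ≤ C₁ * (C₃ * S) * Ψ := h2.trans h1
        have h4 : 0 ≤ e R.1 ^ (m - Multiset.card Z) := pow_nonneg (he0 _) _
        have h5 : 0 ≤ (Z.map fun P => d P R.1).prod := mw17ps_prod_nonneg Z _ fun P => hd0 P R.1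
        exact mul_le_mul (mul_le_mul h1 hepow h4 h3) hprodZ h5
          (mul_nonneg h3 (h4.trans hepow))
    _ = (C₁ * C₃ * S * Dl) * (c ^ (k₁ - Multiset.card Z) * c ^ Multiset.card Z') *
          (Ψ * e R.1 ^ (m - k₁) * DF) := by ring
    _ ≤ (C₁ * C₃ * S * Dl) * c ^ m * (C₂ * Ω) := by
        have h1 : 0 ≤ C₁ * C₃ * S * Dl := mul_nonneg (mul_nonneg (mul_nonneg hC₁ hC₃) hS0) hDl0
        have h2 : 0 ≤ Ψ * e R.1 ^ (m - k₁) * DF := mul_nonneg (mul_nonneg hΨ0 hepow0) hDF0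
        exact mul_le_mul (mul_le_mul_of_nonneg_left hcpow h1) htupR h2
          (mul_nonneg h1 (pow_nonneg hc0 m))
    _ = (C₁ * C₂ * C₃ * c ^ m) * S * Ω * Dl := by ring

/-- **The refined Hadamard inequality on the curve (8.3), any absolute value**: constant
`(C₁ C₂ C₃ c^m)^r · r!`. -/
theorem mw17ps_hadamard (ψ : Pt → J → K) (IsZ : (J → K) → Multiset Pt → Prop)
    (d : Pt → Pt → ℝ) (e : Pt → ℝ) {c : ℝ} (hc : 1 ≤ c)
    (hd0 : ∀ P R, 0 ≤ d P R) (hdc : ∀ P R, d P R ≤ c) (he0 : ∀ R, 0 ≤ e R) (hec : ∀ R, e R ≤ c)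
    (nrm : Pt → ℝ) (hnrm0 : ∀ R, 0 ≤ nrm R)
    (m : ℕ) {C₁ : ℝ} (hC₁ : 0 ≤ C₁)
    (hoff : ∀ u Z, u ≠ 0 → IsZ u Z → ∀ R, R ∉ Z →
      v (∑ j, u j * ψ R j) ≤ C₁ * (⨆ j, v (u j)) * nrm R * e R ^ (m - Multiset.card Z) *
        (Z.map fun P => d P R).prod)
    (hex : ∀ u, u ≠ 0 → ∃ Z, IsZ u Z)
    (hmem : ∀ u Z, u ≠ 0 → IsZ u Z → ∀ P, P ∈ Z ↔ ∑ j, u j * ψ P j = 0)
    (ω : Fin g → J → K) (F : Multiset Pt) (k₁ : ℕ) (hk₁ : k₁ ≤ m)
    (hF : ∀ (s : Fin g → K) (Z : Multiset Pt), (∑ a, s a • ω a) ≠ 0 → IsZ (∑ a, s a • ω a) Z →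
      F ≤ Z ∧ Multiset.card Z ≤ k₁)
    {C₂ : ℝ} (hC₂ : 0 ≤ C₂)
    (htup : ∀ R, R ∉ F → nrm R * e R ^ (m - k₁) * (F.map fun P => d P R).prod ≤
      C₂ * ⨆ a, v (∑ j, ω a j * ψ R j))
    {C₃ : ℝ} (hC₃ : 0 ≤ C₃)
    (hsum : ∀ (s : Fin g → K) (j : J), v (∑ a, s a * ω a j) ≤ C₃ * ⨆ a, v (s a))
    (r : ℕ) (Q : Fin r → Pt) (hQ : Function.Injective Q) (hQF : ∀ i, Q i ∉ F)
    (a : Fin r → Fin g) :
    v (Matrix.det (Matrix.of fun i b => ∑ j, ω (a b) j * ψ (Q i) j)) ≤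
      ((C₁ * C₂ * C₃ * c ^ m) ^ r * (r.factorial : ℝ)) *
        (∏ i, ⨆ b, v (∑ j, ω b j * ψ (Q i) j)) *
          ∏ i, ∏ k ∈ Finset.univ.filter (· < i), d (Q k) (Q i) := by
  have hc0 : 0 ≤ c := zero_le_one.trans hc
  have hC : 0 ≤ C₁ * C₂ * C₃ * c ^ m :=
    mul_nonneg (mul_nonneg (mul_nonneg hC₁ hC₂) hC₃) (pow_nonneg hc0 m)
  have hQ' : Function.Injective fun i => (⟨Q i, hQF i⟩ : {P : Pt // P ∉ F}) := fun i k hik =>
    hQ (congrArg Subtype.val hik)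
  exact hthd_det_le v (J := Fin g) (Pt := {P : Pt // P ∉ F})
    (fun P b => ∑ j, ω b j * ψ P.1 j) (fun P R => d P.1 R.1) (fun P R => hd0 P.1 R.1) hC
    (fun s l R hR hvan => mw17ps_hstar v ψ IsZ d e hc hd0 hdc he0 hec nrm hnrm0 m hC₁ hoff hex hmem ω F k₁
      hk₁ hF hC₂ htup hC₃ hsum s l R hR hvan)
    r (fun i => ⟨Q i, hQF i⟩) hQ' a

/-- **The refined Hadamard inequality on the curve (8.3), nonarchimedean**: constant
`(C₁ C₂ C₃ c^m)^r`. -/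
theorem mw17ps_hadamard_nonarch (hv : IsNonarchimedean v) (ψ : Pt → J → K)
    (IsZ : (J → K) → Multiset Pt → Prop)
    (d : Pt → Pt → ℝ) (e : Pt → ℝ) {c : ℝ} (hc : 1 ≤ c)
    (hd0 : ∀ P R, 0 ≤ d P R) (hdc : ∀ P R, d P R ≤ c) (he0 : ∀ R, 0 ≤ e R) (hec : ∀ R, e R ≤ c)
    (nrm : Pt → ℝ) (hnrm0 : ∀ R, 0 ≤ nrm R)
    (m : ℕ) {C₁ : ℝ} (hC₁ : 0 ≤ C₁)
    (hoff : ∀ u Z, u ≠ 0 → IsZ u Z → ∀ R, R ∉ Z →
      v (∑ j, u j * ψ R j) ≤ C₁ * (⨆ j, v (u j)) * nrm R * e R ^ (m - Multiset.card Z) *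
        (Z.map fun P => d P R).prod)
    (hex : ∀ u, u ≠ 0 → ∃ Z, IsZ u Z)
    (hmem : ∀ u Z, u ≠ 0 → IsZ u Z → ∀ P, P ∈ Z ↔ ∑ j, u j * ψ P j = 0)
    (ω : Fin g → J → K) (F : Multiset Pt) (k₁ : ℕ) (hk₁ : k₁ ≤ m)
    (hF : ∀ (s : Fin g → K) (Z : Multiset Pt), (∑ a, s a • ω a) ≠ 0 → IsZ (∑ a, s a • ω a) Z →
      F ≤ Z ∧ Multiset.card Z ≤ k₁)
    {C₂ : ℝ} (hC₂ : 0 ≤ C₂)
    (htup : ∀ R, R ∉ F → nrm R * e R ^ (m - k₁) * (F.map fun P => d P R).prod ≤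
      C₂ * ⨆ a, v (∑ j, ω a j * ψ R j))
    {C₃ : ℝ} (hC₃ : 0 ≤ C₃)
    (hsum : ∀ (s : Fin g → K) (j : J), v (∑ a, s a * ω a j) ≤ C₃ * ⨆ a, v (s a))
    (r : ℕ) (Q : Fin r → Pt) (hQ : Function.Injective Q) (hQF : ∀ i, Q i ∉ F)
    (a : Fin r → Fin g) :
    v (Matrix.det (Matrix.of fun i b => ∑ j, ω (a b) j * ψ (Q i) j)) ≤
      (C₁ * C₂ * C₃ * c ^ m) ^ r *
        (∏ i, ⨆ b, v (∑ j, ω b j * ψ (Q i) j)) *
          ∏ i, ∏ k ∈ Finset.univ.filter (· < i), d (Q k) (Q i) := by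
  have hc0 : 0 ≤ c := zero_le_one.trans hc
  have hC : 0 ≤ C₁ * C₂ * C₃ * c ^ m :=
    mul_nonneg (mul_nonneg (mul_nonneg hC₁ hC₂) hC₃) (pow_nonneg hc0 m)
  have hQ' : Function.Injective fun i => (⟨Q i, hQF i⟩ : {P : Pt // P ∉ F}) := fun i k hik =>
    hQ (congrArg Subtype.val hik)
  exact hthd_det_le_nonarch v hv (J := Fin g) (Pt := {P : Pt // P ∉ F})
    (fun P b => ∑ j, ω b j * ψ P.1 j) (fun P R => d P.1 R.1) (fun P R => hd0 P.1 R.1) hC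
    (fun s l R hR hvan => mw17ps_hstar v ψ IsZ d e hc hd0 hdc he0 hec nrm hnrm0 m hC₁ hoff hex hmem ω F k₁
      hk₁ hF hC₂ htup hC₃ hsum s l R hR hvan)
    r (fun i => ⟨Q i, hQF i⟩) hQ' a

/-- the triangle constant `C₃` for an arbitrary absolute value: `g · max_a ‖ω_a‖`. -/
theorem mw17ps_sum_le (ω : Fin g → J → K) (s : Fin g → K) (j : J) :
    v (∑ a, s a * ω a j) ≤ ((g : ℝ) * ⨆ p : Fin g × J, v (ω p.1 p.2)) * ⨆ a, v (s a) := by
  set W : ℝ := ⨆ p : Fin g × J, v (ω p.1 p.2) with hW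
  set S : ℝ := ⨆ a, v (s a) with hS
  have hle : ∀ a, v (s a * ω a j) ≤ S * W := by
    intro a
    rw [map_mul]
    refine mul_le_mul (Finite.le_ciSup (fun a => v (s a)) a) ?_ (v.nonneg _)
      (Real.iSup_nonneg fun a => v.nonneg _)
    exact Finite.le_ciSup (fun p : Fin g × J => v (ω p.1 p.2)) (a, j)
  calc v (∑ a, s a * ω a j) ≤ ∑ a, v (s a * ω a j) := v.sum_le _ _
    _ ≤ ∑ _a : Fin g, S * W := Finset.sum_le_sum fun a _ => hle a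
    _ = (g : ℝ) * W * S := by
        rw [Finset.sum_const, Finset.card_univ, Fintype.card_fin, nsmul_eq_mul]; ring

/-- the triangle constant `C₃` for a nonarchimedean absolute value: `max_a ‖ω_a‖`. -/
theorem mw17ps_sum_le_nonarch (hv : IsNonarchimedean v) (ω : Fin g → J → K) (s : Fin g → K)
    (j : J) :
    v (∑ a, s a * ω a j) ≤ (⨆ p : Fin g × J, v (ω p.1 p.2)) * ⨆ a, v (s a) := by
  set W : ℝ := ⨆ p : Fin g × J, v (ω p.1 p.2) with hW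
  set S : ℝ := ⨆ a, v (s a) with hS
  have hW0 : 0 ≤ W := Real.iSup_nonneg fun p => v.nonneg _
  have hS0 : 0 ≤ S := Real.iSup_nonneg fun a => v.nonneg _
  refine (IsNonarchimedean.apply_sum_univ_le hv).trans ?_
  refine Real.iSup_le (fun a => ?_) (mul_nonneg hW0 hS0)
  rw [map_mul, mul_comm]
  refine mul_le_mul ?_ (Finite.le_ciSup (fun a => v (s a)) a) (v.nonneg _) hW0
  exact Finite.le_ciSup (fun p : Fin g × J => v (ω p.1 p.2)) (a, j)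

end Local

end Fermat.Agent.MW17
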