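import Fermat.Agent.HT.Loc
import Fermat.Agent.MW17.Pos.Hadamard

/-!
# Program MW (S17), heights half (A), §8.3: the local Hadamard inequality on the curve,
in the `HtAbs` / `HtConst` formalism (D2)

Owner: helper7.  Namespace `Fermat.Agent.MW17`, prefix `mw17ps`.

`mw17ps_hstar_const` : from `(★-off, ≤ half)` and `(TUPLE_w, ≥ half)` with constants in `HtConst K`,
uniform over all `w : HtAbs K`, the hypothesis `hstar` of the abstract Hadamard inequality in the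
(D2) shape, for the points off the base divisor `F` of the fixed tuple `ω`, with `J := Fin g`,
`ψ P a := ω_a(P)`.

`mw17ps_hadamard_const` : the refined Hadamard inequality
`w (det[ω_{a b}(Q_i)]) ≤ C.val w · ∏_i ‖ω(Q_i)‖_w · ∏_{k<i} d_w(Q_k,Q_i)` with `C : HtConst K`.
-/

set_option autoImplicit false

namespace Fermat.Agent.MW17

open Finset Fermat.Agent.HT

section Const

variable {K : Type*} [Field K] {J Pt : Type*} [Fintype J] {g : ℕ}

/-- the constant `C₃`: `g^{[arch]} · ∏ max 1 (w (ω a j))`. -/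
noncomputable def mw17psSumConst (ω : Fin g → J → K) : HtConst K := by
  classical
  exact (HtConst.ofNat g).mul
    (HtConst.ofFinset (Finset.univ.image fun p : Fin g × J => ω p.1 p.2))

theorem mw17ps_sum_le_const (ω : Fin g → J → K) (w : AbsoluteValue K ℝ) (s : Fin g → K) (j : J) :
    w (∑ a, s a * ω a j) ≤ (mw17psSumConst ω).val w * ⨆ a, w (s a) := by
  classical
  set S : ℝ := ⨆ a, w (s a) with hS
  have hS0 : 0 ≤ S := Real.iSup_nonneg fun a => w.nonneg _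
  set E : Finset K := Finset.univ.image fun p : Fin g × J => ω p.1 p.2 with hE
  set W : ℝ := (HtConst.ofFinset E).val w with hW
  have hW1 : 1 ≤ W := htl_one_le_val _ _
  have hentry : ∀ a, w (ω a j) ≤ W := by
    intro a
    rw [hW, htl_val_ofFinset]
    have hmem : ω a j ∈ E := by
      rw [hE, Finset.mem_image]
      exact ⟨(a, j), Finset.mem_univ _, rfl⟩
    exact htl_le_prod_max w E hmem
  have h1 : w (∑ a, s a * ω a j) ≤ htlArch w ((Finset.univ : Finset (Fin g)).card) * (S * W) := by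
    refine htl_sum_le w Finset.univ _ (mul_nonneg hS0 (zero_le_one.trans hW1)) fun a _ => ?_
    rw [map_mul]
    exact mul_le_mul (Finite.le_ciSup (fun a => w (s a)) a) (hentry a) (w.nonneg _) hS0
  rw [Finset.card_univ, Fintype.card_fin] at h1
  have h2 : htlArch w (g : ℝ) ≤ (HtConst.ofNat g : HtConst K).val w := by
    rw [htl_val_ofNat]
    exact htlArch_mono _ (by push_cast; linarith)
  have h3 : (HtConst.ofNat g : HtConst K).val w * W ≤ (mw17psSumConst ω).val w := by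
    unfold mw17psSumConst
    exact htl_val_mul_le _ _ w
  calc w (∑ a, s a * ω a j) ≤ htlArch w (g : ℝ) * (S * W) := h1
    _ = (htlArch w (g : ℝ) * W) * S := by ring
    _ ≤ ((HtConst.ofNat g : HtConst K).val w * W) * S :=
        mul_le_mul_of_nonneg_right
          (mul_le_mul_of_nonneg_right h2 (zero_le_one.trans hW1)) hS0
    _ ≤ (mw17psSumConst ω).val w * S := mul_le_mul_of_nonneg_right h3 hS0

/-- the constant of `mw17ps_hstar_const`. -/
noncomputable def mw17psHstarConst (C₁ C₂ : HtConst K) (ω : Fin g → J → K) (m : ℕ) : HtConst K :=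
  ((C₁.mul C₂).mul (mw17psSumConst ω)).mul ((HtConst.ofNat 1).pow m)

theorem mw17psHstarConst_le (C₁ C₂ : HtConst K) (ω : Fin g → J → K) (m : ℕ)
    (w : AbsoluteValue K ℝ) :
    C₁.val w * C₂.val w * (mw17psSumConst ω).val w * htlArch w 2 ^ m ≤
      (mw17psHstarConst C₁ C₂ ω m).val w := by
  unfold mw17psHstarConst
  have h1 := htl_val_mul_le C₁ C₂ w
  have h2 := htl_val_mul_le (C₁.mul C₂) (mw17psSumConst ω) w
  have h3 := htl_val_mul_le ((C₁.mul C₂).mul (mw17psSumConst ω)) ((HtConst.ofNat 1).pow m) w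
  have h4 : htlArch w 2 ^ m = ((HtConst.ofNat 1 : HtConst K).pow m).val w := by
    rw [htl_val_pow_eq, htl_val_ofNat]
    norm_num
  rw [h4]
  refine le_trans ?_ h3
  refine mul_le_mul_of_nonneg_right ?_ (htl_val_nonneg _ _)
  refine le_trans ?_ h2
  exact mul_le_mul_of_nonneg_right h1 (htl_val_nonneg _ _)

/-- **The hypothesis `hstar` of the abstract Hadamard inequality on the curve, (D2) shape.** -/
theorem mw17ps_hstar_const (ψ : Pt → J → K) (IsZ : (J → K) → Multiset Pt → Prop)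
    (d : AbsoluteValue K ℝ → Pt → Pt → ℝ) (e : AbsoluteValue K ℝ → Pt → ℝ)
    (hd0 : ∀ w P R, 0 ≤ d w P R) (hdc : ∀ w P R, d w P R ≤ htlArch w 2)
    (he0 : ∀ w R, 0 ≤ e w R) (hec : ∀ w R, e w R ≤ htlArch w 2)
    (nrm : AbsoluteValue K ℝ → Pt → ℝ) (hnrm0 : ∀ w R, 0 ≤ nrm w R)
    (m : ℕ) (C₁ : HtConst K)
    (hoff : ∀ (w : HtAbs K) (u : J → K) (Z : Multiset Pt), u ≠ 0 → IsZ u Z → ∀ R, R ∉ Z →
      w (∑ j, u j * ψ R j) ≤ C₁.val w * (⨆ j, w (u j)) * nrm w R *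
        e w R ^ (m - Multiset.card Z) * (Z.map fun P => d w P R).prod)
    (hex : ∀ u, u ≠ 0 → ∃ Z, IsZ u Z)
    (hmem : ∀ u Z, u ≠ 0 → IsZ u Z → ∀ P, P ∈ Z ↔ ∑ j, u j * ψ P j = 0)
    (ω : Fin g → J → K) (F : Multiset Pt) (k₁ : ℕ) (hk₁ : k₁ ≤ m)
    (hF : ∀ (s : Fin g → K) (Z : Multiset Pt), (∑ a, s a • ω a) ≠ 0 → IsZ (∑ a, s a • ω a) Z →
      F ≤ Z ∧ Multiset.card Z ≤ k₁)
    (C₂ : HtConst K)
    (htup : ∀ (w : HtAbs K) R, R ∉ F →
      nrm w R * e w R ^ (m - k₁) * (F.map fun P => d w P R).prod ≤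
        C₂.val w * ⨆ a, w (∑ j, ω a j * ψ R j))
    (w : HtAbs K) (s : Fin g → K) (l : Finset {P : Pt // P ∉ F}) (R : {P : Pt // P ∉ F})
    (hR : R ∉ l) (hvan : ∀ P ∈ l, ∑ a, s a * (∑ j, ω a j * ψ P.1 j) = 0) :
    w (∑ a, s a * (∑ j, ω a j * ψ R.1 j)) ≤
      (mw17psHstarConst C₁ C₂ ω m).val w * (⨆ a, w (s a)) *
        (⨆ a, w (∑ j, ω a j * ψ R.1 j)) * ∏ P ∈ l, d w P.1 R.1 := by
  have hc : (1 : ℝ) ≤ htlArch w.1 2 := one_le_htlArch _ (by norm_num)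
  have h := mw17ps_hstar w.1 ψ IsZ (d w.1) (e w.1) hc (hd0 w.1) (hdc w.1) (he0 w.1) (hec w.1) (nrm w.1) (hnrm0 w.1) m
    (htl_val_nonneg C₁ w.1) (hoff w) hex hmem ω F k₁ hk₁ hF (htl_val_nonneg C₂ w.1) (htup w)
    (htl_val_nonneg (mw17psSumConst ω) w.1) (mw17ps_sum_le_const ω w.1) s l R hR hvan
  refine h.trans ?_
  have hS0 : 0 ≤ ⨆ a, w.1 (s a) := Real.iSup_nonneg fun a => w.1.nonneg _
  have hΩ0 : 0 ≤ ⨆ a, w.1 (∑ j, ω a j * ψ R.1 j) := Real.iSup_nonneg fun a => w.1.nonneg _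
  have hD0 : 0 ≤ ∏ P ∈ l, d w.1 P.1 R.1 := Finset.prod_nonneg fun P _ => hd0 _ _ _
  exact mul_le_mul_of_nonneg_right (mul_le_mul_of_nonneg_right (mul_le_mul_of_nonneg_right
    (mw17psHstarConst_le C₁ C₂ ω m w.1) hS0) hΩ0) hD0

/-- the constant of `mw17ps_hadamard_const`. -/
noncomputable def mw17psHadamardConst (C₁ C₂ : HtConst K) (ω : Fin g → J → K) (m r : ℕ) :
    HtConst K :=
  ((mw17psHstarConst C₁ C₂ ω m).pow r).mul (HtConst.ofNat r.factorial)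

/-- **The refined Hadamard inequality on the curve (8.3), (D2) shape.** -/
theorem mw17ps_hadamard_const (ψ : Pt → J → K) (IsZ : (J → K) → Multiset Pt → Prop)
    (d : AbsoluteValue K ℝ → Pt → Pt → ℝ) (e : AbsoluteValue K ℝ → Pt → ℝ)
    (hd0 : ∀ w P R, 0 ≤ d w P R) (hdc : ∀ w P R, d w P R ≤ htlArch w 2)
    (he0 : ∀ w R, 0 ≤ e w R) (hec : ∀ w R, e w R ≤ htlArch w 2)
    (nrm : AbsoluteValue K ℝ → Pt → ℝ) (hnrm0 : ∀ w R, 0 ≤ nrm w R)
    (m : ℕ) (C₁ : HtConst K)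
    (hoff : ∀ (w : HtAbs K) (u : J → K) (Z : Multiset Pt), u ≠ 0 → IsZ u Z → ∀ R, R ∉ Z →
      w (∑ j, u j * ψ R j) ≤ C₁.val w * (⨆ j, w (u j)) * nrm w R *
        e w R ^ (m - Multiset.card Z) * (Z.map fun P => d w P R).prod)
    (hex : ∀ u, u ≠ 0 → ∃ Z, IsZ u Z)
    (hmem : ∀ u Z, u ≠ 0 → IsZ u Z → ∀ P, P ∈ Z ↔ ∑ j, u j * ψ P j = 0)
    (ω : Fin g → J → K) (F : Multiset Pt) (k₁ : ℕ) (hk₁ : k₁ ≤ m)
    (hF : ∀ (s : Fin g → K) (Z : Multiset Pt), (∑ a, s a • ω a) ≠ 0 → IsZ (∑ a, s a • ω a) Z →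
      F ≤ Z ∧ Multiset.card Z ≤ k₁)
    (C₂ : HtConst K)
    (htup : ∀ (w : HtAbs K) R, R ∉ F →
      nrm w R * e w R ^ (m - k₁) * (F.map fun P => d w P R).prod ≤
        C₂.val w * ⨆ a, w (∑ j, ω a j * ψ R j))
    (w : HtAbs K) (r : ℕ) (Q : Fin r → Pt) (hQ : Function.Injective Q) (hQF : ∀ i, Q i ∉ F)
    (a : Fin r → Fin g) :
    w (Matrix.det (Matrix.of fun i b => ∑ j, ω (a b) j * ψ (Q i) j)) ≤
      (mw17psHadamardConst C₁ C₂ ω m r).val w *
        (∏ i, ⨆ b, w (∑ j, ω b j * ψ (Q i) j)) *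
          ∏ i, ∏ k ∈ Finset.univ.filter (· < i), d w (Q k) (Q i) := by
  set C : HtConst K := mw17psHstarConst C₁ C₂ ω m with hC
  have hQ' : Function.Injective fun i => (⟨Q i, hQF i⟩ : {P : Pt // P ∉ F}) := fun i k hik =>
    hQ (congrArg Subtype.val hik)
  have hstar := fun (s : Fin g → K) (l : Finset {P : Pt // P ∉ F}) (R : {P : Pt // P ∉ F})
      (hR : R ∉ l) (hvan : ∀ P ∈ l, ∑ a, s a * (∑ j, ω a j * ψ P.1 j) = 0) =>
    mw17ps_hstar_const ψ IsZ d e hd0 hdc he0 hec nrm hnrm0 m C₁ hoff hex hmem ω F k₁ hk₁ hF C₂ htup w s l R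
      hR hvan
  have hS0 : 0 ≤ ∏ i, ⨆ b, w.1 (∑ j, ω b j * ψ (Q i) j) :=
    Finset.prod_nonneg fun i _ => Real.iSup_nonneg fun b => w.1.nonneg _
  have hD0 : 0 ≤ ∏ i, ∏ k ∈ Finset.univ.filter (· < i), d w.1 (Q k) (Q i) :=
    Finset.prod_nonneg fun i _ => Finset.prod_nonneg fun k _ => hd0 _ _ _
  have hconst1 : C.val w.1 ^ r ≤ (mw17psHadamardConst C₁ C₂ ω m r).val w.1 := by
    unfold mw17psHadamardConst
    rw [← htl_val_pow_eq]
    exact htl_val_le_mul_left _ _ _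
  by_cases hw : IsNonarchimedean w.1
  · have h := hthd_det_le_nonarch w.1 hw (J := Fin g) (Pt := {P : Pt // P ∉ F})
      (fun P b => ∑ j, ω b j * ψ P.1 j) (fun P R => d w.1 P.1 R.1) (fun P R => hd0 w.1 P.1 R.1)
      (htl_val_nonneg C w.1) hstar r (fun i => ⟨Q i, hQF i⟩) hQ' a
    refine h.trans ?_
    exact mul_le_mul_of_nonneg_right (mul_le_mul_of_nonneg_right hconst1 hS0) hD0
  · have h := hthd_det_le w.1 (J := Fin g) (Pt := {P : Pt // P ∉ F})
      (fun P b => ∑ j, ω b j * ψ P.1 j) (fun P R => d w.1 P.1 R.1) (fun P R => hd0 w.1 P.1 R.1)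
      (htl_val_nonneg C w.1) hstar r (fun i => ⟨Q i, hQF i⟩) hQ' a
    refine h.trans ?_
    refine mul_le_mul_of_nonneg_right (mul_le_mul_of_nonneg_right ?_ hS0) hD0
    unfold mw17psHadamardConst
    refine le_trans ?_ (htl_val_mul_le _ _ _)
    rw [htl_val_pow_eq, htl_val_ofNat, htlArch_of_not_nonarch hw]
    refine mul_le_mul_of_nonneg_left ?_ (pow_nonneg (htl_val_nonneg C w.1) r)
    push_cast
    linarith

end Const

end Fermat.Agent.MW17
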