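import Fermat.Agent.MW17.Spec
import Fermat.Agent.MW17.Pos.HadamardLoc

/-!
# Program MW (S17), heights half (A), §8.3: the local Hadamard inequality on the presented curve

Owner: helper7.  Namespace `Fermat.Agent.MW17`, prefix `mw17ps` / `Mw17Ps`.

Instantiation of `MW17/Pos/HadamardLoc.lean` in the literals of helper16's `MW17/Spec.lean`
(`Mw17StarOff`, `mw17Dl`, `Mw17IsZeros`).  Fixed data: `n`, the top index `t`, `m₁`
(sections in `L_m`, `m = n * m₁`), a tuple `ω : Fin g → (Mw17Idx δ m → K)` of coefficient vectors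
(the transported differentials).

* `Mw17PsBase T m ω F k₁`      : `F ≤ Z(u)` and `|Z(u)| ≤ k₁` for every nonzero combination `u` of `ω`;
* `Mw17PsTupleGe T n t m₁ ω F k₁` : (TUPLE_w, ≥ half) for `ω`, δ-form;
* `Mw17PsTupleLe T n t m₁ ω F k₁` : (TUPLE_w, ≤ half) for `ω`, δ-form;
* `Mw17PsHad T n t m ω F r`    : the local refined Hadamard inequality (8.3) for `r` points off `F`;
* `mw17ps_had_of_star`         : `Mw17StarOff` + `Mw17PsBase` + `Mw17PsTupleGe` ⟹ `Mw17PsHad`.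
-/

set_option autoImplicit false

noncomputable section

namespace Fermat.Agent.MW17

open Finset Fermat.Agent.V Fermat.Agent.HT

variable {K : Type*} [Field K] {δ : V27pShape} (T : V27pTable K δ) {g : ℕ}

/-- **base divisor of the tuple `ω ⊂ L_m`**: every nonzero combination has `F ≤ Z` and at most
`k₁` zeros (`k₁` = the maximal pole order at `P0`). -/
def Mw17PsBase (m : ℕ) (ω : Fin g → Mw17Idx δ m → K) (F : Multiset (Mw17Pt T)) (k₁ : ℕ) : Prop :=
  ∀ (s : Fin g → K) (Z : Multiset (Mw17Pt T)), (∑ a, s a • ω a) ≠ 0 →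
    Mw17IsZeros T (mw17Sec T m (∑ a, s a • ω a)) Z → F ≤ Z ∧ Multiset.card Z ≤ k₁

/-- the δ-side of (TUPLE_w) for a tuple with base divisor `F` and top order `k₁`:
`‖φR‖^{m₁} δ(P0,R)^{n m₁ - k₁} ∏_{P ∈ F} δ(P,R)`. -/
def mw17psTupleRhs (n : ℕ) (t : Mw17Idx δ n) (m₁ : ℕ) (F : Multiset (Mw17Pt T)) (k₁ : ℕ)
    (w : AbsoluteValue K ℝ) (R : Mw17Pt T) : ℝ :=
  htlSup w (mw17Psi T n R) ^ m₁ * mw17Dl T n t w none (some R) ^ (n * m₁ - k₁) *
    (F.map fun P : Mw17Pt T => mw17Dl T n t w (some P) (some R)).prod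

/-- **(TUPLE_w, ≥ half)** for `ω`, δ-form, at the points off `F`. -/
def Mw17PsTupleGe (n : ℕ) (t : Mw17Idx δ n) (m₁ : ℕ) (ω : Fin g → Mw17Idx δ (n * m₁) → K)
    (F : Multiset (Mw17Pt T)) (k₁ : ℕ) : Prop :=
  ∃ C : HtConst K, ∀ (w : HtAbs K) (R : Mw17Pt T), R ∉ F →
    mw17psTupleRhs T n t m₁ F k₁ w.1 R ≤
      C.val w.1 * htlSup w.1 (fun a => R (mw17Sec T (n * m₁) (ω a)))

/-- **(TUPLE_w, ≤ half)** for `ω`, δ-form, at all points. -/
def Mw17PsTupleLe (n : ℕ) (t : Mw17Idx δ n) (m₁ : ℕ) (ω : Fin g → Mw17Idx δ (n * m₁) → K)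
    (F : Multiset (Mw17Pt T)) (k₁ : ℕ) : Prop :=
  ∃ C : HtConst K, ∀ (w : HtAbs K) (R : Mw17Pt T),
    htlSup w.1 (fun a => R (mw17Sec T (n * m₁) (ω a))) ≤
      C.val w.1 * mw17psTupleRhs T n t m₁ F k₁ w.1 R

/-- **the local refined Hadamard inequality (8.3)** for `r` points off `F`. -/
def Mw17PsHad (n : ℕ) (t : Mw17Idx δ n) (m : ℕ) (ω : Fin g → Mw17Idx δ m → K)
    (F : Multiset (Mw17Pt T)) (r : ℕ) : Prop :=
  ∃ C : HtConst K, ∀ (w : HtAbs K) (Q : Fin r → Mw17Pt T), Function.Injective Q →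
    (∀ i, Q i ∉ F) → ∀ a : Fin r → Fin g,
      w.1 (Matrix.det (Matrix.of fun i b => Q i (mw17Sec T m (ω (a b))))) ≤
        C.val w.1 * (∏ i, htlSup w.1 (fun b => Q i (mw17Sec T m (ω b)))) *
          ∏ i, ∏ k ∈ Finset.univ.filter (· < i), mw17Dl T n t w.1 (some (Q k)) (some (Q i))

theorem mw17Dl_nonneg (n : ℕ) (t : Mw17Idx δ n) (w : AbsoluteValue K ℝ)
    (P R : Option (Mw17Pt T)) : 0 ≤ mw17Dl T n t w P R :=
  htlDist_nonneg _ _ _

theorem mw17Dl_le (n : ℕ) (t : Mw17Idx δ n) (w : AbsoluteValue K ℝ)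
    (P R : Option (Mw17Pt T)) : mw17Dl T n t w P R ≤ htlArch w 2 :=
  htlDist_le _ _ _

/-- **(8.3) on the presented curve**: (★-off, ≤ half) + base divisor + (TUPLE_w, ≥ half) give the
local refined Hadamard inequality.  `hex`, `hmem` are helper4's `mw17in_exists_zeros`,
`Mw17IsZeros.mem_iff` (through `mw17in_sec_eq_zero_iff`). -/
theorem mw17ps_had_of_star (n : ℕ) (t : Mw17Idx δ n) (m₁ : ℕ)
    (hex : ∀ u : Mw17Idx δ (n * m₁) → K, u ≠ 0 →
      ∃ Z : Multiset (Mw17Pt T), Mw17IsZeros T (mw17Sec T (n * m₁) u) Z)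
    (hmem : ∀ (u : Mw17Idx δ (n * m₁) → K) (Z : Multiset (Mw17Pt T)), u ≠ 0 →
      Mw17IsZeros T (mw17Sec T (n * m₁) u) Z → ∀ q : Mw17Pt T,
        q ∈ Z ↔ q (mw17Sec T (n * m₁) u) = 0)
    (hoff : Mw17StarOff T n t m₁)
    (ω : Fin g → Mw17Idx δ (n * m₁) → K) (F : Multiset (Mw17Pt T)) (k₁ : ℕ)
    (hk₁ : k₁ ≤ n * m₁) (hF : Mw17PsBase T (n * m₁) ω F k₁)
    (htup : Mw17PsTupleGe T n t m₁ ω F k₁) (r : ℕ) :
    Mw17PsHad T n t (n * m₁) ω F r := by
  obtain ⟨C₁, hC₁⟩ := hoff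
  obtain ⟨C₂, hC₂⟩ := htup
  refine ⟨mw17psHadamardConst C₁ C₂ ω (n * m₁) r, fun w Q hQ hQF a => ?_⟩
  have hev : ∀ (u : Mw17Idx δ (n * m₁) → K) (R : Mw17Pt T),
      ∑ j, u j * mw17Psi T (n * m₁) R j = R (mw17Sec T (n * m₁) u) := fun u R =>
    (mw17Sec_apply T (n * m₁) u R).symm
  have h := mw17ps_hadamard_const (K := K) (J := Mw17Idx δ (n * m₁)) (Pt := Mw17Pt T) (g := g)
    (mw17Psi T (n * m₁)) (fun u Z => Mw17IsZeros T (mw17Sec T (n * m₁) u) Z)
    (fun w P R => mw17Dl T n t w (some P) (some R))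
    (fun w R => mw17Dl T n t w none (some R))
    (fun w P R => mw17Dl_nonneg T n t w _ _) (fun w P R => mw17Dl_le T n t w _ _)
    (fun w R => mw17Dl_nonneg T n t w _ _) (fun w R => mw17Dl_le T n t w _ _)
    (fun w R => htlSup w (mw17Psi T n R) ^ m₁)
    (fun w R => pow_nonneg (htlSup_nonneg _ _) _)
    (n * m₁) C₁
    (fun w u Z hu hZ R _ => by
      have := (hC₁ w u hu Z hZ R).1
      rw [hev]
      unfold mw17StarRhs at this
      calc w.1 (R (mw17Sec T (n * m₁) u))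
          ≤ C₁.val w.1 * (htlSup w.1 u * htlSup w.1 (mw17Psi T n R) ^ m₁ *
              mw17Dl T n t w.1 none (some R) ^ (n * m₁ - Multiset.card Z) *
              (Z.map fun P : Mw17Pt T => mw17Dl T n t w.1 (some P) (some R)).prod) := this
        _ = _ := by
            rw [htlSup_def]
            ring)
    hex
    (fun u Z hu hZ P => by
      rw [hev]
      exact hmem u Z hu hZ P)
    ω F k₁ hk₁ hF C₂
    (fun w R hR => by
      have := hC₂ w R hR
      unfold mw17psTupleRhs at this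
      simp only [hev]
      exact this)
    w r Q hQ hQF a
  simp only [hev] at h
  exact h

end Fermat.Agent.MW17
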