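import Mathlib
import Fermat.Agent.MW17.Pair.Main
import Fermat.Agent.MW17.InstZeros

/-!
# Program MW (S17), heights half (A), §8.4(b): existence and dictionary for Mumford's formula

Owner: helper29.  Namespace `Fermat.Agent.MW17`, prefix `mw17mx`.

On a one-point presentation `P : V27Presented K F T` with the Riemann–Roch package `R`:

* `mw17mx_count`      : multiplicities of a zero multiset are orders at the places of the points;
* `mw17mx_cl_zeros`   : the class of the zero multiset of a non-zero `b` vanishes;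
* `mw17mx_exists`     : for an injective tuple `Q` and `3 g ≤ m` a `b` of exact order `m` with
  SIMPLE zeros at the `Q i` and no zero on a prescribed finite set of other points;
* `mw17mx_exists_zeros` : the same with the zero multiset `Z = Q + D̄`, `D̄` off `Q`;
* `mw17mx_cl_tup`     : `cl (ΣQ − g·P0) = − cl (ι D̄)`, and the `W`-form `mw17mx_cl_W`.
-/

set_option autoImplicit false
set_option linter.unusedSectionVars false
set_option linter.style.haveILetI false

noncomputable section

namespace Fermat.Agent.MW17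

open AlgebraicCurve Fermat.Agent.V Fermat.Agent.V.RR Fermat.Agent.V.Dict

variable {K F : Type*} [Field K] [Field F] [Algebra K F] {δ : V27pShape} {T : V27pTable K δ}
  [IsDedekindDomain (V27pB T)] (P : V27Presented K F T) [IsAlgClosed K]

open Classical in
/-- multiplicities in a zero multiset are the orders at the places of the points. -/
theorem mw17mx_count {b : V27pB T} (hb : b ≠ 0) {Z : Multiset (Mw17Pt T)}
    (hZ : Mw17IsZeros T b Z) (q : Mw17Pt T) :
    (Z.count q : ℤ) = (v27spPlace P q).ord (P.ψ b) := by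
  letI := v27spAlg P
  haveI := v27sp_isScalarTower P
  haveI := v27sp_isFractionRing P
  exact hZ.count_eq_ord T F hb q

/-- **the class of a zero multiset vanishes.** -/
theorem mw17mx_cl_zeros {b : V27pB T} (hb : b ≠ 0) {Z : Multiset (Mw17Pt T)}
    (hZ : Mw17IsZeros T b Z) : mw17prCl P (mw17paIota (mw17muDiv Z)) = 0 :=
  mw17pr_cl_zeros P hb Z hZ.1 (mw17mx_count P hb hZ)

/-! ### existence of the section -/

/-- **existence**: for an injective tuple `Q` and `3 g ≤ m` there is `b ∈ L_m` of exact order `m`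
with simple zeros at the `Q i` and no zero at the points of `S` other than the `Q i`. -/
theorem mw17mx_exists {g : ℕ} (R : V27RR K F g) (Q : Fin g → Mw17Pt T)
    (hQ : Function.Injective Q) {m : ℕ} (hm : 3 * g ≤ m) (S : Finset (Mw17Pt T)) :
    ∃ b : V27pB T, b ≠ 0 ∧ v27pOrd b = m ∧ (∀ i, (v27spPlace P (Q i)).ord (P.ψ b) = 1) ∧
      ∀ q ∈ S, (∀ i, q ≠ Q i) → q b ≠ 0 := by
  classical
  haveI : Infinite K := IsAlgClosed.instInfinite
  set pl : Fin g → Place K F := fun i => v27spPlace P (Q i) with hpl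
  set D : Divisor K F := (m : ℤ) • (Finsupp.single P.P0 1 : Divisor K F) - v27dcSum pl with hD
  have hdegD : Divisor.degree D = (m : ℤ) - g := by
    rw [hD, map_sub, map_zsmul, Divisor.degree_single, P.hdeg,
      v27dc_degree_sum (mw17pr_deg_eq_one P)]
    simp
  have hDP0 : D P.P0 = m := by
    rw [hD, Finsupp.sub_apply, Finsupp.smul_apply, Finsupp.single_eq_same,
      v27dcSum_eq_zero_of_forall_ne pl P.P0 fun i => v27spPlace_ne P (Q i)]
    simp
  have hDQ : ∀ i, D (pl i) = -1 := fun i => by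
    rw [hD, Finsupp.sub_apply, Finsupp.smul_apply,
      Finsupp.single_eq_of_ne (v27spPlace_ne P (Q i)), v27dcSum_apply]
    have : (Finset.univ.filter fun j => pl j = pl i) = {i} := by
      ext j
      simp only [Finset.mem_filter, Finset.mem_univ, true_and, Finset.mem_singleton]
      exact ⟨fun h => hQ (v27spPlace_injective P h), fun h => by rw [h]⟩
    rw [this]
    simp
  have hDq : ∀ q : Mw17Pt T, (∀ i, q ≠ Q i) → D (v27spPlace P q) = 0 := fun q hq => by
    rw [hD, Finsupp.sub_apply, Finsupp.smul_apply,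
      Finsupp.single_eq_of_ne (v27spPlace_ne P q),
      v27dcSum_eq_zero_of_forall_ne pl _ fun i h => hq i (v27spPlace_injective P h).symm]
    simp
  set Sig : Finset (Place K F) :=
    insert P.P0 (Finset.univ.image pl ∪ S.image (v27spPlace P)) with hSig
  obtain ⟨f, hf0, hfD, hford⟩ := mw17mv_exists_section R D (by rw [hdegD]; omega) Sig
    (fun v _ => mw17pr_deg_eq_one P v)
  -- `f ∈ L(m P0)`
  have hfL : f ∈ riemannRochSpace (Finsupp.single P.P0 (m : ℤ)) := by
    rw [mem_riemannRochSpace_iff] at hfD ⊢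
    intro v
    right
    have h1 := (hfD v).resolve_left hf0
    have h2 : D v ≤ (Finsupp.single P.P0 (m : ℤ) : Divisor K F) v := by
      rw [hD, Finsupp.sub_apply, Finsupp.smul_apply]
      have h3 := v27dcSum_nonneg pl v
      by_cases hv : v = P.P0
      · subst hv
        rw [Finsupp.single_eq_same, Finsupp.single_eq_same]
        simp only [smul_eq_mul, mul_one]
        omega
      · rw [Finsupp.single_eq_of_ne hv, Finsupp.single_eq_of_ne hv]
        simp only [smul_zero]
        omega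
    omega
  obtain ⟨b, -, hbf⟩ := P.exists_of_mem_L hfL
  have hb : b ≠ 0 := by
    rintro rfl
    rw [map_zero] at hbf
    exact hf0 hbf.symm
  refine ⟨b, hb, ?_, fun i => ?_, fun q hqS hq => ?_⟩
  · have h1 := hford P.P0 (Finset.mem_insert_self _ _)
    rw [← hbf, mw17pr_ord_P0 P hb, hDP0] at h1
    omega
  · have h1 := hford (pl i) (Finset.mem_insert_of_mem (Finset.mem_union_left _
      (Finset.mem_image_of_mem pl (Finset.mem_univ i))))
    rw [hbf, h1, hDQ i]
    simp
  · have h1 := hford (v27spPlace P q) (Finset.mem_insert_of_mem (Finset.mem_union_right _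
      (Finset.mem_image_of_mem _ hqS)))
    rw [← hbf, hDq q hq] at h1
    intro h0
    have := (v27sp_ord_pos_iff P q hb).mpr h0
    omega

include P in
/-- every `k ≥ 2 g` is the exact pole order of some `b`. -/
theorem mw17mx_exists_ord {g : ℕ} (R : V27RR K F g) {k : ℕ} (hk : 2 * g ≤ k) :
    ∃ b : V27pB T, b ≠ 0 ∧ v27pOrd b = k := by
  classical
  haveI : Infinite K := IsAlgClosed.instInfinite
  obtain ⟨f, hf0, hfD, hford⟩ := mw17mv_exists_section R
    ((k : ℤ) • (Finsupp.single P.P0 1 : Divisor K F))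
    (by rw [map_zsmul, Divisor.degree_single, P.hdeg]; simp only [Nat.cast_one, mul_one,
      smul_eq_mul]; omega) {P.P0}
    (fun v _ => mw17pr_deg_eq_one P v)
  have hfL : f ∈ riemannRochSpace (Finsupp.single P.P0 (k : ℤ)) := by
    rwa [← Finsupp.smul_single_one]
  obtain ⟨b, -, hbf⟩ := P.exists_of_mem_L hfL
  have hb : b ≠ 0 := by
    rintro rfl
    rw [map_zero] at hbf
    exact hf0 hbf.symm
  refine ⟨b, hb, ?_⟩
  have h1 := hford P.P0 (Finset.mem_singleton_self _)
  rw [← hbf, mw17pr_ord_P0 P hb, Finsupp.smul_apply, Finsupp.single_eq_same] at h1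
  simp only [smul_eq_mul, mul_one] at h1
  omega

/-- the tuple as a multiset with one point split off. -/
theorem mw17mx_cons {Pt : Type*} {g : ℕ} (Q : Fin g → Pt) (hQ : Function.Injective Q)
    (Dbar : Multiset Pt) (hD : ∀ i, Q i ∉ Dbar) (b : Fin g) :
    ∃ Z' : Multiset Pt, (Finset.univ : Finset (Fin g)).val.map Q + Dbar = Q b ::ₘ Z' ∧
      Q b ∉ Z' := by
  classical
  refine ⟨(Finset.univ.erase b).val.map Q + Dbar, ?_, ?_⟩
  · have h : (Finset.univ : Finset (Fin g)).val = b ::ₘ (Finset.univ.erase b).val := by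
      rw [Finset.erase_val, Multiset.cons_erase (Finset.mem_univ b)]
    rw [h, Multiset.map_cons, Multiset.cons_add]
  · rw [Multiset.mem_add, not_or]
    refine ⟨fun h => ?_, hD b⟩
    obtain ⟨c, hc, hcb⟩ := Multiset.mem_map.mp h
    have hcb' : c = b := hQ hcb
    subst hcb'
    exact (Finset.notMem_erase c Finset.univ) hc

include P in
/-- **existence, zero multiset form**: a coefficient vector `u ≠ 0` at level `m` whose section has
exact order `m` and zero multiset `Q + D̄` with `D̄` off `Q` and off `S`. -/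
theorem mw17mx_exists_zeros {g : ℕ} (R : V27RR K F g) (Q : Fin g → Mw17Pt T)
    (hQ : Function.Injective Q) {m : ℕ} (hm : 3 * g ≤ m) (S : Finset (Mw17Pt T)) :
    ∃ (u : Mw17Idx δ m → K) (Dbar : Multiset (Mw17Pt T)), u ≠ 0 ∧ mw17Sec T m u ≠ 0 ∧
      v27pOrd (mw17Sec T m u) = m ∧
      Mw17IsZeros T (mw17Sec T m u) ((Finset.univ : Finset (Fin g)).val.map Q + Dbar) ∧
      (∀ i, Q i ∉ Dbar) ∧ Dbar.card + g = m ∧ ∀ q ∈ S, q ∉ Dbar := by
  classical
  obtain ⟨b, hb, hord, hsimple, hS⟩ := mw17mx_exists P R Q hQ hm S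
  have hle : V27pLe b m := (v27pOrd_le_iff b m).mp hord.le
  obtain ⟨u, rfl⟩ := mw17in_exists_sec T hle
  have hu : u ≠ 0 := by
    rintro rfl
    exact hb ((mw17in_sec_eq_zero_iff T m 0).mpr rfl)
  set Z := mw17inZeros T (mw17Sec T m u) with hZdef
  have hZ : Mw17IsZeros T (mw17Sec T m u) Z := mw17in_isZeros T hb
  have hcount : ∀ i, Z.count (Q i) = 1 := fun i => by
    have h1 := mw17mx_count P hb hZ (Q i)
    rw [hsimple i] at h1
    have h2 : Multiset.count (Q i) Z = 1 := by
      have : ((Multiset.count (Q i) Z : ℕ) : ℤ) = 1 := by convert h1 using 2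
      exact_mod_cast this
    exact h2
  set D : Multiset (Mw17Pt T) := (Finset.univ : Finset (Fin g)).val.map Q with hD
  have hDnodup : D.Nodup := (Multiset.nodup_map_iff_of_injective hQ).mpr Finset.univ.nodup
  have hmemD : ∀ q, q ∈ D ↔ ∃ i, Q i = q := fun q => by
    rw [hD, Multiset.mem_map]
    exact ⟨fun ⟨i, _, hi⟩ => ⟨i, hi⟩, fun ⟨i, hi⟩ => ⟨i, Finset.mem_univ_val i, hi⟩⟩
  have hDle : D ≤ Z := by
    rw [Multiset.le_iff_count]
    intro q
    by_cases hq : q ∈ D
    · obtain ⟨i, rfl⟩ := (hmemD q).mp hq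
      rw [hcount i, Multiset.count_eq_one_of_mem hDnodup hq]
    · rw [Multiset.count_eq_zero_of_notMem hq]
      exact Nat.zero_le _
  have hZeq : Z = D + (Z - D) := (add_tsub_cancel_of_le hDle).symm
  have hcardD : D.card = g := by
    rw [hD, Multiset.card_map]
    simp
  refine ⟨u, Z - D, hu, hb, hord, ?_, fun i hmem => ?_, ?_, fun q hqS hmem => ?_⟩
  · rw [← hZeq]
    exact hZ
  · have h1 : Z.count (Q i) = D.count (Q i) + (Z - D).count (Q i) := by
      conv_lhs => rw [hZeq, Multiset.count_add]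
    rw [hcount i, Multiset.count_eq_one_of_mem hDnodup ((hmemD _).mpr ⟨i, rfl⟩)] at h1
    have h2 := Multiset.count_pos.mpr hmem
    omega
  · have h1 : Z.card = D.card + (Z - D).card := by
      conv_lhs => rw [hZeq, Multiset.card_add]
    rw [hZ.1, hord, hcardD] at h1
    omega
  · by_cases hq : ∃ i, q = Q i
    · obtain ⟨i, rfl⟩ := hq
      have h1 : Z.count (Q i) = D.count (Q i) + (Z - D).count (Q i) := by
        conv_lhs => rw [hZeq, Multiset.count_add]
      rw [hcount i, Multiset.count_eq_one_of_mem hDnodup ((hmemD _).mpr ⟨i, rfl⟩)] at h1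
      have h2 := Multiset.count_pos.mpr hmem
      omega
    · push Not at hq
      have h1 : q ∈ Z := Multiset.mem_of_le (Multiset.sub_le_self Z D) hmem
      exact hS q hqS hq ((hZ.mem_iff T hb q).mp h1)

/-! ### the class identities -/

/-- `cl (ΣQ − g·P0) = − cl (ι D̄)` when `Q + D̄` is a zero multiset. -/
theorem mw17mx_cl_tup {g : ℕ} (Q : Fin g → Mw17Pt T) {b : V27pB T} (hb : b ≠ 0)
    {Dbar : Multiset (Mw17Pt T)}
    (hZ : Mw17IsZeros T b ((Finset.univ : Finset (Fin g)).val.map Q + Dbar)) :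
    mw17prCl P (mw17muTup Q) = - mw17prCl P (mw17paIota (mw17muDiv Dbar)) := by
  have h1 := mw17mx_cl_zeros P hb hZ
  rw [mw17muDiv_add, map_add, map_add] at h1
  have h2 : mw17prCl P (Finsupp.single none (g : ℤ)) = 0 := by
    have : (Finsupp.single none (g : ℤ) : Option (Mw17Pt T) →₀ ℤ) =
        (g : ℤ) • Finsupp.single none 1 := by
      rw [Finsupp.smul_single, smul_eq_mul, mul_one]
    rw [this, map_zsmul, mw17prCl_none, smul_zero]
  rw [mw17muTup_eq, map_sub, h2, sub_zero]
  exact eq_neg_of_add_eq_zero_left h1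

/-- the `W`-form: `cl (ι (V₁ − V₂ − D̄)) = cl (ΣQ − g·P0)` for zero multisets `V₁, V₂`. -/
theorem mw17mx_cl_W {g : ℕ} (Q : Fin g → Mw17Pt T) {b b₁ b₂ : V27pB T} (hb : b ≠ 0)
    (hb₁ : b₁ ≠ 0) (hb₂ : b₂ ≠ 0) {Dbar V₁ V₂ : Multiset (Mw17Pt T)}
    (hZ : Mw17IsZeros T b ((Finset.univ : Finset (Fin g)).val.map Q + Dbar))
    (hV₁ : Mw17IsZeros T b₁ V₁) (hV₂ : Mw17IsZeros T b₂ V₂) :
    mw17prCl P (mw17paIota (mw17muDiv V₁ - mw17muDiv V₂ - mw17muDiv Dbar)) =
      mw17prCl P (mw17muTup Q) := by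
  rw [map_sub, map_sub, map_sub, map_sub, mw17mx_cl_zeros P hb₁ hV₁, mw17mx_cl_zeros P hb₂ hV₂,
    mw17mx_cl_tup P Q hb hZ]
  simp

end Fermat.Agent.MW17
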