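import Mathlib
import Fermat.Agent.MW17.Pos.MumfordEx
import Fermat.Agent.MW17.Glob.Defs

/-!
# Program MW (S17), heights half (A), §8.4(b): Mumford's formula on the presented curve

Owner: helper29.  Namespace `Fermat.Agent.MW17`, prefix `mw17mg`.

`mw17mg_main` : the abstract bookkeeping `mw17mu_main` (`Pos/Mumford.lean`) instantiated with the
global quantities `mw17gB`, `mw17gBt`, `mw17gH0` of `MW17/Glob/Defs.lean`, the global statements
(GS-off), (GS-tan), (GS-M), (GS-P0), the class map `mw17prCl P`, and the existence/dictionary of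
`Pos/MumfordEx.lean`.  Output: Mumford's formula (two-sided) for `h (cl (ΣQ − g·P0))` on injective
tuples of points off a finite set `S` and off `Ram(x)`; `mw17mg_hmum` is the lower bound in the
literal `hmum` of `MW17/Pos/Asm.lean`.
-/

set_option autoImplicit false
set_option linter.unusedSectionVars false
set_option linter.style.haveILetI false

noncomputable section

namespace Fermat.Agent.MW17

open AlgebraicCurve Fermat.Agent.V Fermat.Agent.V.RR Fermat.Agent.HT

variable {F : Type*} [Field F] [Algebra HtgQb F] {δ : V27pShape} {T : V27pTable HtgQb δ}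
  [IsDedekindDomain (V27pB T)] (P : V27Presented HtgQb F T)

theorem mw17mg_sum_div {α : Type*} (Z : Multiset α) (f : α → ℝ) (c : ℝ) :
    (Z.map fun a => f a / c).sum = (Z.map f).sum / c := by
  induction Z using Multiset.induction_on with
  | empty => simp
  | cons a Z ih => rw [Multiset.map_cons, Multiset.sum_cons, ih, Multiset.map_cons,
      Multiset.sum_cons, add_div]

/-- **Mumford's formula on the presented curve** (two-sided). -/
theorem mw17mg_main {g : ℕ} (R : V27RR HtgQb F g) (n : ℕ) (hn : 1 ≤ n) (t : Mw17Idx δ n)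
    (m₁ : ℕ) (hm : 3 * g ≤ n * m₁)
    (hoff : Mw17StarOffGlob T n t m₁) (htan : Mw17StarTanGlob T n t m₁)
    (hM : Mw17MGlob T n m₁) (hP0 : Mw17P0Glob T n t)
    (h : Pic0 HtgQb F → ℝ)
    (hE : ∀ s : ℕ, ∃ C : ℝ, ∀ (A : Option (Mw17Pt T) →₀ ℤ) (W : Mw17Pt T →₀ ℤ),
      mw17paDeg A = 0 → mw17paDeg W = 0 → mw17paSize A ≤ s → mw17paSize W ≤ s →
      Mw17paOff A W → mw17prCl P (mw17paIota W) = mw17prCl P A →
      |mw17paB (fun o r => mw17gB T n t o (some r)) A W - h (mw17prCl P A)| ≤ C) :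
    ∃ (S : Finset (Mw17Pt T)) (C₁ : ℝ), ∀ Q : Fin g → Mw17Pt T, Function.Injective Q →
      (∀ i, Q i ∉ S) → (∀ i, Q i ∉ mw17jtRamX T) →
      |h (mw17prCl P (mw17muTup Q)) -
        (2 * mw17psPairs (fun p r => mw17gB T n t (some p) (some r)) Q +
          ∑ b, (mw17gBt T n (Q b) + 2 * (g : ℝ) * mw17gH0 T n t (some (Q b))))| ≤ C₁ := by
  classical
  have hn0 : n ≠ 0 := by omega
  have hnR : (n : ℝ) ≠ 0 := Nat.cast_ne_zero.mpr hn0
  have hnpos : (0 : ℝ) < n := Nat.cast_pos.mpr (by omega)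
  set m := n * m₁ with hmdef
  have hgm : g ≤ m := by omega
  -- the fixed section `v₁` of exact order `m - g`
  obtain ⟨b₁, hb₁, hord₁⟩ := mw17mx_exists_ord P R (k := m - g) (by omega)
  have hle₁ : V27pLe b₁ m := (v27pOrd_le_iff b₁ m).mp (by omega)
  obtain ⟨u₁, hu₁⟩ := mw17in_exists_sec T hle₁
  have hu₁0 : u₁ ≠ 0 := by
    rintro rfl
    exact hb₁ (hu₁ ▸ (mw17in_sec_eq_zero_iff T m 0).mpr rfl)
  set V₁ := mw17inZeros T b₁ with hV₁def
  have hV₁ : Mw17IsZeros T b₁ V₁ := mw17in_isZeros T hb₁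
  have hV₁card : V₁.card = m - g := hV₁.1.trans hord₁
  obtain ⟨Coff, hCoff⟩ := hoff
  obtain ⟨Ctan, hCtan⟩ := htan
  obtain ⟨CM, hCM⟩ := hM
  obtain ⟨CP, hCP⟩ := hP0
  have hht : ∀ r : Mw17Pt T, htgHt (mw17Psi T n r) = n * mw17gH0 T n t (some r) := fun r => by
    rw [mw17gH0_some]
    field_simp
  -- the relation `Zr`
  let Zr : Multiset (Mw17Pt T) → ℝ → Prop := fun Z tt =>
    ∃ u : Mw17Idx δ m → HtgQb, u ≠ 0 ∧ mw17Sec T m u ≠ 0 ∧
      Mw17IsZeros T (mw17Sec T m u) Z ∧ Z.card = m ∧ tt = htgHt u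
  obtain ⟨C₁, hC₁⟩ := mw17mu_main (X := Pic0 HtgQb F) (g := g) (m := m) (k₁ := m - g) (k₂ := 0)
    hgm (by omega) (fun o r => mw17gB T n t o (some r))
    (fun p r => mw17gB_symm T n t (some p) (some r))
    (fun r => mw17gH0 T n t (some r)) (mw17gBt T n) h (mw17prCl P) hE (mw17prCl_none P)
    V₁ 0 hV₁card rfl (mw17mx_cl_zeros P hb₁ hV₁) (by simp)
    (fun r => r ∉ V₁ ∧ r ∉ mw17jtRamX T) (fun r hr => ⟨hr.1, Multiset.notMem_zero r⟩)
    (by
      refine ⟨Coff + g * CP + |htgHt u₁|, fun r hr => ?_⟩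
      have hr1 : r (mw17Sec T m u₁) ≠ 0 := by
        rw [hu₁]
        exact fun h0 => hr.1 ((hV₁.mem_iff T hb₁ r).mpr h0)
      have h1 := hCoff u₁ hu₁0 V₁ (hu₁ ▸ hV₁) r hr1
      have h2 := hCP r
      have hcast : ((m - V₁.card : ℕ) : ℝ) = g := by
        rw [hV₁card]
        congr 1
        omega
      have hcast' : (((m - g : ℕ) : ℝ)) = (m : ℝ) - g := by
        rw [Nat.cast_sub hgm]
      have hmR : (m : ℝ) = n * m₁ := by rw [hmdef]; push_cast; ring
      rw [hcast, hht r] at h1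
      have hsymm : (V₁.map fun p => mw17gB T n t (some r) (some p)) =
          (V₁.map fun p => mw17gB T n t (some p) (some r)) :=
        Multiset.map_congr rfl fun p _ => mw17gB_symm T n t _ _
      simp only [Multiset.map_zero, Multiset.sum_zero, sub_zero, Nat.cast_zero]
      rw [hsymm, hcast']
      have e : (V₁.map fun p => mw17gB T n t (some p) (some r)).sum +
          ((m : ℝ) - g) * mw17gH0 T n t (some r) =
          ((V₁.map fun p => mw17gB T n t (some p) (some r)).sum +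
            (g : ℝ) * mw17gB T n t none (some r) + htgHt u₁ +
            m₁ * (n * mw17gH0 T n t (some r))) -
          g * (mw17gB T n t none (some r) + mw17gH0 T n t (some r)) - htgHt u₁ := by
        rw [hmR]; ring
      rw [e]
      have h3 : |(g : ℝ) * (mw17gB T n t none (some r) + mw17gH0 T n t (some r))| ≤ g * CP := by
        rw [abs_mul, abs_of_nonneg (Nat.cast_nonneg g)]
        exact mul_le_mul_of_nonneg_left h2 (Nat.cast_nonneg g)
      have h4 := abs_sub (((V₁.map fun p => mw17gB T n t (some p) (some r)).sum +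
            (g : ℝ) * mw17gB T n t none (some r) + htgHt u₁ +
            m₁ * (n * mw17gH0 T n t (some r))) -
          g * (mw17gB T n t none (some r) + mw17gH0 T n t (some r))) (htgHt u₁)
      have h5 := abs_sub ((V₁.map fun p => mw17gB T n t (some p) (some r)).sum +
            (g : ℝ) * mw17gB T n t none (some r) + htgHt u₁ +
            m₁ * (n * mw17gH0 T n t (some r)))
          (g * (mw17gB T n t none (some r) + mw17gH0 T n t (some r)))
      linarith)
    ⟨CP, hCP⟩ Zr (fun Z tt hZ => by obtain ⟨u, -, -, -, hc, -⟩ := hZ; exact hc)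
    (fun Z tt hZ => by
      obtain ⟨u, -, hb, hz, -, -⟩ := hZ
      exact mw17mx_cl_zeros P hb hz)
    (by
      refine ⟨Ctan, fun r Z' tt hZ hrZ' hr => ?_⟩
      obtain ⟨u, hu, hb, hz, hc, rfl⟩ := hZ
      have h1 := hCtan u hu r Z' hz hrZ' hr.2
      have hcast : ((m - (Z'.card + 1) : ℕ) : ℝ) = 0 := by
        rw [Multiset.card_cons] at hc
        rw [hc]
        simp
      have hmR : (m : ℝ) = n * m₁ := by rw [hmdef]; push_cast; ring
      rw [hcast, zero_mul, add_zero, hht r] at h1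
      have e : (Z'.map fun p => mw17gB T n t (some p) (some r)).sum + mw17gBt T n r + htgHt u +
          (m : ℝ) * mw17gH0 T n t (some r) =
          (Z'.map fun p => mw17gB T n t (some p) (some r)).sum + mw17gBt T n r + htgHt u +
          m₁ * (n * mw17gH0 T n t (some r)) := by
        rw [hmR]; ring
      rw [e]
      exact h1)
    (by
      refine ⟨CM / n, fun Z tt hZ => ?_⟩
      obtain ⟨u, hu, hb, hz, hc, rfl⟩ := hZ
      have h1 := hCM u hu Z hz
      have e : (Z.map fun r => mw17gH0 T n t (some r)).sum - htgHt u =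
          -((n : ℝ) * htgHt u - (Z.map fun p => htgHt (mw17Psi T n p)).sum) / n := by
        have : (Z.map fun r => mw17gH0 T n t (some r)) =
            (Z.map fun r => htgHt (mw17Psi T n r) / n) :=
          Multiset.map_congr rfl fun r _ => mw17gH0_some T n t r
        rw [this, mw17mg_sum_div]
        field_simp
        ring
      rw [e, abs_div, abs_neg, abs_of_pos hnpos]
      exact div_le_div_of_nonneg_right h1 hnpos.le)
    (fun Q => Function.Injective Q ∧ (∀ i, Q i ∉ V₁.toFinset) ∧ ∀ i, Q i ∉ mw17jtRamX T)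
    (fun Q hQ => hQ.1)
    (fun Q hQ b => ⟨fun hmem => hQ.2.1 b (Multiset.mem_toFinset.mpr hmem), hQ.2.2 b⟩)
    (fun Q hQ => by
      obtain ⟨u, Dbar, hu, hb, hord, hZ, hD, -, -⟩ := mw17mx_exists_zeros P R Q hQ.1 hm ∅
      refine ⟨Finset.univ.val.map Q + Dbar, htgHt u, ⟨u, hu, hb, hZ, hZ.1.trans hord, rfl⟩,
        fun b => mw17mx_cons Q hQ.1 Dbar hD b⟩)
  exact ⟨V₁.toFinset, C₁, fun Q hQ hS hram => hC₁ Q ⟨hQ, hS, hram⟩⟩

/-- **the literal `hmum` of `MW17/Pos/Asm.lean`** (lower bound), for any `h` with (E). -/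
theorem mw17mg_hmum {g : ℕ} (R : V27RR HtgQb F g) (n : ℕ) (hn : 1 ≤ n) (t : Mw17Idx δ n)
    (m₁ : ℕ) (hm : 3 * g ≤ n * m₁)
    (hoff : Mw17StarOffGlob T n t m₁) (htan : Mw17StarTanGlob T n t m₁)
    (hM : Mw17MGlob T n m₁) (hP0 : Mw17P0Glob T n t)
    (h : Pic0 HtgQb F → ℝ)
    (hE : ∀ s : ℕ, ∃ C : ℝ, ∀ (A : Option (Mw17Pt T) →₀ ℤ) (W : Mw17Pt T →₀ ℤ),
      mw17paDeg A = 0 → mw17paDeg W = 0 → mw17paSize A ≤ s → mw17paSize W ≤ s →
      Mw17paOff A W → mw17prCl P (mw17paIota W) = mw17prCl P A →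
      |mw17paB (fun o r => mw17gB T n t o (some r)) A W - h (mw17prCl P A)| ≤ C) :
    ∃ (S : Finset (Mw17Pt T)) (C₁ : ℝ), ∀ Q : Fin g → Mw17Pt T,
      (Function.Injective Q ∧ (∀ i, Q i ∉ S) ∧ ∀ i, Q i ∉ mw17jtRamX T) →
      2 * mw17psPairs (fun p r => mw17gB T n t (some p) (some r)) Q +
          ∑ b, (mw17gBt T n (Q b) + 2 * (g : ℝ) * mw17gH0 T n t (some (Q b))) - C₁ ≤
        h (mw17prCl P (mw17muTup Q)) := by
  obtain ⟨S, C₁, hC₁⟩ := mw17mg_main P R n hn t m₁ hm hoff htan hM hP0 h hE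
  refine ⟨S, C₁, fun Q hQ => ?_⟩
  have := (abs_le.mp (hC₁ Q hQ.1 hQ.2.1 hQ.2.2)).1
  linarith

/-- the same for the height `H.height` of an abstract pairing package `H` (helper1's `Mw17paHyp`)
for `b := mw17gB … (some ·)`, `cl := mw17prCl P`. -/
theorem mw17mg_hmum_height {g : ℕ} (R : V27RR HtgQb F g) (n : ℕ) (hn : 1 ≤ n) (t : Mw17Idx δ n)
    (m₁ : ℕ) (hm : 3 * g ≤ n * m₁)
    (hoff : Mw17StarOffGlob T n t m₁) (htan : Mw17StarTanGlob T n t m₁)
    (hM : Mw17MGlob T n m₁) (hP0 : Mw17P0Glob T n t)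
    (H : Mw17paHyp (fun (o : Option (Mw17Pt T)) (r : Mw17Pt T) => mw17gB T n t o (some r))
      (mw17prCl P)) :
    ∃ (S : Finset (Mw17Pt T)) (C₁ : ℝ), ∀ Q : Fin g → Mw17Pt T,
      (Function.Injective Q ∧ (∀ i, Q i ∉ S) ∧ ∀ i, Q i ∉ mw17jtRamX T) →
      2 * mw17psPairs (fun p r => mw17gB T n t (some p) (some r)) Q +
          ∑ b, (mw17gBt T n (Q b) + 2 * (g : ℝ) * mw17gH0 T n t (some (Q b))) - C₁ ≤
        H.height (mw17prCl P (mw17muTup Q)) :=
  mw17mg_hmum P R n hn t m₁ hm hoff htan hM hP0 H.height fun s =>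
    ⟨3 * H.cst (max s H.s₀), fun A W hA hW h1 h2 ho hcl => by
      have := H.eval s A W hA hW h1 h2 ho
      rw [hcl] at this
      exact this⟩

/-- the same with the exceptional set as a finite set of PLACES (the `Sig` of the top assembly),
given the finiteness of `Ram(x)`. -/
theorem mw17mg_hmum_sig {g : ℕ} (R : V27RR HtgQb F g) (n : ℕ) (hn : 1 ≤ n) (t : Mw17Idx δ n)
    (m₁ : ℕ) (hm : 3 * g ≤ n * m₁)
    (hoff : Mw17StarOffGlob T n t m₁) (htan : Mw17StarTanGlob T n t m₁)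
    (hM : Mw17MGlob T n m₁) (hP0 : Mw17P0Glob T n t) (hram : (mw17jtRamX T).Finite)
    (h : Pic0 HtgQb F → ℝ)
    (hE : ∀ s : ℕ, ∃ C : ℝ, ∀ (A : Option (Mw17Pt T) →₀ ℤ) (W : Mw17Pt T →₀ ℤ),
      mw17paDeg A = 0 → mw17paDeg W = 0 → mw17paSize A ≤ s → mw17paSize W ≤ s →
      Mw17paOff A W → mw17prCl P (mw17paIota W) = mw17prCl P A →
      |mw17paB (fun o r => mw17gB T n t o (some r)) A W - h (mw17prCl P A)| ≤ C) :
    ∃ (Sig : Finset (Place HtgQb F)) (C₁ : ℝ), ∀ Q : Fin g → Mw17Pt T,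
      (Function.Injective Q ∧ ∀ i, v27spPlace P (Q i) ∉ Sig) →
      2 * mw17psPairs (fun p r => mw17gB T n t (some p) (some r)) Q +
          ∑ b, (mw17gBt T n (Q b) + 2 * (g : ℝ) * mw17gH0 T n t (some (Q b))) - C₁ ≤
        h (mw17prCl P (mw17muTup Q)) := by
  classical
  obtain ⟨S, C₁, hC₁⟩ := mw17mg_hmum P R n hn t m₁ hm hoff htan hM hP0 h hE
  refine ⟨(S ∪ hram.toFinset).image (v27spPlace P), C₁, fun Q hQ => hC₁ Q ⟨hQ.1, fun i hi => ?_,
    fun i hi => ?_⟩⟩
  · exact hQ.2 i (Finset.mem_image_of_mem _ (Finset.mem_union_left _ hi))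
  · exact hQ.2 i (Finset.mem_image_of_mem _
      (Finset.mem_union_right _ (hram.mem_toFinset.mpr hi)))

end Fermat.Agent.MW17
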