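import Mathlib
import Fermat.Agent.MW17.Pos.MumfordGlob
import Fermat.Agent.MW17.Glob.PairInst

/-!
# Program MW (S17), heights half (A): PLUG of (H7) with Mumford's formula

Owner: helper29.  Namespace `Fermat.Agent.MW17`, prefix `mw17mg`.

`mw17mg_plug` : ONE height `h` on `Pic0` with the parallelogram law (H7) AND Mumford's lower bound
`hmum` (8.4)(b) on injective tuples off a finite set of places, from the global statements
(GS-off) (all levels), (GS-tan), (GS-M) (one level `m₁` with `3 g ≤ n m₁`), (GS-P0) and the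
finiteness of `Ram(x)`.
-/

set_option autoImplicit false

noncomputable section

namespace Fermat.Agent.MW17

open AlgebraicCurve Fermat.Agent.V Fermat.Agent.V.RR Fermat.Agent.HT

variable {F : Type*} [Field F] [Algebra HtgQb F] {δ : V27pShape} {T : V27pTable HtgQb δ}
  [IsDedekindDomain (V27pB T)] (P : V27Presented HtgQb F T)

theorem mw17mg_plug {g : ℕ} (R : V27RR HtgQb F g) (n : ℕ) (hn : 1 ≤ n) (t : Mw17Idx δ n)
    (m₁ : ℕ) (hm : 3 * g ≤ n * m₁)
    (hoff : ∀ m : ℕ, Mw17StarOffGlob T n t m) (htan : Mw17StarTanGlob T n t m₁)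
    (hM : Mw17MGlob T n m₁) (hP0 : Mw17P0Glob T n t) (hram : (mw17jtRamX T).Finite) :
    ∃ (h : Pic0 HtgQb F → ℝ) (C : ℝ) (Sig : Finset (Place HtgQb F)) (C₁ : ℝ),
      (∀ x y : Pic0 HtgQb F, |h (x + y) + h (x - y) - 2 * (h x + h y)| ≤ C) ∧
      ∀ Q : Fin g → Mw17Pt T, (Function.Injective Q ∧ ∀ i, v27spPlace P (Q i) ∉ Sig) →
        2 * mw17psPairs (fun p r => mw17gB T n t (some p) (some r)) Q +
            ∑ b, (mw17gBt T n (Q b) + 2 * (g : ℝ) * mw17gH0 T n t (some (Q b))) - C₁ ≤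
          h (mw17prCl P (mw17muTup Q)) := by
  obtain ⟨h, ⟨C, hpar⟩, hE⟩ := mw17g_pair_main P R n hn t hoff
  obtain ⟨Sig, C₁, hmum⟩ :=
    mw17mg_hmum_sig P R n hn t m₁ hm (hoff m₁) htan hM hP0 hram h hE
  exact ⟨h, C, Sig, C₁, hpar, hmum⟩

end Fermat.Agent.MW17
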