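import Mathlib
import Fermat.Agent.MW17.InstZeros
import Fermat.Agent.MW17.Greedy
import Fermat.Agent.V.Sem.PtPlace
import Fermat.Agent.V.Dict.Basic

/-!
# Program MW (S17), §8.2: the canonical tuple in the coordinate ring

Owner: helper27.  Prefix `mw17om`.

`P : V27Presented K F T` a one-point presentation (`B = V27pB T` = functions regular off `P0`),
`B` Dedekind, `K` algebraically closed, `R : V27RR K F g`, `1 ≤ g`, `W` the canonical divisor of
`R.can`.  Choose `f₀ ≠ 0` in `L(m P0 - W)` (`m = 3 g`) and a basis `h_a` of `L(W)`; then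
`f₀ h_a = ψ (b a)` with `b a ∈ B`.  The tuple `b` has
* exact base multiset `Fb = inf_a Z(b a)` (`Z` = zero multisets),
* top order `k₁ = max_a ord (b a)` with `k₁ ≤ |Fb| + (2 g - 2)` (degree of `W`),
* (NONDEG) for `g` distinct points `Q i` off `Fb` with `l(Σ Q i) = 1` the matrix `(Q i (b a))` is
  invertible (`L(W - Σ Q i) = 0`, helper7's `mw17_nonspecial`).
-/

set_option autoImplicit false
set_option linter.unusedSectionVars false
set_option linter.style.haveILetI false

noncomputable section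

namespace Fermat.Agent.MW17

open AlgebraicCurve Module Fermat.Agent.V Fermat.Agent.V.RR Fermat.Agent.V.Dict Fermat.Agent.S24

variable {K F : Type*} [Field K] [Field F] [Algebra K F] {δ : V27pShape} {T : V27pTable K δ}
  [IsDedekindDomain (V27pB T)] [IsAlgClosed K] (P : V27Presented K F T)

/-! ### the dictionary points ↔ places, with multiplicities -/

include P in
/-- all places of a presented curve over an algebraically closed field have degree one. -/
theorem mw17om_deg_one (v : Place K F) : v.deg = 1 := by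
  by_cases hv : v = P.P0
  · rw [hv]; exact P.hdeg
  · obtain ⟨φ, rfl⟩ := v27sp_exists_eq P v hv
    exact v27sp_deg P φ

/-- the multiplicity of a point in the zero cycle of `b` is the order of `ψ b` at its place. -/
theorem mw17om_count_eq_ord [DecidableEq (Mw17Pt T)] {b : V27pB T} (hb : b ≠ 0) (q : Mw17Pt T) :
    ((Multiset.count q (mw17inZeros T b) : ℕ) : ℤ) = (v27spPlace P q).ord (P.ψ b) := by
  letI := v27spAlg P
  haveI := v27sp_isScalarTower P
  haveI := v27sp_isFractionRing P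
  exact mw17in_count_zeros_eq_ord T F hb q

include P in
/-- the degree of a divisor, all places having degree one. -/
theorem mw17om_degree_eq_sum (A : Divisor K F) : Divisor.degree A = ∑ v ∈ A.support, A v := by
  have h : Divisor.degree A = ∑ v ∈ A.support, A v * (v.deg : ℤ) := by
    rw [Divisor.degree, Finsupp.liftAddHom_apply]
    rfl
  rw [h]
  refine Finset.sum_congr rfl fun v _ => ?_
  rw [mw17om_deg_one P v]
  simp

/-- **degree bound**: a divisor which, off `P0`, is bounded by the multiplicities of a multiset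
of points has degree `≤ A(P0) + |Fb|`. -/
theorem mw17om_degree_le [DecidableEq (Mw17Pt T)] (A : Divisor K F) (Fb : Multiset (Mw17Pt T))
    (hA : ∀ q : Mw17Pt T, A (v27spPlace P q) ≤ (Multiset.count q Fb : ℤ)) :
    Divisor.degree A ≤ A P.P0 + (Multiset.card Fb : ℤ) := by
  classical
  rw [mw17om_degree_eq_sum P A,
    ← Finset.sum_filter_add_sum_filter_not A.support (fun v => v = P.P0)]
  have h1 : ∑ v ∈ A.support.filter (fun v => v = P.P0), A v = A P.P0 := by
    rw [Finset.sum_filter, Finset.sum_ite_eq']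
    split_ifs with h
    · rfl
    · exact (Finsupp.notMem_support_iff.mp h).symm
  have hinj : Set.InjOn (v27spPlace P) (v27spPlace P ⁻¹' ↑A.support) :=
    (v27spPlace_injective P).injOn
  have h2 : ∑ v ∈ A.support.filter (fun v => ¬ v = P.P0), A v =
      ∑ q ∈ A.support.preimage (v27spPlace P) hinj, A (v27spPlace P q) := by
    rw [Finset.sum_preimage']
    refine Finset.sum_congr (Finset.filter_congr fun v _ => ?_) fun _ _ => rfl
    constructor
    · intro hv
      obtain ⟨φ, hφ⟩ := v27sp_exists_eq P v hv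
      exact ⟨φ, hφ.symm⟩
    · rintro ⟨φ, rfl⟩
      exact v27spPlace_ne P φ
  rw [h1, h2]
  set S := A.support.preimage (v27spPlace P) hinj
  have h3 : ∑ q ∈ S, A (v27spPlace P q) ≤ ∑ q ∈ S, (Multiset.count q Fb : ℤ) :=
    Finset.sum_le_sum fun q _ => hA q
  have h4 : ∑ q ∈ S, Multiset.count q Fb ≤ Multiset.card Fb := by
    calc ∑ q ∈ S, Multiset.count q Fb ≤ ∑ q ∈ S ∪ Fb.toFinset, Multiset.count q Fb :=
          Finset.sum_le_sum_of_subset Finset.subset_union_left
      _ = Multiset.card Fb :=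
          Multiset.sum_count_eq_card fun a ha =>
            Finset.mem_union_right _ (Multiset.mem_toFinset.mpr ha)
  have h5 : ∑ q ∈ S, (Multiset.count q Fb : ℤ) ≤ (Multiset.card Fb : ℤ) := by
    exact_mod_cast h4
  linarith


/-! ### the twisted canonical tuple -/

/-- `ord_v (f₀ h) ≥ ord_v f₀ - W(v)` for `h ∈ L(W)`. -/
theorem mw17om_ord_mul_ge {W : Divisor K F} {f₀ h : F} (hf₀ : f₀ ≠ 0) (hh0 : h ≠ 0)
    (hh : h ∈ riemannRochSpace W) (v : Place K F) : v.ord f₀ - W v ≤ v.ord (f₀ * h) := by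
  rw [v.ord_mul hf₀ hh0]
  have := ((mem_riemannRochSpace_iff.mp hh) v).resolve_left hh0
  linarith

/-- linear independence passes from `h` to `b` when `ψ (b a) = f₀ h_a`. -/
theorem mw17om_li {g : ℕ} {f₀ : F} (hf₀ : f₀ ≠ 0) {h : Fin g → F} (hli : LinearIndependent K h)
    {b : Fin g → V27pB T} (hb : ∀ a, P.ψ (b a) = f₀ * h a) : LinearIndependent K b := by
  rw [Fintype.linearIndependent_iff] at hli ⊢
  intro s hs
  refine hli s ?_
  have h1 : P.ψ (∑ a, s a • b a) = f₀ * ∑ a, s a • h a := by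
    rw [map_sum, Finset.mul_sum]
    refine Finset.sum_congr rfl fun a _ => ?_
    rw [map_smul, hb a, mul_smul_comm]
  rw [hs, map_zero] at h1
  exact (mul_eq_zero.mp h1.symm).resolve_left hf₀

/-- `ψ` of a combination. -/
theorem mw17om_psi_comb {g : ℕ} {f₀ : F} {h : Fin g → F}
    {b : Fin g → V27pB T} (hb : ∀ a, P.ψ (b a) = f₀ * h a) (s : Fin g → K) :
    P.ψ (∑ a, s a • b a) = f₀ * ∑ a, s a • h a := by
  rw [map_sum, Finset.mul_sum]
  refine Finset.sum_congr rfl fun a _ => ?_
  rw [map_smul, hb a, mul_smul_comm]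

/-- the count of the infimum of a family of multisets. -/
theorem mw17om_count_inf' {α ι : Type*} [DecidableEq α] (s : Finset ι) (hs : s.Nonempty)
    (Z : ι → Multiset α) (q : α) :
    Multiset.count q (s.inf' hs Z) = s.inf' hs fun a => Multiset.count q (Z a) := by
  rw [Finset.apply_inf'_eq_inf'_comp hs (Multiset.count q)
    (fun x y => by rw [Multiset.inf_eq_inter, Multiset.count_inter])]
  rfl


/-- **(8.2), core**: all properties of a tuple `b` with `ψ (b a) = f₀ h_a`, `f₀ ∈ L(m P0 - W)`,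
`h` a linearly independent family of `L(W)`, `W` canonical. -/
theorem mw17om_core [DecidableEq (Mw17Pt T)] {g : ℕ} (R : V27RR K F g) (hg : 1 ≤ g)
    {W : Divisor K F} (hWdeg : Divisor.degree W = 2 * (g : ℤ) - 2)
    (hRR : ∀ D : Divisor K F, (finrank K (riemannRochSpace D) : ℤ) =
      Divisor.degree D + 1 - g + finrank K (riemannRochSpace (W - D)))
    {f₀ : F} (hf₀ : f₀ ≠ 0) {m : ℕ}
    (hf₀m : f₀ ∈ riemannRochSpace (Finsupp.single P.P0 (m : ℤ) - W))
    {h : Fin g → F} (hh : ∀ a, h a ∈ riemannRochSpace W) (hli : LinearIndependent K h)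
    {b : Fin g → V27pB T} (hb : ∀ a, P.ψ (b a) = f₀ * h a) :
    ∃ (k₁ : ℕ) (Fb : Multiset (Mw17Pt T)),
      (∀ a, V27pLe (b a) k₁) ∧ LinearIndependent K b ∧
      (∃ a, b a ≠ 0 ∧ v27pOrd (b a) = k₁) ∧
      (∀ s : Fin g → K, (∑ a, s a • b a) ≠ 0 → ∀ Z : Multiset (Mw17Pt T),
        Mw17IsZeros T (∑ a, s a • b a) Z → Fb ≤ Z) ∧
      (∀ q : Mw17Pt T, ∃ a, b a ≠ 0 ∧ (mw17inZeros T (b a)).count q = Fb.count q) ∧
      k₁ ≤ Multiset.card Fb + (2 * g - 2) ∧
      ∀ Q : Fin g → Mw17Pt T, Function.Injective Q → (∀ i, Q i ∉ Fb) →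
        finrank K (riemannRochSpace (v27dcSum fun i => v27spPlace P (Q i))) = 1 →
        Matrix.det (Matrix.of fun i a => Q i (b a)) ≠ 0 := by
  haveI := R.hasDiv
  obtain ⟨D₀, hD₀, hD₀deg⟩ := HasPrincipalDivisors.exists_divisor (K := K) f₀ hf₀
  have hh0 : ∀ a, h a ≠ 0 := fun a => hli.ne_zero a
  have hb0 : ∀ a, b a ≠ 0 := fun a h0 => by
    have := hb a
    rw [h0, map_zero] at this
    exact (mul_ne_zero hf₀ (hh0 a)) this.symm
  have hlib : LinearIndependent K b := mw17om_li P hf₀ hli hb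
  -- the divisor `A = div f₀ - W`
  set A : Divisor K F := D₀ - W with hAdef
  have hAv : ∀ v, A v = v.ord f₀ - W v := fun v => by
    rw [hAdef, Finsupp.sub_apply, hD₀]
  have hAdeg : Divisor.degree A = -(2 * (g : ℤ) - 2) := by
    rw [hAdef, map_sub, hD₀deg, hWdeg]
    ring
  have hA0 : ∀ v, v ≠ P.P0 → 0 ≤ A v := fun v hv => by
    have := ((mem_riemannRochSpace_iff.mp hf₀m) v).resolve_left hf₀
    rw [Finsupp.sub_apply, Finsupp.single_eq_of_ne hv] at this
    rw [hAv]
    linarith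
  -- the zero multisets, the base multiset, the top order
  set Z : Fin g → Multiset (Mw17Pt T) := fun a => mw17inZeros T (b a) with hZdef
  have hne : (Finset.univ : Finset (Fin g)).Nonempty := ⟨⟨0, hg⟩, Finset.mem_univ _⟩
  set Fb : Multiset (Mw17Pt T) := Finset.univ.inf' hne Z with hFdef
  set k₁ : ℕ := Finset.univ.sup' hne (fun a => v27pOrd (b a)) with hkdef
  have hcountF : ∀ q, Multiset.count q Fb =
      Finset.univ.inf' hne fun a => Multiset.count q (Z a) :=
    fun q => mw17om_count_inf' _ hne Z q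
  have hAle : ∀ q a, A (v27spPlace P q) ≤ (Multiset.count q (Z a) : ℤ) := fun q a => by
    rw [hZdef]
    simp only
    rw [mw17om_count_eq_ord P (hb0 a) q, hb a, hAv]
    exact mw17om_ord_mul_ge hf₀ (hh0 a) (hh a) _
  have hAF : ∀ q, A (v27spPlace P q) ≤ (Multiset.count q Fb : ℤ) := fun q => by
    obtain ⟨a, -, ha⟩ := Finset.exists_mem_eq_inf' hne (fun a => Multiset.count q (Z a))
    rw [hcountF, ha]
    exact hAle q a
  refine ⟨k₁, Fb, ?_, hlib, ?_, ?_, ?_, ?_, ?_⟩
  · intro a
    exact (v27pOrd_le_iff _ _).mp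
      (Finset.le_sup' (fun a => v27pOrd (b a)) (Finset.mem_univ a))
  · obtain ⟨a, -, ha⟩ := Finset.exists_mem_eq_sup' hne (fun a => v27pOrd (b a))
    exact ⟨a, hb0 a, ha.symm⟩
  · intro s hu Z' hZ'
    rw [Multiset.le_iff_count]
    intro q
    rw [hZ'.le_count_iff T hu q]
    refine Ideal.sum_mem _ fun a _ => ?_
    rw [Algebra.smul_def]
    refine Ideal.mul_mem_left _ _ ?_
    rw [← mw17in_le_count_zeros_iff T (hb0 a) q, hcountF]
    exact Finset.inf'_le _ (Finset.mem_univ a)
  · intro q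
    obtain ⟨a, -, ha⟩ := Finset.exists_mem_eq_inf' hne (fun a => Multiset.count q (Z a))
    exact ⟨a, hb0 a, by rw [hcountF, ha]⟩
  · rw [hkdef, Finset.sup'_le_iff]
    intro a _
    rw [v27pOrd_le_iff]
    refine (P.hord (b a) (hb0 a) _).mp ?_
    have h1 := mw17om_ord_mul_ge hf₀ (hh0 a) (hh a) P.P0
    have h2 := mw17om_degree_le P A Fb hAF
    rw [hAdeg, hAv] at h2
    have h3 : ((2 * g - 2 : ℕ) : ℤ) = 2 * (g : ℤ) - 2 := by omega
    rw [hb a]
    push_cast
    rw [h3]
    linarith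
  · intro Q hQ hQF hl hdet
    obtain ⟨s, hs0, hs⟩ := Matrix.exists_mulVec_eq_zero_iff.mpr hdet
    have hu0 : (∑ a, s a • b a) ≠ 0 := fun h0 =>
      hs0 (funext fun a => (Fintype.linearIndependent_iff.mp hlib) s h0 a)
    have hQu : ∀ i, Q i (∑ a, s a • b a) = 0 := fun i => by
      have := congrFun hs i
      simp only [Matrix.mulVec, dotProduct, Matrix.of_apply, Pi.zero_apply] at this
      rw [map_sum, ← this]
      refine Finset.sum_congr rfl fun a _ => ?_
      rw [map_smul, smul_eq_mul, mul_comm]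
    have hψ : P.ψ (∑ a, s a • b a) = f₀ * ∑ a, s a • h a := mw17om_psi_comb P hb s
    have hh'0 : (∑ a, s a • h a) ≠ 0 := fun h0 => by
      rw [h0, mul_zero] at hψ
      exact P.ψ_ne_zero hu0 hψ
    have hh'W : (∑ a, s a • h a) ∈ riemannRochSpace W :=
      Submodule.sum_mem _ fun a _ => Submodule.smul_mem _ _ (hh a)
    have hDdeg : Divisor.degree (v27dcSum fun i => v27spPlace P (Q i)) = g :=
      v27dc_degree_sum (mw17om_deg_one P) _
    have hbot := mw17_nonspecial R hRR hl hDdeg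
    have hmem : (∑ a, s a • h a) ∈
        riemannRochSpace (W - v27dcSum fun i => v27spPlace P (Q i)) := by
      rw [mem_riemannRochSpace_iff]
      intro v
      right
      rw [Finsupp.sub_apply]
      have hW := ((mem_riemannRochSpace_iff.mp hh'W) v).resolve_left hh'0
      by_cases hv : ∃ i, v27spPlace P (Q i) = v
      · obtain ⟨i, rfl⟩ := hv
        have hD1 : (v27dcSum fun i => v27spPlace P (Q i)) (v27spPlace P (Q i)) = 1 := by
          classical
          rw [v27dcSum_apply]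
          have : (Finset.univ.filter fun j => v27spPlace P (Q j) = v27spPlace P (Q i)) = {i} := by
            ext j
            simp [(v27spPlace_injective P).eq_iff, hQ.eq_iff]
          rw [this]
          simp
        have hA0' : A (v27spPlace P (Q i)) = 0 := by
          have h1 := hAF (Q i)
          rw [Multiset.count_eq_zero_of_notMem (hQF i)] at h1
          have h2 := hA0 _ (v27spPlace_ne P (Q i))
          have h1' : A (v27spPlace P (Q i)) ≤ 0 := by exact_mod_cast h1
          omega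
        have hpos := (v27sp_ord_pos_iff P (Q i) hu0).mpr (hQu i)
        rw [hψ, (v27spPlace P (Q i)).ord_mul hf₀ hh'0] at hpos
        rw [hAv] at hA0'
        rw [hD1]
        linarith
      · have hD0 : (v27dcSum fun i => v27spPlace P (Q i)) v = 0 :=
          v27dcSum_eq_zero_of_forall_ne _ v (fun i hi => hv ⟨i, hi⟩)
        rw [hD0]
        linarith
    rw [hbot] at hmem
    exact hh'0 ((Submodule.mem_bot K).mp hmem)


/-- existence of the tuple: `b a ∈ B` with `ψ (b a) = f₀ h_a`, `f₀ ≠ 0` in `L(3g·P0 - W)`, `h` a basis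
of `L(W)`. -/
theorem mw17om_exists_tuple {g : ℕ} (R : V27RR K F g) (hg : 1 ≤ g) :
    ∃ (W : Divisor K F), Divisor.degree W = 2 * (g : ℤ) - 2 ∧
      (∀ D : Divisor K F, (finrank K (riemannRochSpace D) : ℤ) =
        Divisor.degree D + 1 - g + finrank K (riemannRochSpace (W - D))) ∧
      ∃ (f₀ : F) (h : Fin g → F) (b : Fin g → V27pB T), f₀ ≠ 0 ∧
        f₀ ∈ riemannRochSpace (Finsupp.single P.P0 ((3 * g : ℕ) : ℤ) - W) ∧
        (∀ a, h a ∈ riemannRochSpace W) ∧ LinearIndependent K h ∧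
        ∀ a, P.ψ (b a) = f₀ * h a := by
  obtain ⟨W, hWdeg, hWl, -, hRR⟩ := R.can
  refine ⟨W, hWdeg, hRR, ?_⟩
  -- `f₀`
  obtain ⟨f₀, hf₀, hf₀m⟩ : ∃ f₀ : F, f₀ ≠ 0 ∧
      f₀ ∈ riemannRochSpace (Finsupp.single P.P0 ((3 * g : ℕ) : ℤ) - W) := by
    haveI := R.finL (Finsupp.single P.P0 ((3 * g : ℕ) : ℤ) - W)
    have h1 := hRR (Finsupp.single P.P0 ((3 * g : ℕ) : ℤ) - W)
    have hdeg : Divisor.degree (Finsupp.single P.P0 ((3 * g : ℕ) : ℤ) - W) =
        3 * (g : ℤ) - (2 * (g : ℤ) - 2) := by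
      rw [map_sub, Divisor.degree_single, P.hdeg, hWdeg]
      push_cast
      ring
    have hpos : 0 < finrank K
        (riemannRochSpace (Finsupp.single P.P0 ((3 * g : ℕ) : ℤ) - W)) := by
      have h2 : (0 : ℤ) < finrank K
          (riemannRochSpace (Finsupp.single P.P0 ((3 * g : ℕ) : ℤ) - W)) := by
        rw [h1, hdeg]
        have h3 : (0 : ℤ) ≤ finrank K (riemannRochSpace
            (W - (Finsupp.single P.P0 ((3 * g : ℕ) : ℤ) - W))) := Int.natCast_nonneg _
        have h4 : (1 : ℤ) ≤ g := by exact_mod_cast hg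
        linarith
      exact_mod_cast h2
    obtain ⟨x, hx⟩ := Module.finrank_pos_iff_exists_ne_zero.mp hpos
    exact ⟨x.1, fun h0 => hx (Subtype.ext h0), x.2⟩
  -- a basis of `L(W)`
  haveI := R.finL W
  let β := Module.finBasisOfFinrankEq K (riemannRochSpace W) hWl
  have hh : ∀ a, ((β a : riemannRochSpace W) : F) ∈ riemannRochSpace W := fun a => (β a).2
  have hli : LinearIndependent K fun a => ((β a : riemannRochSpace W) : F) :=
    β.linearIndependent.map' (riemannRochSpace W).subtype (Submodule.ker_subtype _)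
  have hh0 : ∀ a, ((β a : riemannRochSpace W) : F) ≠ 0 := fun a => hli.ne_zero a
  -- the functions `f₀ h_a` are regular off `P0`
  have hreg : ∀ a, ∃ b : V27pB T, P.ψ b = f₀ * ((β a : riemannRochSpace W) : F) := fun a => by
    refine P.hrange _ fun v hv => PlaceOrd.mem_of_ord_nonneg v ?_
    have h1 := mw17om_ord_mul_ge hf₀ (hh0 a) (hh a) v
    have h2 := ((mem_riemannRochSpace_iff.mp hf₀m) v).resolve_left hf₀
    rw [Finsupp.sub_apply, Finsupp.single_eq_of_ne hv] at h2
    linarith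
  choose b hb using hreg
  exact ⟨f₀, _, b, hf₀, hf₀m, hh, hli, hb⟩

/-- **(8.2)** (helper7's export): the canonical tuple `b : Fin g → B`, its exact base multiset `Fb`,
its top order `k₁ ≤ |Fb| + (2g - 2)`, and (NONDEG). -/
theorem mw17om_main [DecidableEq (Mw17Pt T)] {g : ℕ} (R : V27RR K F g) (hg : 1 ≤ g) :
    ∃ (k₁ : ℕ) (b : Fin g → V27pB T) (Fb : Multiset (Mw17Pt T)),
      (∀ a, V27pLe (b a) k₁) ∧ LinearIndependent K b ∧
      (∃ a, b a ≠ 0 ∧ v27pOrd (b a) = k₁) ∧
      (∀ s : Fin g → K, (∑ a, s a • b a) ≠ 0 → ∀ Z : Multiset (Mw17Pt T),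
        Mw17IsZeros T (∑ a, s a • b a) Z → Fb ≤ Z) ∧
      (∀ q : Mw17Pt T, ∃ a, b a ≠ 0 ∧ (mw17inZeros T (b a)).count q = Fb.count q) ∧
      k₁ ≤ Multiset.card Fb + (2 * g - 2) ∧
      ∀ Q : Fin g → Mw17Pt T, Function.Injective Q → (∀ i, Q i ∉ Fb) →
        finrank K (riemannRochSpace (v27dcSum fun i => v27spPlace P (Q i))) = 1 →
        Matrix.det (Matrix.of fun i a => Q i (b a)) ≠ 0 := by
  obtain ⟨W, hWdeg, hRR, f₀, h, b, hf₀, hf₀m, hh, hli, hb⟩ := mw17om_exists_tuple P R hg
  obtain ⟨k₁, Fb, h1⟩ := mw17om_core P R hg hWdeg hRR hf₀ hf₀m hh hli hb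
  exact ⟨k₁, b, Fb, h1⟩


/-! ### the coefficient-vector form (what (8.3) and TUPLE_w consume) -/

omit [IsDedekindDomain (V27pB T)] [IsAlgClosed K] in
/-- `sec` of a combination of coefficient vectors. -/
theorem mw17om_sec_comb {g m : ℕ} {b : Fin g → V27pB T} (hb : ∀ a, V27pLe (b a) m)
    (s : Fin g → K) :
    mw17Sec T m (∑ a, s a • mw17inCoef T m (b a)) = ∑ a, s a • b a := by
  have h := map_sum (mw17SecL T m) (fun a => s a • mw17inCoef T m (b a)) Finset.univ
  have h' : mw17Sec T m (∑ a, s a • mw17inCoef T m (b a)) =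
      ∑ a, mw17Sec T m (s a • mw17inCoef T m (b a)) := h
  rw [h']
  refine Finset.sum_congr rfl fun a _ => ?_
  have h2 : mw17Sec T m (s a • mw17inCoef T m (b a)) = s a • mw17Sec T m (mw17inCoef T m (b a)) :=
    map_smul (mw17SecL T m) (s a) (mw17inCoef T m (b a))
  rw [h2, mw17in_sec_coef T (hb a)]

/-- **(8.2), coefficient-vector form**: `k₁`, the base multiset `Fb` and a finite set of places
`SigF ⊇ Fb` are chosen FIRST; then for every level `m ≥ k₁` the coefficient vectors
`ω a := mw17inCoef T m (b a)` satisfy helper7's `Mw17PsBase T m ω Fb k₁` (spelled out), helper10's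
`hex`/`htop` of `mw17tz_psTupleGe`, and (NONDEG). -/
theorem mw17om_main_coef [inst : DecidableEq (Mw17Pt T)] {g : ℕ} (R : V27RR K F g) (hg : 1 ≤ g) :
    ∃ (k₁ : ℕ) (Fb : Multiset (Mw17Pt T)) (SigF : Finset (Place K F)),
      k₁ ≤ Multiset.card Fb + (2 * g - 2) ∧
      (∀ q : Mw17Pt T, v27spPlace P q ∉ SigF → q ∉ Fb) ∧
      ∀ m : ℕ, k₁ ≤ m → ∃ ω : Fin g → Mw17Idx δ m → K,
        LinearIndependent K ω ∧
        (∀ (s : Fin g → K) (Z : Multiset (Mw17Pt T)), (∑ a, s a • ω a) ≠ 0 →
          Mw17IsZeros T (mw17Sec T m (∑ a, s a • ω a)) Z → Fb ≤ Z ∧ Multiset.card Z ≤ k₁) ∧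
        (∀ q : Mw17Pt T, ∃ (i : Fin g) (Z : Multiset (Mw17Pt T)), ω i ≠ 0 ∧
          Mw17IsZeros T (mw17Sec T m (ω i)) Z ∧
          ∀ [DecidableEq (Mw17Pt T)], Z.count q ≤ Fb.count q) ∧
        (∃ i, ω i ≠ 0 ∧ k₁ ≤ v27pOrd (mw17Sec T m (ω i))) ∧
        ∀ Q : Fin g → Mw17Pt T, Function.Injective Q → (∀ i, Q i ∉ Fb) →
          finrank K (riemannRochSpace (v27dcSum fun i => v27spPlace P (Q i))) = 1 →
          Matrix.det (Matrix.of fun i a => Q i (mw17Sec T m (ω a))) ≠ 0 := by
  obtain ⟨k₁, b, Fb, hle, hli, ⟨a₀, ha₀, hord⟩, hbase, hexact, hk, hdet⟩ := mw17om_main P R hg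
  haveI : DecidableEq (Place K F) := Classical.decEq _
  refine ⟨k₁, Fb, Fb.toFinset.image (v27spPlace P), hk, ?_, ?_⟩
  · intro q hq hqF
    exact hq (Finset.mem_image_of_mem _ (Multiset.mem_toFinset.mpr hqF))
  intro m hm
  have hlem : ∀ a, V27pLe (b a) m := fun a => (hle a).mono hm
  have hsec : ∀ a, mw17Sec T m (mw17inCoef T m (b a)) = b a := fun a =>
    mw17in_sec_coef T (hlem a)
  have hne : ∀ a, b a ≠ 0 → mw17inCoef T m (b a) ≠ 0 := fun a hba h0 => by
    apply hba
    rw [← hsec a, h0]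
    exact (mw17in_sec_eq_zero_iff T m 0).mpr rfl
  refine ⟨fun a => mw17inCoef T m (b a), ?_, ?_, ?_, ?_, ?_⟩
  · rw [Fintype.linearIndependent_iff] at hli ⊢
    intro s hs
    refine hli s ?_
    rw [← mw17om_sec_comb hlem s, hs]
    exact (mw17in_sec_eq_zero_iff T m 0).mpr rfl
  · intro s Z hs hZ
    rw [mw17om_sec_comb hlem s] at hZ
    have hu : (∑ a, s a • b a) ≠ 0 := fun h0 => by
      apply hs
      rw [← mw17in_sec_eq_zero_iff T m, mw17om_sec_comb hlem s, h0]
    refine ⟨hbase s hu Z hZ, ?_⟩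
    rw [hZ.1, v27pOrd_le_iff]
    have : ∀ (S : Finset (Fin g)), V27pLe (∑ a ∈ S, s a • b a) k₁ := fun S => by
      classical
      induction S using Finset.induction_on with
      | empty => simpa using V27pLe.zero k₁
      | insert a S ha ih =>
        rw [Finset.sum_insert ha]
        exact ((hle a).smul_const (s a)).add ih
    exact this Finset.univ
  · intro q
    obtain ⟨a, hba, hcount⟩ := hexact q
    refine ⟨a, mw17inZeros T (b a), hne a hba, ?_, ?_⟩
    · rw [hsec a]
      exact mw17in_isZeros T hba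
    · intro inst'
      have : inst' = inst := Subsingleton.elim _ _
      subst this
      exact le_of_eq hcount
  · exact ⟨a₀, hne a₀ ha₀, by rw [hsec a₀, hord]⟩
  · intro Q hQ hQF hl
    have := hdet Q hQ hQF hl
    show Matrix.det (Matrix.of fun i a => Q i (mw17Sec T m (mw17inCoef T m (b a)))) ≠ 0
    simp only [hsec]
    exact this

end Fermat.Agent.MW17
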