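import Fermat.Agent.MW17.Pos.Glob
import Fermat.Agent.MW17.Top
import Fermat.Agent.MW17.Pos.MumfordPlug
import Fermat.Agent.MW17.Pos.Omega
import Fermat.Agent.MW17.TuplePs
import Fermat.Agent.MW17.Glob.Eps
import Fermat.Agent.MW17.JetRamP
import Fermat.Agent.MW17.Cone.Bpf

/-!
# Program MW (S17), heights half (A): PLUG TEST / SPARE of the (H8) wiring (prefix `mw17pw`)

Owner: helper19 (review #3 of helper16's 3407, compile-level).  This file composes, in ONE tree,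
helper29's `mw17mg_plug` ((H7) + Mumford), helper27's `mw17om_main_coef` ((8.2) Omega), helper10's
`mw17tz_psTupleGe/Le` (TUPLE_w), helper7's `mw17ps_had_of_star` + `mw17ps_H8` ((8.3), (8.4)),
helper9's `mw17ge_main` (EPS) and helper14's `mw17jr_ramX_finite_X0` (Ram(x) finite) into the
literal hypothesis `hpos` of helper2's `mw17tp_main` (MW17/Top.lean), from

* the local (★-off) at all levels `m₁ > 0`,
* the four global statements of helper22's `Glob/Defs` ((GS-off) all levels, (GS-tan), (GS-M) at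
  the levels `m₁ > 0`, (GS-P0)),
* the tangent bound (c') off a finite set of places.
-/

set_option autoImplicit false
set_option linter.unusedSectionVars false
set_option linter.unusedVariables false
set_option linter.style.haveILetI false

noncomputable section

namespace Fermat.Agent.MW17

open AlgebraicCurve ModularCurve Module Fermat.Agent.V Fermat.Agent.V.Dict Fermat.Agent.V.RR
  Fermat.Agent.HT Fermat.Agent.G Fermat.Agent.S24 Fermat.Agent.MW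

section General

variable {F : Type*} [Field F] [Algebra HtgQb F] {δ : V27pShape} {T : V27pTable HtgQb δ}
  [IsDedekindDomain (V27pB T)] (P : V27Presented HtgQb F T)

/-- **the (H7) + (H8) package from the global statements**, for any presented curve over `ℚ̄` with
a Riemann–Roch package. -/
theorem mw17pw_main {g : ℕ} (R : V27RR HtgQb F g) (hg : 1 ≤ g)
    (n : ℕ) (hn : 1 ≤ n) (hN : δ.N ≤ n) (hd : ∀ j, δ.d j ≤ n) (hb : δ.bound < n)
    (t : Mw17Idx δ n) (ht : mw17Wt t = n)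
    (hoffL : ∀ m₁ : ℕ, 0 < m₁ → Mw17StarOff T n t m₁)
    (hoffG : ∀ m₁ : ℕ, Mw17StarOffGlob T n t m₁)
    (htanG : ∀ m₁ : ℕ, 0 < m₁ → Mw17StarTanGlob T n t m₁)
    (hMG : ∀ m₁ : ℕ, 0 < m₁ → Mw17MGlob T n m₁)
    (hP0 : Mw17P0Glob T n t)
    (hram : (mw17jtRamX T).Finite)
    (hc' : ∃ (SigT : Finset (Place HtgQb F)) (C₃ : ℝ), ∀ q : Mw17Pt T,
      v27spPlace P q ∉ SigT →
        (2 * (g : ℝ) - 2 - 1 / 4) * mw17gH0 T n t (some q) - C₃ ≤ mw17gBt T n q) :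
    ∃ (Sig : Finset (Place HtgQb F)) (h : Pic0 HtgQb F → ℝ) (C c₁ c₂ : ℝ),
      (∀ x y : Pic0 HtgQb F, |h (x + y) + h (x - y) - 2 * (h x + h y)| ≤ C) ∧ 0 < c₂ ∧
      ∀ Q : Fin g → Mw17Pt T, Function.Injective Q → (∀ i, v27spPlace P (Q i) ∉ Sig) →
        finrank HtgQb (riemannRochSpace (v27dcSum fun i => v27spPlace P (Q i))) = 1 →
        c₂ * ∑ i, mw17gnHpt T n (Q i) - c₁ ≤ h (mw17prCl P (mw17gqTup Q)) := by
  classical
  have hn0 : n ≠ 0 := by omega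
  have ht0 : t ≠ mw17IdxZero δ n := mw17g_top_ne_zero n hn0 t ht
  -- (H7) + Mumford, at a level `m₁` with `3 g ≤ n m₁`
  obtain ⟨m₁, hm₁pos, hm₁⟩ : ∃ m₁ : ℕ, 0 < m₁ ∧ 3 * g ≤ n * m₁ :=
    ⟨3 * g + 1, by omega, by nlinarith⟩
  obtain ⟨h, C, SigM, C₁, hpar, hmum⟩ := mw17mg_plug P R n hn t m₁ hm₁ hoffG
    (htanG m₁ hm₁pos) (hMG m₁ hm₁pos) hP0 hram
  -- (8.2) Omega, at a level `m₂` with `k₁ ≤ n m₂`
  obtain ⟨k₁, Fb, SigF, hk, hSigF, hω⟩ := mw17om_main_coef P R hg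
  obtain ⟨m₂, hm₂pos, hm₂⟩ : ∃ m₂ : ℕ, 0 < m₂ ∧ k₁ ≤ n * m₂ :=
    ⟨k₁ + 1, by omega, by nlinarith⟩
  obtain ⟨ω, -, hbase, hex, htop, hdet⟩ := hω (n * m₂) hm₂
  have hloc : Mw17BpfLoc T := mw17cn_bpfLoc T
  have hle : Mw17PsTupleLe T n t m₂ ω Fb k₁ :=
    mw17tz_psTupleLe hloc ht hN hb m₂ k₁ hm₂ ω Fb hbase
  have hge : Mw17PsTupleGe T n t m₂ ω Fb k₁ :=
    mw17tz_psTupleGe hloc ht hN hb m₂ k₁ hm₂ ω Fb hex htop
  have hsec : ∀ u : Mw17Idx δ (n * m₂) → HtgQb, u ≠ 0 → mw17Sec T (n * m₂) u ≠ 0 :=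
    fun u hu h0 => hu ((mw17in_sec_eq_zero_iff T (n * m₂) u).mp h0)
  have hhad : Mw17PsHad T n t (n * m₂) ω Fb g :=
    mw17ps_had_of_star T n t m₂ (fun u hu => mw17in_exists_zeros T (hsec u hu))
      (fun u Z hu hZ q => hZ.mem_iff T (hsec u hu) q)
      (hoffL m₂ hm₂pos) ω Fb k₁ hm₂ hbase hge g
  have heps : Mw17Eps T n t := mw17ge_main T n hn0 hN hd t hoffG hP0
  obtain ⟨SigT, C₃, htan⟩ := hc'
  have hk' : (k₁ : ℝ) ≤ (Multiset.card Fb : ℝ) + (2 * (g : ℝ) - 2) := by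
    have h2 : 2 ≤ 2 * g := by omega
    have : ((k₁ : ℕ) : ℝ) ≤ ((Multiset.card Fb + (2 * g - 2) : ℕ) : ℝ) := by exact_mod_cast hk
    rw [Nat.cast_add, Nat.cast_sub h2] at this
    push_cast at this
    exact this
  -- the good tuples
  set Sig : Finset (Place HtgQb F) := SigM ∪ SigF ∪ SigT with hSig
  set Gd : (Fin g → Mw17Pt T) → Prop := fun Q => Function.Injective Q ∧
    (∀ i, v27spPlace P (Q i) ∉ Sig) ∧
    finrank HtgQb (riemannRochSpace (v27dcSum fun i => v27spPlace P (Q i))) = 1 with hGd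
  have hoffM : ∀ Q : Fin g → Mw17Pt T, Gd Q → ∀ i, v27spPlace P (Q i) ∉ SigM :=
    fun Q hQ i hi => hQ.2.1 i (Finset.mem_union_left _ (Finset.mem_union_left _ hi))
  have hoffF : ∀ Q : Fin g → Mw17Pt T, Gd Q → ∀ i, Q i ∉ Fb :=
    fun Q hQ i => hSigF _ fun hi =>
      hQ.2.1 i (Finset.mem_union_left _ (Finset.mem_union_right _ hi))
  have hoffT : ∀ Q : Fin g → Mw17Pt T, Gd Q → ∀ i, v27spPlace P (Q i) ∉ SigT :=
    fun Q hQ i hi => hQ.2.1 i (Finset.mem_union_right _ hi)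
  obtain ⟨c₁, hc₁⟩ := mw17ps_H8 T h (fun Q => mw17prCl P (mw17gqTup Q)) Gd n t m₂ hn0 hN hd ht0 hg
    ω Fb k₁ hm₂ hk' hhad hle hP0 heps
    (fun Q hQ => ⟨hQ.1, hoffF Q hQ, hdet Q hQ.1 (hoffF Q hQ) hQ.2.2⟩)
    (C₁ := C₁) (C₃ := C₃)
    (fun Q hQ => hmum Q ⟨hQ.1, hoffM Q hQ⟩)
    (fun Q hQ b => htan (Q b) (hoffT Q hQ b))
  exact ⟨Sig, h, C, c₁, 5 / 4, hpar, by norm_num, fun Q h1 h2 h3 => hc₁ Q ⟨h1, h2, h3⟩⟩

end General

section X0

variable (N : ℕ) [NeZero N] {δ : V27pShape} {T : V27pTable (AlgebraicClosure ℚ) δ}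
  [IsDedekindDomain (V27pB T)]

/-- **the literal hypothesis `hpos` of helper2's `mw17tp_main`** for one presentation of
`ℚ̄(X₀(N))`, from the local and global statements at ONE level `n`. -/
theorem mw17pw_X0 (P : V27Presented (AlgebraicClosure ℚ) (modularFunctionFieldBar N) T)
    (hg : 1 ≤ genusFF (AlgebraicClosure ℚ) ↥(modularFunctionFieldBar N))
    (n : ℕ) (hn : 1 ≤ n) (hN : δ.N ≤ n) (hd : ∀ j, δ.d j ≤ n) (hb : δ.bound < n)
    (t : Mw17Idx δ n) (ht : mw17Wt t = n)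
    (hoffL : ∀ m₁ : ℕ, 0 < m₁ → Mw17StarOff T n t m₁)
    (hoffG : ∀ m₁ : ℕ, Mw17StarOffGlob T n t m₁)
    (htanG : ∀ m₁ : ℕ, 0 < m₁ → Mw17StarTanGlob T n t m₁)
    (hMG : ∀ m₁ : ℕ, 0 < m₁ → Mw17MGlob T n m₁)
    (hP0 : Mw17P0Glob T n t)
    (hc' : ∃ (SigT : Finset (Place (AlgebraicClosure ℚ) (modularFunctionFieldBar N))) (C₃ : ℝ),
      ∀ q : Mw17Pt T, v27spPlace P q ∉ SigT →
        (2 * (genusFF (AlgebraicClosure ℚ) ↥(modularFunctionFieldBar N) : ℝ) - 2 - 1 / 4) *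
          mw17gH0 T n t (some q) - C₃ ≤ mw17gBt T n q) :
    ∃ (n : ℕ) (_ : δ.N ≤ n) (_ : ∀ j, δ.d j ≤ n)
      (Sig : Finset (Place (AlgebraicClosure ℚ) (modularFunctionFieldBar N)))
      (h : JZero N → ℝ) (C c₁ c₂ : ℝ),
      (∀ x y : JZero N, |h (x + y) + h (x - y) - 2 * (h x + h y)| ≤ C) ∧ 0 < c₂ ∧
      ∀ Q : Fin (genusFF (AlgebraicClosure ℚ) ↥(modularFunctionFieldBar N)) → Mw17Pt T,
        Function.Injective Q → (∀ i, v27spPlace P (Q i) ∉ Sig) →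
        finrank (AlgebraicClosure ℚ)
          (riemannRochSpace (v27dcSum fun i => v27spPlace P (Q i))) = 1 →
        c₂ * ∑ i, mw17gnHpt T n (Q i) - c₁ ≤ h (mw17prCl P (mw17gqTup Q)) := by
  haveI := v27dv_isCurveOver_modular N
  haveI := v27dv_essFiniteType_modular N
  have R : V27RR (AlgebraicClosure ℚ) ↥(modularFunctionFieldBar N)
      (genusFF (AlgebraicClosure ℚ) ↥(modularFunctionFieldBar N)) := v27x_rr
  obtain ⟨Sig, h, C, c₁, c₂, hpar, hc₂, H8⟩ := mw17pw_main P R hg n hn hN hd hb t ht hoffL hoffG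
    htanG hMG hP0 (mw17jr_ramX_finite_X0 N P) hc'
  exact ⟨n, hN, hd, Sig, h, C, c₁, c₂, hpar, hc₂, H8⟩

end X0

end Fermat.Agent.MW17
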