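import Mathlib
import Fermat.Agent.MW17.JetDiff
import Fermat.Agent.MW17.JetSec
import Fermat.Agent.HT.Loc

/-!
# Program MW (S17), heights half (A), §8.4(c'): algebra of the Gauss tuple (prefix `mw17tg`)

Owner: helper25.  See `blueprints/S17-heights.md` (origin/helper16), changelog v1.3 (3), and the
ruling 3312(4): (8.4)(c) is replaced by (c'), from the Gauss tuple alone.

`B = V27pB T` a Dedekind table ring with fraction field `M`, `x = V27pB.x` a separating variable,
`φ = ψ_n` the monomial basis of `L(n·P0)`.  The Gauss tuple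
`W_(i,j) = mon_i · bt_j − mon_j · bt_i` (`bt_j = ρ₁ · d(mon_j)/dx ∈ B`) takes the value
`ρ₁(χ) · (φ(χ) ∧ φ'(χ))_(i,j)` at every point `χ ∉ Ram(x)` (`mw17tg_W_apply`).

Also: membership in powers of the maximal ideal of a point vs. the order at its place
(`mw17tg_mem_pow_iff`), the ultrametric inequality for finite sums of `Place.ord`
(`mw17tg_le_ord_sum`, `mw17tg_exists_ord_le`), and the bilinear expansion of the Wronskian of two
sections (`mw17tg_diff_identity`).  The global assembly is `MW17/Pos/Tangent.lean`.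
-/

set_option autoImplicit false
set_option linter.unusedSectionVars false
set_option linter.unusedVariables false
set_option linter.style.haveILetI false

noncomputable section

namespace Fermat.Agent.MW17

open AlgebraicCurve IsDedekindDomain KaehlerDifferential Fermat.Agent.S24 Fermat.Agent.V
  Fermat.Agent.HT

/-! ### A. orders at the place of a point vs. powers of its maximal ideal -/

section Model

variable {K M B : Type*} [Field K] [IsAlgClosed K] [Field M] [Algebra K M] [CommRing B]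
  [IsDedekindDomain B] [Algebra K B] [Algebra B M] [IsScalarTower K B M] [IsFractionRing B M]

/-- `b ∈ 𝔪_χ ^ e` iff `b` vanishes to order at least `e` at the place of `χ`. -/
theorem mw17tg_mem_pow_iff (hnf : ¬ IsField B) (χ : B →ₐ[K] K) {b : B} (hb : b ≠ 0) (e : ℕ) :
    b ∈ mw17jtM χ ^ e ↔ (e : ℤ) ≤ (v27ptPlace M hnf χ).ord (algebraMap B M b) := by
  unfold v27ptPlace
  rw [v27c_ord_eq_multiplicity (K := K) (M := M) (v27ptPrime hnf χ) hb]
  have hsr : Ideal.span {b} ≠ 0 := Submodule.span_singleton_eq_bot.mp.mt hb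
  have hfm : FiniteMultiplicity (v27ptPrime hnf χ).asIdeal (Ideal.span {b}) :=
    FiniteMultiplicity.of_prime_left (v27ptPrime hnf χ).prime hsr
  have hM : mw17jtM χ = (v27ptPrime hnf χ).asIdeal := (v27ptPrime_asIdeal hnf χ).symm
  constructor
  · intro h
    have hdvd : (v27ptPrime hnf χ).asIdeal ^ e ∣ Ideal.span {b} := by
      rw [Ideal.dvd_iff_le, Ideal.span_singleton_le_iff_mem, ← hM]
      exact h
    exact_mod_cast hfm.le_multiplicity_of_pow_dvd hdvd
  · intro h
    have h2 : e ≤ multiplicity (v27ptPrime hnf χ).asIdeal (Ideal.span {b}) := by exact_mod_cast h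
    have hdvd : (v27ptPrime hnf χ).asIdeal ^ e ∣ Ideal.span {b} := pow_dvd_of_le_multiplicity h2
    rw [Ideal.dvd_iff_le, Ideal.span_singleton_le_iff_mem, ← hM] at hdvd
    exact hdvd

end Model

/-! ### B. the Gauss tuple and its values -/

section Table

variable {K : Type*} [Field K] {δ : V27pShape} (T : V27pTable K δ)

/-- the Gauss tuple `W_(i,j) = mon_i · bt_j − mon_j · bt_i` (with `bt_j = ρ₁ · d(mon_j)/dx`) -/
def mw17tgW (n : ℕ) (bt : Mw17Idx δ n → V27pB T) (p : Mw17Idx δ n × Mw17Idx δ n) : V27pB T :=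
  mw17Mon T p.1 * bt p.2 - mw17Mon T p.2 * bt p.1

variable [IsAlgClosed K] [CharZero K] [IsDedekindDomain (V27pB T)]
  {M : Type*} [Field M] [Algebra K M] [Algebra (V27pB T) M] [IsScalarTower K (V27pB T) M]
  [IsFractionRing (V27pB T) M]

/-- the value of `bt_i = ρ₁ · d(mon_i)/dx` at a point off `Ram(x)` -/
theorem mw17tg_bt_apply (hnf : ¬ IsField (V27pB T))
    (hx : IsSepGen K (algebraMap (V27pB T) M V27pB.x)) (n : ℕ) (ρ₁ : V27pB T)
    (bt : Mw17Idx δ n → V27pB T)
    (hbt : ∀ i, algebraMap (V27pB T) M ρ₁ • D K M (algebraMap (V27pB T) M (mw17Mon T i)) =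
      algebraMap (V27pB T) M (bt i) • D K M (algebraMap (V27pB T) M V27pB.x))
    {χ : Mw17Pt T} (hχ : χ ∉ mw17jtRamX T) (i : Mw17Idx δ n) :
    χ (bt i) = χ ρ₁ * mw17jtPsiD T n χ i :=
  mw17jd_jet_eq_ddx (M := M) hnf (V27pB.x : V27pB T) hx hχ (mw17Mon T i) ρ₁ (bt i) (hbt i)

/-- **the Gauss tuple at a point off `Ram(x)` is `ρ₁(χ) · φ(χ) ∧ φ'(χ)`** -/
theorem mw17tg_W_apply (hnf : ¬ IsField (V27pB T))
    (hx : IsSepGen K (algebraMap (V27pB T) M V27pB.x)) (n : ℕ) (ρ₁ : V27pB T)
    (bt : Mw17Idx δ n → V27pB T)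
    (hbt : ∀ i, algebraMap (V27pB T) M ρ₁ • D K M (algebraMap (V27pB T) M (mw17Mon T i)) =
      algebraMap (V27pB T) M (bt i) • D K M (algebraMap (V27pB T) M V27pB.x))
    {χ : Mw17Pt T} (hχ : χ ∉ mw17jtRamX T) (p : Mw17Idx δ n × Mw17Idx δ n) :
    χ (mw17tgW T n bt p) =
      χ ρ₁ * htlWedge (mw17Psi T n χ) (mw17jtPsiD T n χ) p := by
  unfold mw17tgW htlWedge
  rw [map_sub, map_mul, map_mul, mw17tg_bt_apply T (M := M) hnf hx n ρ₁ bt hbt hχ p.1,
    mw17tg_bt_apply T (M := M) hnf hx n ρ₁ bt hbt hχ p.2]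
  simp only [mw17Psi]
  ring

end Table

/-! ### C. orders of finite sums -/

section Sum

variable {K F : Type*} [Field K] [Field F] [Algebra K F]

/-- ultrametric inequality for finite sums -/
theorem mw17tg_le_ord_sum (v : Place K F) {ι : Type*} (s : Finset ι) (f : ι → F) (m : ℤ)
    (h : ∀ i ∈ s, f i = 0 ∨ m ≤ v.ord (f i)) :
    (∑ i ∈ s, f i) = 0 ∨ m ≤ v.ord (∑ i ∈ s, f i) := by
  classical
  induction s using Finset.induction with
  | empty => left; simp
  | insert a s ha ih =>
    rw [Finset.sum_insert ha]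
    have ih' := ih fun i hi => h i (Finset.mem_insert_of_mem hi)
    have ha' := h a (Finset.mem_insert_self a s)
    by_cases h0 : f a + ∑ i ∈ s, f i = 0
    · exact Or.inl h0
    right
    rcases ha' with ha' | ha'
    · rw [ha', zero_add] at h0 ⊢
      exact ih'.resolve_left h0
    rcases ih' with ih' | ih'
    · rw [ih', add_zero]; exact ha'
    · exact le_trans (le_min ha' ih') (PlaceOrd.min_le_ord_add v h0)

/-- if a finite sum is non-zero, some term is non-zero of order at most the order of the sum -/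
theorem mw17tg_exists_ord_le (v : Place K F) {ι : Type*} (s : Finset ι) (f : ι → F)
    (h0 : (∑ i ∈ s, f i) ≠ 0) : ∃ i ∈ s, f i ≠ 0 ∧ v.ord (f i) ≤ v.ord (∑ i ∈ s, f i) := by
  by_contra hcon
  push Not at hcon
  have h := mw17tg_le_ord_sum v s f (v.ord (∑ i ∈ s, f i) + 1) fun i hi => by
    by_cases hi0 : f i = 0
    · exact Or.inl hi0
    · right
      have := hcon i hi hi0
      omega
  rcases h with h | h
  · exact h0 h
  · omega

theorem mw17tg_ord_algebraMap_mul (v : Place K F) {c : K} (hc : c ≠ 0) (f : F) :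
    v.ord (algebraMap K F c * f) = v.ord f := by
  rcases eq_or_ne f 0 with rfl | hf
  · simp
  · rw [v.ord_mul (by simpa using hc) hf, PlaceOrd.ord_algebraMap, zero_add]

end Sum

/-! ### D. the differential identity `ρ₁ (a db − b da) = W(a, b) dx` -/

section Diff

variable {K : Type*} [Field K] {δ : V27pShape} (T : V27pTable K δ)

/-- the Gauss tuple extended bilinearly to sections -/
def mw17tgWsec (n : ℕ) (bt : Mw17Idx δ n → V27pB T) (u u' : Mw17Idx δ n → K) : V27pB T :=
  ∑ i, ∑ j, (u i * u' j) • mw17tgW T n bt (i, j)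

theorem mw17tg_Wsec_eq (n : ℕ) (bt : Mw17Idx δ n → V27pB T) (u u' : Mw17Idx δ n → K) :
    mw17tgWsec T n bt u u' =
      mw17Sec T n u * (∑ j, u' j • bt j) - mw17Sec T n u' * (∑ i, u i • bt i) := by
  unfold mw17tgWsec mw17tgW mw17Sec
  rw [Finset.sum_mul_sum, Finset.sum_mul_sum]
  rw [Finset.sum_comm (f := fun j i => u' j • mw17Mon T j * u i • bt i)]
  rw [← Finset.sum_sub_distrib]
  refine Finset.sum_congr rfl fun i _ => ?_
  rw [← Finset.sum_sub_distrib]
  refine Finset.sum_congr rfl fun j _ => ?_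
  simp only [smul_sub, smul_mul_smul_comm]
  rw [mul_comm (u' j) (u i)]

variable {M : Type*} [Field M] [Algebra K M] [Algebra (V27pB T) M] [IsScalarTower K (V27pB T) M]

theorem mw17tg_algebraMap_sum_smul {ι : Type*} (s : Finset ι) (u : ι → K) (b : ι → V27pB T) :
    algebraMap (V27pB T) M (∑ i ∈ s, u i • b i) =
      ∑ i ∈ s, u i • algebraMap (V27pB T) M (b i) := by
  rw [map_sum]
  refine Finset.sum_congr rfl fun i _ => ?_
  rw [Algebra.smul_def, map_mul, ← IsScalarTower.algebraMap_apply, Algebra.smul_def]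

/-- `ρ₁ · d(sec u) = (Σ u_j bt_j) · dx` -/
theorem mw17tg_D_sec (n : ℕ) (ρ₁ : V27pB T) (bt : Mw17Idx δ n → V27pB T)
    (hbt : ∀ i, algebraMap (V27pB T) M ρ₁ • D K M (algebraMap (V27pB T) M (mw17Mon T i)) =
      algebraMap (V27pB T) M (bt i) • D K M (algebraMap (V27pB T) M V27pB.x))
    (u : Mw17Idx δ n → K) :
    algebraMap (V27pB T) M ρ₁ • D K M (algebraMap (V27pB T) M (mw17Sec T n u)) =
      algebraMap (V27pB T) M (∑ j, u j • bt j) • D K M (algebraMap (V27pB T) M V27pB.x) := by
  unfold mw17Sec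
  rw [mw17tg_algebraMap_sum_smul, mw17tg_algebraMap_sum_smul, map_sum, Finset.smul_sum,
    Finset.sum_smul]
  refine Finset.sum_congr rfl fun j _ => ?_
  rw [Derivation.map_smul, smul_comm, hbt j, smul_assoc]

/-- **the differential identity** -/
theorem mw17tg_diff_identity (n : ℕ) (ρ₁ : V27pB T) (bt : Mw17Idx δ n → V27pB T)
    (hbt : ∀ i, algebraMap (V27pB T) M ρ₁ • D K M (algebraMap (V27pB T) M (mw17Mon T i)) =
      algebraMap (V27pB T) M (bt i) • D K M (algebraMap (V27pB T) M V27pB.x))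
    (u u' : Mw17Idx δ n → K) :
    algebraMap (V27pB T) M ρ₁ •
        (algebraMap (V27pB T) M (mw17Sec T n u) • D K M (algebraMap (V27pB T) M (mw17Sec T n u')) -
          algebraMap (V27pB T) M (mw17Sec T n u') •
            D K M (algebraMap (V27pB T) M (mw17Sec T n u))) =
      algebraMap (V27pB T) M (mw17tgWsec T n bt u u') •
        D K M (algebraMap (V27pB T) M V27pB.x) := by
  rw [smul_sub, smul_comm, mw17tg_D_sec T n ρ₁ bt hbt u',
    smul_comm (algebraMap (V27pB T) M ρ₁), mw17tg_D_sec T n ρ₁ bt hbt u, smul_smul, smul_smul,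
    ← sub_smul, ← map_mul, ← map_mul, ← map_sub, mw17tg_Wsec_eq]

end Diff

end Fermat.Agent.MW17
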