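import Mathlib
import Fermat.Agent.MW17.Pos.TangentAlg
import Fermat.Agent.MW17.Glob.Defs
import Fermat.Agent.HT.Glob.Lin
import Fermat.Agent.MW17.Kan
import Fermat.Agent.V.Sem.PtPlace
import Fermat.Agent.S24.RiemannHurwitz

/-!
# Program MW (S17), heights half (A), §8.4(c'): the tangent lower bound (prefix `mw17tg`)

Owner: helper25.  See `blueprints/S17-heights.md` (origin/helper16), changelog v1.3 (3), and the
ruling 3312(4):

  `βtan(Q) ≥ (2g − 2 − ε) hP0(Q) − C`   for `Q ∉ Ram(x) ∪ Z(ρ₁)`,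

from the Gauss tuple `W_(i,j) = ρ₁ (φ_i φ_j' − φ_j φ_i')` alone: its exact base multiset `E` and top
order `k₁` satisfy `k₁ − |E| = 2n + deg div(dx) = 2n + 2g − 2`; (TUPLE_w, ≥ half) for `W`, the
product formula, (GS-P0) and (EPS) give the bound.
-/

set_option autoImplicit false
set_option linter.unusedSectionVars false
set_option linter.unusedVariables false
set_option linter.style.haveILetI false

noncomputable section

namespace Fermat.Agent.MW17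

open AlgebraicCurve KaehlerDifferential Fermat.Agent.S24 Fermat.Agent.V Fermat.Agent.HT

/-! ### 1. local-to-global for three kinds of tuples -/

section Lin3

variable {J₁ J₂ J₃ : Type} [Finite J₁] [Finite J₂] [Finite J₃]
  {α₁ α₂ α₃ : Type} [Fintype α₁] [Fintype α₂] [Fintype α₃]

/-- **multiplicative local-to-global for three families of tuples** (index types `J₁`, `J₂`, `J₃`):
a local inequality `∏ ‖y‖^p ≤ C_w ∏ ‖y‖^q` for all admissible `w` gives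
`∑ (p − q) htgHt y ≤ htgC C`. -/
theorem mw17tg_lin3 (y₁ : α₁ → J₁ → HtgQb) (y₂ : α₂ → J₂ → HtgQb) (y₃ : α₃ → J₃ → HtgQb)
    (h₁ : ∀ a, y₁ a ≠ 0) (h₂ : ∀ a, y₂ a ≠ 0) (h₃ : ∀ a, y₃ a ≠ 0)
    (p₁ q₁ : α₁ → ℕ) (p₂ q₂ : α₂ → ℕ) (p₃ q₃ : α₃ → ℕ) (C : HtConst HtgQb)
    (h : ∀ w : HtAbs HtgQb,
      (∏ a, htlSup w.1 (y₁ a) ^ p₁ a) * ((∏ a, htlSup w.1 (y₂ a) ^ p₂ a) *
          ∏ a, htlSup w.1 (y₃ a) ^ p₃ a) ≤
        C.val w.1 * ((∏ a, htlSup w.1 (y₁ a) ^ q₁ a) * ((∏ a, htlSup w.1 (y₂ a) ^ q₂ a) *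
          ∏ a, htlSup w.1 (y₃ a) ^ q₃ a))) :
    ∑ a, ((p₁ a : ℝ) - q₁ a) * htgHt (y₁ a) + (∑ a, ((p₂ a : ℝ) - q₂ a) * htgHt (y₂ a) +
      ∑ a, ((p₃ a : ℝ) - q₃ a) * htgHt (y₃ a)) ≤ htgC C := by
  let ι : α₁ ⊕ (α₂ ⊕ α₃) → Type := Sum.elim (fun _ => J₁) (Sum.elim (fun _ => J₂) (fun _ => J₃))
  have : ∀ a, Finite (ι a) := by
    rintro (a | a | a)
    · exact inferInstanceAs (Finite J₁)
    · exact inferInstanceAs (Finite J₂)
    · exact inferInstanceAs (Finite J₃)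
  let y : ∀ a, ι a → HtgQb := fun a =>
    match a with
    | Sum.inl a => y₁ a
    | Sum.inr (Sum.inl a) => y₂ a
    | Sum.inr (Sum.inr a) => y₃ a
  have hy : ∀ a, y a ≠ 0 := by
    rintro (a | a | a)
    · exact h₁ a
    · exact h₂ a
    · exact h₃ a
  have key := htg_lin_le_of_prod y hy (Sum.elim p₁ (Sum.elim p₂ p₃)) (Sum.elim q₁ (Sum.elim q₂ q₃))
    C (fun w => by
      rw [Fintype.prod_sum_type, Fintype.prod_sum_type, Fintype.prod_sum_type,
        Fintype.prod_sum_type]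
      exact h w)
  rw [Fintype.sum_sum_type, Fintype.sum_sum_type] at key
  exact key

end Lin3

/-! ### 2. the global inequality at one point -/

section Glob

variable {δ : V27pShape} (T : V27pTable HtgQb δ)

/-- clearing the denominators of the chordal distances (pure real algebra) -/
theorem mw17tg_real_aux {κ : Type} [Fintype κ] (S A0 Nn G wr C : ℝ) (e₀ m₁ : ℕ) (A B : κ → ℝ)
    (hS : 0 < S) (hNn : 0 < Nn) (hB : ∀ i, 0 < B i)
    (h : S ^ m₁ * (A0 / (Nn * S)) ^ e₀ * ∏ i, A i / (B i * S) ≤ C * (wr * G)) :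
    S ^ m₁ * (A0 ^ e₀ * ∏ i, A i) ≤
      C * (S ^ (e₀ + Fintype.card κ) * Nn ^ e₀ * (∏ i, B i) * (G * wr)) := by
  have hY : 0 < (Nn * S) ^ e₀ * ((∏ i, B i) * S ^ Fintype.card κ) :=
    mul_pos (pow_pos (mul_pos hNn hS) _)
      (mul_pos (Finset.prod_pos fun i _ => hB i) (pow_pos hS _))
  have e1 : ∏ i, A i / (B i * S) = (∏ i, A i) / ((∏ i, B i) * S ^ Fintype.card κ) := by
    rw [Finset.prod_div_distrib, Finset.prod_mul_distrib, Finset.prod_const, Finset.card_univ]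
  have e2 : S ^ m₁ * (A0 / (Nn * S)) ^ e₀ * ∏ i, A i / (B i * S) =
      S ^ m₁ * (A0 ^ e₀ * ∏ i, A i) / ((Nn * S) ^ e₀ * ((∏ i, B i) * S ^ Fintype.card κ)) := by
    rw [e1, div_pow]
    field_simp
  rw [e2, div_le_iff₀ hY] at h
  calc S ^ m₁ * (A0 ^ e₀ * ∏ i, A i)
      ≤ C * (wr * G) * ((Nn * S) ^ e₀ * ((∏ i, B i) * S ^ Fintype.card κ)) := h
    _ = C * (S ^ (e₀ + Fintype.card κ) * Nn ^ e₀ * (∏ i, B i) * (G * wr)) := by
        rw [mul_pow, pow_add]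
        ring

/-- **the global inequality at one point** : the local (TUPLE_w, ≥ half) inequality for the Gauss
tuple at `Q` (value `r · (φQ ∧ φ'Q)`, `r ≠ 0`), for all admissible absolute values, gives
`m₁ htgHt(φQ) + (n m₁ − k₁) β(P0,Q) + ∑ β(P_i,Q) − htgHt(φQ ∧ φ'Q) ≤ htgC C`. -/
theorem mw17tg_glob_aux (n : ℕ) (t : Mw17Idx δ n) (m₁ k₁ : ℕ)
    {κ : Type} [Fintype κ] (P : κ → Mw17Pt T) (Q : Mw17Pt T) (r : HtgQb) (hr : r ≠ 0)
    (hne : ∀ i, htlWedge (mw17Psi T n (P i)) (mw17Psi T n Q) ≠ 0)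
    (hne0 : htlWedge (mw17Phi T n t none) (mw17Psi T n Q) ≠ 0)
    (C : HtConst HtgQb)
    (h : ∀ w : HtAbs HtgQb,
      htlSup w.1 (mw17Psi T n Q) ^ m₁ * mw17Dl T n t w.1 none (some Q) ^ (n * m₁ - k₁) *
          ∏ i, mw17Dl T n t w.1 (some (P i)) (some Q) ≤
        C.val w.1 * (w.1 r * htlSup w.1 (htlWedge (mw17Psi T n Q) (mw17jtPsiD T n Q)))) :
    (m₁ : ℝ) * htgHt (mw17Psi T n Q) + ((n * m₁ - k₁ : ℕ) : ℝ) * mw17gB T n t none (some Q) +
        ∑ i, mw17gB T n t (some (P i)) (some Q) -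
      htgHt (htlWedge (mw17Psi T n Q) (mw17jtPsiD T n Q)) ≤ htgC C := by
  classical
  have hQ0 : mw17Psi T n Q ≠ 0 := mw17Psi_ne_zero T n Q
  have hN0 : mw17Phi T n t none ≠ 0 := mw17Phi_ne_zero T n t none
  have hP0 : ∀ i, mw17Psi T n (P i) ≠ 0 := fun i => mw17Psi_ne_zero T n (P i)
  -- positivity of the distances
  have hD0pos : ∀ w : AbsoluteValue HtgQb ℝ, 0 < mw17Dl T n t w none (some Q) := by
    intro w
    rcases (htlDist_nonneg w (mw17Phi T n t none) (mw17Phi T n t (some Q))).lt_or_eq with h1 | h1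
    · exact h1
    · exact absurd ((htlDist_eq_zero_iff w hN0 (mw17Phi_ne_zero T n t (some Q))).1 h1.symm) hne0
  have hDpos : ∀ (w : AbsoluteValue HtgQb ℝ) i, 0 < mw17Dl T n t w (some (P i)) (some Q) := by
    intro w i
    rcases (htlDist_nonneg w (mw17Phi T n t (some (P i))) (mw17Phi T n t (some Q))).lt_or_eq
      with h1 | h1
    · exact h1
    · exact absurd ((htlDist_eq_zero_iff w (mw17Phi_ne_zero T n t (some (P i)))
        (mw17Phi_ne_zero T n t (some Q))).1 h1.symm) (hne i)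
  -- the tangent wedge does not vanish
  have hG0 : htlWedge (mw17Psi T n Q) (mw17jtPsiD T n Q) ≠ 0 := by
    intro h0
    have h1 := h (htgW none)
    rw [h0, htlSup_zero, mul_zero, mul_zero] at h1
    have h2 : 0 < htlSup (htgW none).1 (mw17Psi T n Q) ^ m₁ *
        mw17Dl T n t (htgW none).1 none (some Q) ^ (n * m₁ - k₁) *
        ∏ i, mw17Dl T n t (htgW none).1 (some (P i)) (some Q) :=
      mul_pos (mul_pos (pow_pos (htlSup_pos_iff.2 hQ0) _) (pow_pos (hD0pos _) _))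
        (Finset.prod_pos fun i _ => hDpos _ i)
    linarith
  -- the families of tuples
  let y₁ : Option (Option κ) → Mw17Idx δ n → HtgQb := fun a =>
    a.elim (mw17Psi T n Q) fun b => b.elim (mw17Phi T n t none) fun i => mw17Psi T n (P i)
  let y₂ : Option (Option κ) → Mw17Idx δ n × Mw17Idx δ n → HtgQb := fun a =>
    a.elim (htlWedge (mw17Psi T n Q) (mw17jtPsiD T n Q)) fun b =>
      b.elim (htlWedge (mw17Phi T n t none) (mw17Psi T n Q)) fun i =>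
        htlWedge (mw17Psi T n (P i)) (mw17Psi T n Q)
  let y₃ : Unit → Unit → HtgQb := fun _ _ => r
  let p₁ : Option (Option κ) → ℕ := fun a => a.elim m₁ fun _ => 0
  let q₁ : Option (Option κ) → ℕ := fun a =>
    a.elim (n * m₁ - k₁ + Fintype.card κ) fun b => b.elim (n * m₁ - k₁) fun _ => 1
  let p₂ : Option (Option κ) → ℕ := fun a => a.elim 0 fun b => b.elim (n * m₁ - k₁) fun _ => 1
  let q₂ : Option (Option κ) → ℕ := fun a => a.elim 1 fun _ => 0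
  have hy₁ : ∀ a, y₁ a ≠ 0 := by
    rintro (_ | _ | i)
    · exact hQ0
    · exact hN0
    · exact hP0 i
  have hy₂ : ∀ a, y₂ a ≠ 0 := by
    rintro (_ | _ | i)
    · exact hG0
    · exact hne0
    · exact hne i
  have hy₃ : ∀ a, y₃ a ≠ 0 := fun _ h0 => hr (congrFun h0 ())
  have key := mw17tg_lin3 y₁ y₂ y₃ hy₁ hy₂ hy₃ p₁ q₁ p₂ q₂ (fun _ => 0) (fun _ => 1) C
    (fun w => by
      have hw := mw17tg_real_aux (htlSup w.1 (mw17Psi T n Q))
        (htlSup w.1 (htlWedge (mw17Phi T n t none) (mw17Psi T n Q)))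
        (htlSup w.1 (mw17Phi T n t none))
        (htlSup w.1 (htlWedge (mw17Psi T n Q) (mw17jtPsiD T n Q))) (w.1 r) (C.val w.1)
        (n * m₁ - k₁) m₁
        (fun i => htlSup w.1 (htlWedge (mw17Psi T n (P i)) (mw17Psi T n Q)))
        (fun i => htlSup w.1 (mw17Psi T n (P i)))
        (htlSup_pos_iff.2 hQ0) (htlSup_pos_iff.2 hN0) (fun i => htlSup_pos_iff.2 (hP0 i))
        (h w)
      have hr1 : htlSup w.1 (fun _ : Unit => r) = w.1 r := by
        rw [htlSup_def, ciSup_unique]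
      simp only [Fintype.prod_option, Finset.univ_unique, Finset.prod_singleton, y₁, y₂, y₃,
        p₁, q₁, p₂, q₂, Option.elim_none, Option.elim_some, pow_zero, pow_one, one_mul, mul_one,
        Finset.prod_const_one, hr1]
      linarith [hw])
  have hr0 : htgHt (fun _ : Unit => r) = 0 := htgHt_unit hr
  simp only [Fintype.sum_option, Finset.univ_unique, Finset.sum_singleton, y₁, y₂, y₃,
    p₁, q₁, p₂, q₂, Option.elim_none, Option.elim_some, hr0, mul_zero, add_zero,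
    Nat.cast_zero, Nat.cast_one, Nat.cast_add] at key
  have hsum : ∑ i, mw17gB T n t (some (P i)) (some Q) =
      ∑ i, htgHt (htlWedge (mw17Psi T n (P i)) (mw17Psi T n Q)) -
        ∑ i, htgHt (mw17Psi T n (P i)) - (Fintype.card κ : ℝ) * htgHt (mw17Psi T n Q) := by
    simp only [mw17gB_some_some, Finset.sum_sub_distrib, Finset.sum_const, Finset.card_univ,
      nsmul_eq_mul]
  rw [hsum, mw17gB_none_some]
  simp only [zero_sub, one_mul, sub_zero, neg_mul, Finset.sum_neg_distrib,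
    mw17g_ht_phi_none, mul_zero, zero_add] at key
  linarith [key]

/-- **(c'), global form** : (TUPLE_w, ≥ half) for the Gauss tuple `W` (values `ρ₁(R) · (φR ∧ φ'R)` off
`Ram(x)`, base multiset `E`, top order `k₁`), (GS-P0) and (EPS) give
`βtan(Q) ≥ (κ − ε) hP0(Q) − C` off `Ram(x) ∪ Z(ρ₁) ∪ E`, for every `κ ≤ k₁ − |E| − 2n`. -/
theorem mw17tg_glob (n : ℕ) (hn : n ≠ 0) (hN : δ.N ≤ n) (hd : ∀ j, δ.d j ≤ n)
    (t : Mw17Idx δ n) (ht : t ≠ mw17IdxZero δ n) (m₁ k₁ : ℕ) (hk : k₁ ≤ n * m₁)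
    (W : Mw17Idx δ n × Mw17Idx δ n → V27pB T) (ρ₁ : V27pB T)
    (hW : ∀ R : Mw17Pt T, R ∉ mw17jtRamX T → ∀ p,
      R (W p) = R ρ₁ * htlWedge (mw17Psi T n R) (mw17jtPsiD T n R) p)
    (E : Multiset (Mw17Pt T))
    (htup : ∃ C : HtConst HtgQb, ∀ (w : HtAbs HtgQb) (R : Mw17Pt T), R ∉ E →
      htlSup w.1 (mw17Psi T n R) ^ m₁ * mw17Dl T n t w.1 none (some R) ^ (n * m₁ - k₁) *
          (E.map fun P : Mw17Pt T => mw17Dl T n t w.1 (some P) (some R)).prod ≤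
        C.val w.1 * htlSup w.1 (fun p => R (W p)))
    (hP0 : Mw17P0Glob T n t) (heps : Mw17Eps T n t)
    (κ : ℝ) (hκ : κ + 2 * n + Multiset.card E ≤ k₁) (ε : ℝ) (hε : 0 < ε) :
    ∃ C : ℝ, ∀ Q : Mw17Pt T, Q ∉ mw17jtRamX T → Q ρ₁ ≠ 0 → Q ∉ E →
      (κ - ε) * mw17gH0 T n t (some Q) - C ≤ mw17gBt T n Q := by
  classical
  obtain ⟨l, rfl⟩ : ∃ l : List (Mw17Pt T), E = (l : Multiset (Mw17Pt T)) :=
    ⟨E.toList, (Multiset.coe_toList E).symm⟩
  obtain ⟨Cw, hCw⟩ := htup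
  obtain ⟨C0, hC0⟩ := hP0
  set k : ℕ := l.length with hkdef
  have hcard : Multiset.card (l : Multiset (Mw17Pt T)) = k := Multiset.coe_card l
  set ε' : ℝ := ε / (k + 1) with hε'def
  have hk1 : (0 : ℝ) < k + 1 := by positivity
  have hε' : 0 < ε' := div_pos hε hk1
  have hkε : (k : ℝ) * ε' ≤ ε := by
    rw [hε'def, mul_div_assoc', div_le_iff₀ hk1]
    nlinarith
  choose Ci hCi using fun i : Fin l.length => heps l[i.1] ε' hε'
  refine ⟨htgC Cw + ((n * m₁ - k₁ : ℕ) : ℝ) * C0 + ∑ i, Ci i, fun Q hQram hQρ hQE => ?_⟩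
  have hmem : ∀ i : Fin l.length, l[i.1] ∈ (l : Multiset (Mw17Pt T)) := fun i =>
    Multiset.mem_coe.2 (List.getElem_mem _)
  have hQne : ∀ i : Fin l.length, Q ≠ l[i.1] := fun i h0 => hQE (h0 ▸ hmem i)
  have hne : ∀ i : Fin l.length, htlWedge (mw17Psi T n l[i.1]) (mw17Psi T n Q) ≠ 0 := fun i =>
    mw17g_wedge_ne_zero T n hN hd t (hQne i).symm
  have hne0 : htlWedge (mw17Phi T n t none) (mw17Psi T n Q) ≠ 0 :=
    mw17g_wedge_none_ne_zero T n t ht Q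
  have hval : (fun p => Q (W p)) = Q ρ₁ • htlWedge (mw17Psi T n Q) (mw17jtPsiD T n Q) := by
    funext p
    rw [hW Q hQram p, Pi.smul_apply, smul_eq_mul]
  have key := mw17tg_glob_aux T n t m₁ k₁ (fun i : Fin l.length => l[i.1]) Q (Q ρ₁) hQρ hne hne0 Cw
    (fun w => by
      have h1 := hCw w Q hQE
      rw [hval, htlSup_smul] at h1
      have h2 : ((l : Multiset (Mw17Pt T)).map
          fun P : Mw17Pt T => mw17Dl T n t w.1 (some P) (some Q)).prod =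
          ∏ i : Fin l.length, mw17Dl T n t w.1 (some l[i.1]) (some Q) := by
        rw [Fin.prod_univ_fun_getElem l (fun P : Mw17Pt T => mw17Dl T n t w.1 (some P) (some Q)),
          Multiset.map_coe, Multiset.prod_coe]
      rw [h2] at h1
      exact h1)
  -- the three inputs
  have hH : htgHt (mw17Psi T n Q) = n * mw17gH0 T n t (some Q) :=
    mw17g_ht_eq_mul_H0 T n hn t (some Q)
  have hh0 : 0 ≤ mw17gH0 T n t (some Q) := mw17gH0_nonneg T n t (some Q)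
  have hb0 : -mw17gH0 T n t (some Q) - C0 ≤ mw17gB T n t none (some Q) := by
    have := (abs_le.1 (hC0 Q)).1
    linarith
  have hbi : ∀ i : Fin l.length,
      -(1 + ε') * mw17gH0 T n t (some Q) - Ci i ≤ mw17gB T n t (some l[i.1]) (some Q) := by
    intro i
    have := (abs_le.1 (hCi i Q (hQne i))).1
    linarith
  have hsum : -((k : ℝ) * (1 + ε')) * mw17gH0 T n t (some Q) - ∑ i, Ci i ≤
      ∑ i : Fin l.length, mw17gB T n t (some l[i.1]) (some Q) := by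
    have := Finset.sum_le_sum fun i (_ : i ∈ (Finset.univ : Finset (Fin l.length))) => hbi i
    rw [Finset.sum_sub_distrib, Finset.sum_const, Finset.card_univ, Fintype.card_fin,
      nsmul_eq_mul] at this
    linarith
  have he0 : ((n * m₁ - k₁ : ℕ) : ℝ) = (n : ℝ) * m₁ - k₁ := by
    rw [Nat.cast_sub hk, Nat.cast_mul]
  have he0' : (0 : ℝ) ≤ ((n * m₁ - k₁ : ℕ) : ℝ) := Nat.cast_nonneg _
  have hb0' : ((n * m₁ - k₁ : ℕ) : ℝ) * (-mw17gH0 T n t (some Q) - C0) ≤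
      ((n * m₁ - k₁ : ℕ) : ℝ) * mw17gB T n t none (some Q) :=
    mul_le_mul_of_nonneg_left hb0 he0'
  rw [hcard] at hκ
  have hcoef : (κ - ε) * mw17gH0 T n t (some Q) ≤
      ((k₁ : ℝ) - k - 2 * n - k * ε') * mw17gH0 T n t (some Q) :=
    mul_le_mul_of_nonneg_right (by linarith) hh0
  unfold mw17gBt
  rw [hH] at key ⊢
  rw [he0] at key hb0' ⊢
  linarith [key, hsum, hb0', hcoef]

end Glob

/-! ### 3. (c') on a presented curve -/

section Final

variable {F : Type*} [Field F] [Algebra HtgQb F] {δ : V27pShape} {T : V27pTable HtgQb δ}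
  [IsDedekindDomain (V27pB T)] (P : V27Presented HtgQb F T)

/-- **(c')** : on a presented curve over `Q̄`, given the Gauss tuple in `B`
(`bt_i = ρ₁ · d(mon_i)/dx`, `W = mw17tgW T n bt`) with base multiset `E`, top order `k₁`,
`k₁ − |E| = 2n + 2g − 2`, and (TUPLE_w, ≥ half) for `W`:
`βtan(Q) ≥ (2g − 2 − ε) hP0(Q) − C` for all points `Q` whose place avoids a finite set. -/
theorem mw17tg_main (hx : IsSepGen HtgQb (P.ψ (V27pB.x : V27pB T))) (g : ℕ)
    (n : ℕ) (hn : n ≠ 0) (hN : δ.N ≤ n) (hd : ∀ j, δ.d j ≤ n) (t : Mw17Idx δ n)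
    (ht : mw17Wt t = n) (ρ₁ : V27pB T) (hρ : ρ₁ ≠ 0) (bt : Mw17Idx δ n → V27pB T)
    (hbt : ∀ i, P.ψ ρ₁ • D HtgQb F (P.ψ (mw17Mon T i)) =
      P.ψ (bt i) • D HtgQb F (P.ψ (V27pB.x : V27pB T)))
    (E : Multiset (Mw17Pt T)) (k₁ : ℕ) (hk : k₁ + 2 = Multiset.card E + 2 * n + 2 * g)
    (m₁ : ℕ) (hkm : k₁ ≤ n * m₁)
    (htup : ∃ C : HtConst HtgQb, ∀ (w : HtAbs HtgQb) (R : Mw17Pt T), R ∉ E →
      htlSup w.1 (mw17Psi T n R) ^ m₁ * mw17Dl T n t w.1 none (some R) ^ (n * m₁ - k₁) *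
          (E.map fun P' : Mw17Pt T => mw17Dl T n t w.1 (some P') (some R)).prod ≤
        C.val w.1 * htlSup w.1 (fun p => R (mw17tgW T n bt p)))
    (hP0 : Mw17P0Glob T n t) (heps : Mw17Eps T n t) (ε : ℝ) (hε : 0 < ε) :
    ∃ (SigT : Finset (Place HtgQb F)) (C : ℝ), ∀ Q : Mw17Pt T, v27spPlace P Q ∉ SigT →
      (2 * (g : ℝ) - 2 - ε) * mw17gH0 T n t (some Q) - C ≤ mw17gBt T n Q := by
  classical
  letI := v27spAlg P
  haveI := v27sp_isScalarTower P
  haveI := v27sp_isFractionRing P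
  haveI := hx.finite
  haveI := hx.hasPrincipalDivisors
  have hW : ∀ R : Mw17Pt T, R ∉ mw17jtRamX T → ∀ p,
      R (mw17tgW T n bt p) = R ρ₁ * htlWedge (mw17Psi T n R) (mw17jtPsiD T n R) p :=
    fun R hR p => mw17tg_W_apply T (M := F) v27pi_not_isField hx n ρ₁ bt hbt hR p
  have hκ : (2 * (g : ℝ) - 2) + 2 * n + Multiset.card E ≤ k₁ := by
    have : ((k₁ + 2 : ℕ) : ℝ) = ((Multiset.card E + 2 * n + 2 * g : ℕ) : ℝ) := by rw [hk]
    push_cast at this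
    linarith
  obtain ⟨C, hC⟩ := mw17tg_glob T n hn hN hd t (mw17g_top_ne_zero n hn t ht) m₁ k₁ hkm
    (mw17tgW T n bt) ρ₁ hW E htup hP0 heps (2 * (g : ℝ) - 2) hκ ε hε
  obtain ⟨Dx, hDx⟩ := mw17kn_exists_divisor (P.ψ (V27pB.x : V27pB T)) hx.transcendental
  obtain ⟨Dρ, hDρ, -⟩ := HasPrincipalDivisors.exists_divisor (K := HtgQb) (P.ψ ρ₁)
    (P.ψ_ne_zero hρ)
  refine ⟨Dx.support ∪ Dρ.support ∪ E.toFinset.image (v27spPlace P), C, fun Q hQ => ?_⟩
  rw [Finset.mem_union, Finset.mem_union, not_or, not_or] at hQ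
  obtain ⟨⟨hQx, hQρ⟩, hQE⟩ := hQ
  refine hC Q ?_ ?_ ?_
  · -- `Q ∉ Ram(x)`
    intro hram
    apply hQx
    have hne : (V27pB.x : V27pB T) - algebraMap HtgQb (V27pB T) (Q V27pB.x) ≠ 0 := by
      intro h0
      have h1 := congrArg P.ψ h0
      rw [map_sub, map_zero, AlgHom.commutes] at h1
      exact rh_sub_ne_zero hx _ h1
    have h2 := mw17jt_two_le_ord (M := F) v27pi_not_isField Q hne hram
    have h3 : (2 : ℤ) ≤ (v27spPlace P Q).ord
        (P.ψ (V27pB.x : V27pB T) - algebraMap HtgQb F (Q V27pB.x)) := by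
      have e : algebraMap (V27pB T) F
          ((V27pB.x : V27pB T) - algebraMap HtgQb (V27pB T) (Q V27pB.x)) =
          P.ψ (V27pB.x : V27pB T) - algebraMap HtgQb F (Q V27pB.x) := by
        show P.ψ _ = _
        rw [map_sub, AlgHom.commutes]
      rw [e] at h2
      exact h2
    have h4 := rh_ordDifferential_of_center hx (v27spPlace P Q) (Q V27pB.x) (by omega)
    rw [Finsupp.mem_support_iff, hDx, h4]
    omega
  · -- `ρ₁(Q) ≠ 0`
    intro h0
    apply hQρ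
    have := (v27sp_ord_pos_iff P Q hρ).2 h0
    rw [Finsupp.mem_support_iff, hDρ]
    omega
  · -- `Q ∉ E`
    intro h0
    apply hQE
    exact Finset.mem_image_of_mem _ (Multiset.mem_toFinset.2 h0)

/-- **(c'), plug form** : `mw17tg_main` with the Gauss package (helper12, `MW17/GaussB.lean`) and
(TUPLE_w, ≥ half, δ-form) for tuples indexed by pairs (helper10, `MW17/Tuple.lean` PART 2) as
hypotheses in their posted literals. -/
theorem mw17tg_main' (hx : IsSepGen HtgQb (P.ψ (V27pB.x : V27pB T))) (g : ℕ)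
    (n : ℕ) (hn : n ≠ 0) (hN : δ.N ≤ n) (hd : ∀ j, δ.d j ≤ n) (t : Mw17Idx δ n)
    (ht : mw17Wt t = n)
    (hpkg : ∃ (ρ₁ : V27pB T) (bt : Mw17Idx δ n → V27pB T) (E : Multiset (Mw17Pt T)) (k₁ : ℕ),
      ρ₁ ≠ 0 ∧
      (∀ i, P.ψ ρ₁ • D HtgQb F (P.ψ (mw17Mon T i)) =
        P.ψ (bt i) • D HtgQb F (P.ψ (V27pB.x : V27pB T))) ∧
      (∀ p : Mw17Idx δ n × Mw17Idx δ n,
        V27pLe (mw17Mon T p.1 * bt p.2 - mw17Mon T p.2 * bt p.1) k₁) ∧
      (∃ p : Mw17Idx δ n × Mw17Idx δ n, mw17Mon T p.1 * bt p.2 - mw17Mon T p.2 * bt p.1 ≠ 0 ∧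
        v27pOrd (mw17Mon T p.1 * bt p.2 - mw17Mon T p.2 * bt p.1) = k₁) ∧
      Ideal.span (Set.range fun p : Mw17Idx δ n × Mw17Idx δ n =>
          mw17Mon T p.1 * bt p.2 - mw17Mon T p.2 * bt p.1) =
        (E.map fun q : Mw17Pt T => RingHom.ker (q : V27pB T →+* HtgQb)).prod ∧
      k₁ + 2 = Multiset.card E + 2 * n + 2 * g)
    (hT : ∀ (a : Mw17Idx δ n × Mw17Idx δ n → V27pB T) (E : Multiset (Mw17Pt T)) (k₁ m₁ : ℕ),
      (∀ p, V27pLe (a p) k₁) → (∃ p, a p ≠ 0 ∧ v27pOrd (a p) = k₁) →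
      Ideal.span (Set.range a) =
        (E.map fun q : Mw17Pt T => RingHom.ker (q : V27pB T →+* HtgQb)).prod →
      k₁ ≤ n * m₁ →
      ∃ C : HtConst HtgQb, ∀ (w : HtAbs HtgQb) (R : Mw17Pt T), R ∉ E →
        htlSup w.1 (mw17Psi T n R) ^ m₁ * mw17Dl T n t w.1 none (some R) ^ (n * m₁ - k₁) *
            (E.map fun P' : Mw17Pt T => mw17Dl T n t w.1 (some P') (some R)).prod ≤
          C.val w.1 * htlSup w.1 (fun p => R (a p)))
    (hP0 : Mw17P0Glob T n t) (heps : Mw17Eps T n t) (ε : ℝ) (hε : 0 < ε) :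
    ∃ (SigT : Finset (Place HtgQb F)) (C : ℝ), ∀ Q : Mw17Pt T, v27spPlace P Q ∉ SigT →
      (2 * (g : ℝ) - 2 - ε) * mw17gH0 T n t (some Q) - C ≤ mw17gBt T n Q := by
  obtain ⟨ρ₁, bt, E, k₁, hρ, hbt, hle, htop, hE, hk⟩ := hpkg
  have hkm : k₁ ≤ n * k₁ := Nat.le_mul_of_pos_left k₁ (Nat.pos_of_ne_zero hn)
  exact mw17tg_main P hx g n hn hN hd t ht ρ₁ hρ bt hbt E k₁ hk k₁ hkm
    (hT (mw17tgW T n bt) E k₁ k₁ hle htop hE hkm) hP0 heps ε hε

end Final

end Fermat.Agent.MW17
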