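import Mathlib
import Fermat.Agent.MW17.Pos.Tangent
import Fermat.Agent.MW17.GaussB
import Fermat.Agent.MW17.TupleDl

/-!
# Program MW (S17), heights half (A), §8.4(c'): the tangent lower bound, plugged (prefix `mw17tg`)

Owner: helper25.  `mw17tg_htan` = `mw17tg_main'` (MW17/Pos/Tangent.lean) with its two inputs
discharged: the Gauss package `mw17gb_package` (helper12, MW17/GaussB.lean) and (TUPLE_w, ≥ half)
`mw17td_ge` (helper10, MW17/TupleDl.lean).  Remaining hypotheses: the three interface statements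
`Mw17BpfLoc T`, `Mw17P0Glob T n t`, `Mw17Eps T n t`.
-/

set_option autoImplicit false
set_option linter.unusedSectionVars false
set_option linter.unusedVariables false
set_option linter.style.haveILetI false

noncomputable section

namespace Fermat.Agent.MW17

open AlgebraicCurve KaehlerDifferential IntermediateField Fermat.Agent.S24 Fermat.Agent.V
  Fermat.Agent.HT Fermat.Agent.V.RR

variable {F : Type*} [Field F] [Algebra HtgQb F] {δ : V27pShape} {T : V27pTable HtgQb δ}
  [IsDedekindDomain (V27pB T)] (P : V27Presented HtgQb F T)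

/-- `ψ x` is a separating variable (characteristic zero). -/
theorem mw17tg_isSepGen_x : IsSepGen HtgQb (P.ψ (V27pB.x : V27pB T)) := by
  haveI := mw17gb_finiteDimensional P
  exact ⟨mw17gb_transcendental P, inferInstance, inferInstance⟩

/-- **(c')** : `βtan(Q) ≥ (2g − 2 − ε) hP0(Q) − C` for all points `Q` whose place avoids a finite set
of places (`htan` of `mw17ps_H8` for `ε = 1/4`). -/
theorem mw17tg_htan {g : ℕ} (R : V27RR HtgQb F g) (n : ℕ) (hn : 2 * g + 1 ≤ n) (hN : δ.N ≤ n)
    (hd : ∀ j, δ.d j ≤ n) (hb : δ.bound < n) (t : Mw17Idx δ n) (ht : mw17Wt t = n)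
    (hloc : Mw17BpfLoc T) (hP0 : Mw17P0Glob T n t) (heps : Mw17Eps T n t)
    (ε : ℝ) (hε : 0 < ε) :
    ∃ (SigT : Finset (Place HtgQb F)) (C : ℝ), ∀ Q : Mw17Pt T, v27spPlace P Q ∉ SigT →
      (2 * (g : ℝ) - 2 - ε) * mw17gH0 T n t (some Q) - C ≤ mw17gBt T n Q := by
  refine mw17tg_main' P (mw17tg_isSepGen_x P) g n (by omega) hN hd t ht
    (mw17gb_package P R n hn) (fun a E k₁ m₁ hle htop hE hk => ?_) hP0 heps ε hε
  obtain ⟨C, hC⟩ := mw17td_ge hloc ht hN hb m₁ k₁ hk a E (le_of_eq hE.symm)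
    (htop.imp fun p hp => ⟨hp.1, hp.2.ge⟩)
  exact ⟨C, fun w R _ => hC w R⟩

end Fermat.Agent.MW17
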